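import Fermat.Agent.ThreeFive.SwitchTwo
import Fermat.Agent.MultRed.Frey

/-!
# The switch with conditions, for the Frey curve
-/

namespace Fermat.Agent.ThreeFive

open WeierstrassCurve
open scoped WeierstrassCurve.Affine

local notation "Qb" => AlgebraicClosure ℚ

/-- Congruent models have the same reduction. -/
theorem reductionMod_eq_of_congr {W W' : WeierstrassCurve ℤ} {q M : ℕ} (hq : q ∣ M)
    (h : W'.a₁ = W.a₁ ∧ W'.a₂ = W.a₂ ∧ W'.a₃ = W.a₃ ∧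
      (M : ℤ) ∣ W'.a₄ - W.a₄ ∧ (M : ℤ) ∣ W'.a₆ - W.a₆) :
    W'.reductionMod q = W.reductionMod q := by
  obtain ⟨h1, h2, h3, h4, h6⟩ := h
  have hq' : (q : ℤ) ∣ (M : ℤ) := Int.natCast_dvd_natCast.2 hq
  have e4 : ((W.a₄ : ℤ) : ZMod q) = W'.a₄ :=
    (ZMod.intCast_eq_intCast_iff_dvd_sub _ _ q).2 (hq'.trans h4)
  have e6 : ((W.a₆ : ℤ) : ZMod q) = W'.a₆ :=
    (ZMod.intCast_eq_intCast_iff_dvd_sub _ _ q).2 (hq'.trans h6)
  ext <;> simp [WeierstrassCurve.reductionMod, h1, h2, h3, e4, e6]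

/-- The integral Frey curve is a semistable model. -/
theorem isSemistableModel_freyCurveInt (P : FreyPackage) : P.freyCurveInt.IsSemistableModel :=
  fun _ hq hd => MultRed.not_dvd_freyCurveInt_c₄ P hq hd

/-- The discriminant of the Frey curve is a square. -/
theorem isSquare_freyCurveInt_Δ (P : FreyPackage) : IsSquare P.freyCurveInt.Δ := by
  set x : ℤ := (P.a * P.b * P.c) ^ P.p
  have e : 256 * P.freyCurveInt.Δ = x ^ 2 := by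
    rw [MultRed.freyCurveInt_Δ_mul, ← pow_mul, mul_comm 2 P.p]
  have h16 : (16 : ℤ) ∣ x := by
    rw [← Int.pow_dvd_pow_iff (two_ne_zero), ← e]
    exact Dvd.intro P.freyCurveInt.Δ (by norm_num)
  obtain ⟨y, hy⟩ := h16
  refine ⟨y, ?_⟩
  rw [hy] at e
  linarith

/-- **The switch.** For the Frey curve and an odd modulus `M`: a semistable `W'` with the same
five-torsion, congruent modulo `M`, with negative discriminant `4ᵏ r`, `0 < k`, `r ≡ 5 (mod 8)`,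
of odd multiplicity at a prime `≡ 3, 5 (mod 8)` where the Frey curve is good, and with
irreducible two-torsion. -/
theorem exists_switch_frey (P : FreyPackage) (M : ℕ) (hM : ¬2 ∣ M) :
    ∃ W' : WeierstrassCurve ℤ,
      W'.IsSemistableModel ∧ W'.Δ < 0 ∧
      (∃ (k : ℕ) (r : ℤ), 0 < k ∧ W'.Δ = 4 ^ k * r ∧ r % 8 = 5) ∧
      (∃ g : ℤ, W'.Δ = P.freyCurveInt.Δ * g ^ 5 ∧ g % 8 = 5 ∧ (M : ℤ) ∣ g - 1 ∧
        ∀ q : ℕ, q.Prime → (q : ℤ) ∣ P.freyCurveInt.Δ → ¬(q : ℤ) ∣ g) ∧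
      ((64 : ℤ) ∣ W'.c₄ - P.freyCurveInt.c₄ ∧ (64 : ℤ) ∣ W'.c₆ - P.freyCurveInt.c₆) ∧
      (∀ q : ℕ, q ∣ M → W'.reductionMod q = P.freyCurveInt.reductionMod q) ∧
      W'.ModRepIsIrreducible 2 ∧
      (∀ x : ℚ, x ^ 3 + (-27 * (W'.c₄ : ℚ)) * x + (-54 * (W'.c₆ : ℚ)) ≠ 0) ∧
      (∃ l : ℕ, l.Prime ∧ (l % 8 = 3 ∨ l % 8 = 5) ∧ ¬(l : ℤ) ∣ P.freyCurveInt.Δ ∧
        (l : ℤ) ∣ W'.Δ ∧ Odd (padicValInt l W'.Δ)) ∧
      (∃ e : Submodule.torsionBy ℤ (P.freyCurve⁄Qb).Point ((5 : ℕ) : ℤ) ≃+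
          Submodule.torsionBy ℤ ((W'.map (Int.castRingHom ℚ))⁄Qb).Point ((5 : ℕ) : ℤ),
        ∀ (σ : Qb ≃ₐ[ℚ] Qb) x, e (σ • x) = σ • e x) ∧
      (∀ ℓ : ℕ, ℓ.Prime → ℓ ≠ 5 → P.freyCurveInt.IsGoodPrimeFor ℓ → W'.IsGoodPrimeFor ℓ →
        (5 : ℤ) ∣ W'.apOfModel ℓ - P.freyCurveInt.apOfModel ℓ) := by
  have hsq := isSquare_freyCurveInt_Δ P
  have h0 := MultRed.freyCurveInt_Δ_ne_zero P
  have h2 := MultRed.two_dvd_freyCurveInt_Δ P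
  have hpos : 0 < P.freyCurveInt.Δ := lt_of_le_of_ne hsq.nonneg h0.symm
  obtain ⟨W', g, eΔ, -, hg8, hMg, hgΔ, hneg, hW', h64, hcong, h2irr, hcub, hl, he⟩ :=
    exists_switch_two P.freyCurveInt (isSemistableModel_freyCurveInt P) h2 hpos M hM
  obtain ⟨k, r, hk, hr, hr8⟩ := exists_four_pow_mul hsq h0 h2 hg8
  refine ⟨W', hW', hneg, ⟨k, r, hk, eΔ.trans hr, hr8⟩, ⟨g, eΔ, hg8, hMg, hgΔ⟩, h64,
    fun q hq => reductionMod_eq_of_congr hq hcong, h2irr, hcub, hl, ?_, ?_⟩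
  · exact MultRed.freyCurveInt_map P ▸ he
  · obtain ⟨e, he'⟩ := he
    exact fun ℓ hℓ h5 hg hg' => five_dvd_apOfModel_sub _ _ e he' hℓ h5 hg hg'

end Fermat.Agent.ThreeFive
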