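import Fermat.Agent.ThreeFive.Family
import Mathlib.RingTheory.RootsOfUnity.AlgebraicallyClosed
import Mathlib.Algebra.Polynomial.FieldDivision

/-!
# The family has no three-division branch

There is no polynomial `p` of degree at most ten with `ψ₃(t, p t) = 0` along the family.
-/

namespace Fermat.Agent.ThreeFive

open Polynomial

/-- The three-division polynomial of `y² = x³ + A x + B`. -/
def psi3 {R : Type*} [CommRing R] (A B x : R) : R :=
  3 * x ^ 4 + 6 * A * x ^ 2 + 12 * B * x - A ^ 2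

lemma map_psi3 {R S : Type*} [CommRing R] [CommRing S] (φ : R →+* S) (A B x : R) :
    φ (psi3 A B x) = psi3 (φ A) (φ B) (φ x) := by simp [psi3, map_ofNat]

section

variable {K : Type*} [Field K] [CharZero K]

lemma w_not_both_zero {a b : K} (h0 : w0 a b = 0) (h1 : w1 a b = 0) : a = 0 ∧ b = 0 := by
  by_cases ha : a = 0
  · subst ha; simp [w1] at h1; exact ⟨rfl, h1⟩
  exfalso
  have e0 : a ^ 10 - 66 * a ^ 5 * b ^ 5 - 11 * b ^ 10 = 0 := by
    refine mul_left_cancel₀ ha ?_
    rw [mul_zero]; simp only [w0] at h0; linear_combination h0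
  by_cases hb : b = 0
  · subst hb; simp at e0; exact ha e0
  have e1 : -11 * a ^ 10 + 66 * a ^ 5 * b ^ 5 + b ^ 10 = 0 := by
    refine mul_left_cancel₀ hb ?_
    rw [mul_zero]; simp only [w1] at h1; linear_combination h1
  have e2 : a ^ 10 + b ^ 10 = 0 := by
    linear_combination (-1 / 10 : K) * e0 + (-1 / 10 : K) * e1
  have e3 : a ^ 5 * (2 * a ^ 5 - 11 * b ^ 5) = 0 := by
    linear_combination (1 / 6 : K) * e0 + (11 / 6 : K) * e2
  have e4 : 2 * a ^ 5 - 11 * b ^ 5 = 0 := by simpa [ha] using e3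
  have e5 : (125 : K) * b ^ 10 = 0 := by
    linear_combination 4 * e2 - (2 * a ^ 5 + 11 * b ^ 5) * e4
  simp [hb] at e5

omit [CharZero K] in
lemma derivative_ff (A B : K[X]) :
    derivative (ff A B) = -w1 A B * derivative A + w0 A B * derivative B := by
  simp only [ff, w0, w1, derivative_mul, derivative_sub, derivative_pow, map_ofNat,
    derivative_ofNat, Nat.cast_ofNat]
  ring

/-- A zero of `ff` along the pencil is simple. -/
lemma pencil_zero_simple {a b t : K} (hf : ff a b ≠ 0)
    (hD : ff (a + t * w0 a b) (b + t * w1 a b) = 0) :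
    (derivative (ff (lineA a b) (lineB a b))).eval t ≠ 0 := by
  set α := a + t * w0 a b
  set β := b + t * w1 a b
  intro h
  rw [derivative_ff, ← coe_evalRingHom] at h
  simp only [map_add, map_neg, map_mul, map_w0, map_w1, coe_evalRingHom, eval_lineA,
    eval_lineB] at h
  simp [lineA, lineB] at h
  have e1 : α * w1 α β - β * w0 α β = 0 := by rw [det_w, hD, mul_zero]
  have hdet : α * w1 a b - β * w0 a b = -12 * ff a b := by
    rw [← det_w]; simp only [α, β]; ring
  have k0 : (-12 * ff a b) * w1 α β = 0 := by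
    rw [← hdet]; linear_combination w1 a b * e1 + β * h
  have k1 : (-12 * ff a b) * w0 α β = 0 := by
    rw [← hdet]; linear_combination w0 a b * e1 + α * h
  obtain ⟨hα, hβ⟩ := w_not_both_zero (by simpa [hf] using k1) (by simpa [hf] using k0)
  exact lineA_lineB_not_both hf hα hβ

end

section

variable {c4 c6 : ℚ}

/-- Five simple zeros of the cuspidal polynomial. -/
lemma exists_simple_roots (h : c4 ^ 3 ≠ c6 ^ 2) :
    ∃ S : Finset ℂ, 5 ≤ S.card ∧ ∀ t ∈ S,
      ((FD c4 c6).map (algebraMap ℚ ℂ)).IsRoot t ∧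
      (derivative ((FD c4 c6).map (algebraMap ℚ ℂ))).eval t ≠ 0 ∧
      ((F4 c4 c6).map (algebraMap ℚ ℂ)).eval t ≠ 0 := by
  classical
  obtain ⟨a, b, hH, hT, hf⟩ := exists_complex_point h
  obtain ⟨e4, -, eD⟩ := pencil_spec hH hT
  obtain ⟨v, hv⟩ := IsAlgClosed.exists_root (X ^ 2 - C 11 * X - 1 : ℂ[X])
    (by rw [show (X ^ 2 - C 11 * X - 1 : ℂ[X]).degree = 2 by compute_degree!]; norm_num)
  obtain ⟨ρ, hρ⟩ := IsAlgClosed.exists_pow_nat_eq v (show 0 < 5 by norm_num)
  have hv' : v ^ 2 - 11 * v - 1 = 0 := by simpa [IsRoot] using hv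
  have hρ0 : ρ ≠ 0 := by rintro rfl; simp at hρ; simp [← hρ] at hv'
  obtain ⟨ζ, hζ⟩ := HasEnoughRootsOfUnity.exists_primitiveRoot ℂ 5
  set Z : Finset ℂ := insert 0 ((Finset.range 5).image fun i => ζ ^ i * ρ) with hZdef
  have hZ : 6 ≤ Z.card := by
    rw [hZdef, Finset.card_insert_of_notMem, Finset.card_image_of_injOn, Finset.card_range]
    · intro i hi j hj e
      exact hζ.pow_inj (Finset.mem_range.1 hi) (Finset.mem_range.1 hj) (mul_right_cancel₀ hρ0 e)
    · simp [hρ0, hζ.ne_zero (by norm_num : (5 : ℕ) ≠ 0)]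
  have hroot : ∀ z ∈ Z, ff z 1 = 0 := by
    intro z hz
    simp only [hZdef, Finset.mem_insert, Finset.mem_image, Finset.mem_range] at hz
    rcases hz with rfl | ⟨i, -, rfl⟩
    · simp [ff]
    · have h5 : (ζ ^ i * ρ) ^ 5 = v := by
        rw [mul_pow, hρ, ← pow_mul, mul_comm i, pow_mul, hζ.pow_eq_one, one_pow, one_mul]
      simp only [ff, mul_eq_zero]
      right
      linear_combination ((ζ ^ i * ρ) ^ 5 + v - 11) * h5 + hv'
  set G := Z.filter fun z => w0 a b - z * w1 a b ≠ 0
  have hG : 5 ≤ G.card := by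
    have h1 : (Z.filter fun z => ¬(w0 a b - z * w1 a b ≠ 0)).card ≤ 1 := by
      refine Finset.card_le_one.2 fun x hx y hy => ?_
      simp only [Finset.mem_filter, not_not] at hx hy
      by_contra hxy
      have hw1 : w1 a b = 0 := by
        have : (x - y) * w1 a b = 0 := by linear_combination hy.2 - hx.2
        simpa [sub_eq_zero, hxy] using this
      have hw0 : w0 a b = 0 := by simpa [hw1] using hx.2
      have := det_w a b
      rw [hw0, hw1] at this
      exact hf (by linear_combination (1 / 12 : ℂ) * this)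
    have h2 := Finset.card_filter_add_card_filter_not (s := Z) (fun z => w0 a b - z * w1 a b ≠ 0)
    simp only [G]
    omega
  set τ : ℂ → ℂ := fun z => (z * b - a) / (w0 a b - z * w1 a b)
  have hpt : ∀ z ∈ G, a + τ z * w0 a b = z * (b + τ z * w1 a b) := by
    intro z hz
    have hne := (Finset.mem_filter.1 hz).2
    have : τ z * (w0 a b - z * w1 a b) = z * b - a := div_mul_cancel₀ _ hne
    linear_combination this
  have hb : ∀ z ∈ G, b + τ z * w1 a b ≠ 0 := fun z hz e =>
    lineA_lineB_not_both hf (by rw [hpt z hz, e, mul_zero]) e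
  refine ⟨G.image τ, ?_, ?_⟩
  · rw [Finset.card_image_of_injOn]
    · exact hG
    · intro x hx y hy e
      have h1 := hpt x hx
      rw [e, hpt y hy] at h1
      exact (mul_right_cancel₀ (hb y hy) h1).symm
  · intro t ht
    obtain ⟨z, hz, rfl⟩ := Finset.mem_image.1 ht
    have hD : ff (a + τ z * w0 a b) (b + τ z * w1 a b) = 0 := by
      have e : ff (a + τ z * w0 a b) (b + τ z * w1 a b) =
          (b + τ z * w1 a b) ^ 12 * ff z 1 := by
        rw [hpt z hz]; simp only [ff]; ring
      rw [e, hroot z (Finset.mem_filter.1 hz).1, mul_zero]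
    refine ⟨?_, ?_, ?_⟩
    · have := congrArg (Polynomial.eval (τ z)) eD
      rw [← coe_evalRingHom, map_ff, coe_evalRingHom, eval_lineA, eval_lineB, hD] at this
      simpa [IsRoot, hf] using this.symm
    · intro h0
      apply pencil_zero_simple hf hD
      rw [eD, derivative_C_mul, eval_mul, h0, mul_zero]
    · intro h0
      rw [← e4, ← coe_evalRingHom, map_Hf, coe_evalRingHom, eval_lineA, eval_lineB] at h0
      obtain ⟨h1, h2⟩ := eq_zero_of_Hf_ff h0 hD
      exact lineA_lineB_not_both hf h1 h2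

/-- There is no polynomial branch of three-division points along the family. -/
theorem no_branch (h : c4 ^ 3 ≠ c6 ^ 2) (p : ℂ[X]) (hp : p.natDegree ≤ 10) :
    psi3 (-27 * (F4 c4 c6).map (algebraMap ℚ ℂ)) (-54 * (F6 c4 c6).map (algebraMap ℚ ℂ)) p ≠ 0 := by
  intro hψ
  set A : ℂ[X] := -27 * (F4 c4 c6).map (algebraMap ℚ ℂ) with hA
  set B : ℂ[X] := -54 * (F6 c4 c6).map (algebraMap ℚ ℂ) with hB
  set D : ℂ[X] := (FD c4 c6).map (algebraMap ℚ ℂ) with hD
  set c : ℂ := algebraMap ℚ ℂ (c4 ^ 3 - c6 ^ 2) with hc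
  have hc0 : c ≠ 0 := by
    rw [hc, _root_.map_ne_zero]; exact sub_ne_zero.2 h
  have hdisc : 4 * A ^ 3 + 27 * B ^ 2 = -78732 * C c * D ^ 5 := by
    have e := congrArg (Polynomial.map (algebraMap ℚ ℂ)) (F_disc h)
    simp only [Polynomial.map_sub, Polynomial.map_pow, Polynomial.map_mul, Polynomial.map_C,
      ← hc, ← hD] at e
    rw [hA, hB]; linear_combination (-78732 : ℂ[X]) * e
  set u := A + 3 * p ^ 2 with hu
  set v := 3 * A + p ^ 2 with hv
  have key : u ^ 3 * v = -1259712 * C c * p ^ 2 * D ^ 5 := by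
    have : (9 : ℂ[X]) * (u ^ 3 * v) = 9 * (-1259712 * C c * p ^ 2 * D ^ 5) := by
      simp only [psi3] at hψ
      rw [hu, hv]
      linear_combination (144 * p ^ 2) * hdisc -
        27 * (12 * p * B + A ^ 2 - 6 * A * p ^ 2 - 3 * p ^ 4) * hψ
    exact mul_left_cancel₀ (by norm_num) this
  obtain ⟨S, hS, hroots⟩ := exists_simple_roots h
  have hdvd : ∀ t ∈ S, (X - C t) ^ 5 ∣ v := by
    intro t ht
    obtain ⟨hD0, hD1, hF⟩ := hroots t ht
    have hA0 : A.eval t ≠ 0 := by
      rw [hA, eval_mul]; simpa using hF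
    obtain ⟨G, hG⟩ := dvd_iff_isRoot.2 hD0
    rw [← hD] at hG hD1
    have hG0 : G.eval t ≠ 0 := by
      intro e; apply hD1; rw [hG, derivative_mul]; simp [e]
    have hu0 : u.eval t ≠ 0 := by
      intro e
      have hp0 : p.eval t ≠ 0 := by
        intro e'; apply hA0
        simpa [hu, e'] using e
      have hv0 : v.eval t ≠ 0 := by
        intro e'; apply hp0
        have h1 : A.eval t + 3 * p.eval t ^ 2 = 0 := by simpa [hu] using e
        have h2 : 3 * A.eval t + p.eval t ^ 2 = 0 := by simpa [hv] using e'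
        have : (8 : ℂ) * p.eval t ^ 2 = 0 := by linear_combination 3 * h1 - h2
        simpa using this
      obtain ⟨u1, hu1⟩ := dvd_iff_isRoot.2 e
      have hXne : (X - C t : ℂ[X]) ≠ 0 := X_sub_C_ne_zero t
      have k1 : u1 ^ 3 * v = (X - C t) ^ 2 * (-1259712 * C c * p ^ 2 * G ^ 5) := by
        refine mul_left_cancel₀ (pow_ne_zero 3 hXne) ?_
        rw [hu1, hG] at key; linear_combination key
      have e1 : u1.eval t = 0 := by
        have := congrArg (Polynomial.eval t) k1
        simpa [hv0] using this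
      obtain ⟨u2, hu2⟩ := dvd_iff_isRoot.2 e1
      have k2 : (X - C t) * (u2 ^ 3 * v) = -1259712 * C c * p ^ 2 * G ^ 5 := by
        refine mul_left_cancel₀ (pow_ne_zero 2 hXne) ?_
        rw [hu2] at k1; linear_combination k1
      have := congrArg (Polynomial.eval t) k2
      simp [hc0, hp0, hG0] at this
    have hcop : IsCoprime ((X - C t) ^ 5) (u ^ 3) :=
      (((irreducible_X_sub_C t).coprime_iff_not_dvd).2
        (fun hd => hu0 (dvd_iff_isRoot.1 hd))).pow
    refine hcop.dvd_of_dvd_mul_left ⟨-1259712 * C c * p ^ 2 * G ^ 5, ?_⟩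
    rw [key, hG]; ring
  have hprod : (∏ t ∈ S, (X - C t) ^ 5) ∣ v := by
    refine Finset.prod_dvd_of_coprime ?_ hdvd
    intro x _ y _ hxy
    exact (pairwise_coprime_X_sub_C Function.injective_id hxy).pow
  have hdeg : v.natDegree ≤ 20 := by
    rw [hv, hA]
    refine (natDegree_add_le _ _).trans (max_le ?_ ?_)
    · rw [← mul_assoc, show (3 * -27 : ℂ[X]) = C (-81) by rw [map_neg, map_ofNat]; norm_num]
      exact (natDegree_C_mul_le _ _).trans (natDegree_map_le.trans (natDegree_F4_le c4 c6))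
    · exact natDegree_pow_le.trans (by omega)
  have hv0 : v = 0 := by
    by_contra hv0
    have h25 := (natDegree_le_of_dvd hprod hv0).trans hdeg
    rw [natDegree_prod _ _ fun t _ => pow_ne_zero _ (X_sub_C_ne_zero t)] at h25
    simp [natDegree_pow] at h25
    omega
  rw [hv0, mul_zero] at key
  have hD0 : D ≠ 0 := by
    intro e
    have := congrArg (Polynomial.eval 0) e
    simp [hD, eval_map, eval₂_at_zero, coeff_zero_eq_eval_zero, FD_eval_zero h] at this
  have hp0 : p = 0 := by simpa [hc0, hD0] using key.symm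
  have hA0 : A = 0 := by simpa [hv, hp0] using hv0
  obtain ⟨t, ht⟩ : S.Nonempty := Finset.card_pos.1 (by omega)
  apply (hroots t ht).2.2
  have := congrArg (Polynomial.eval t) hA0
  rw [hA] at this
  simpa using this

end

end Fermat.Agent.ThreeFive
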