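import Fermat.Agent.ThreeFive.Forms
import Mathlib.Algebra.CharZero.Defs
import Mathlib.Algebra.Field.Defs
import Mathlib.Tactic.FieldSimp

/-!
# Explicit points of order five on Klein's level five curve
`Y² = X³ - 27 Hf(a,b) X - 54 Tf(a,b)`, with their doubling identities.
-/

namespace Fermat.Agent.ThreeFive

section Forms

variable {R : Type*} [Field R]

/-- Auxiliary form `P1x`. -/
def P1x (a b : R) : R :=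
  3 * a ^ 10 + 36 * a ^ 9 * b + 72 * a ^ 8 * b ^ 2 + 108 * a ^ 7 * b ^ 3 + 180 * a ^ 6 * b ^ 4
    + 90 * a ^ 5 * b ^ 5 + 72 * a ^ 4 * b ^ 6 - 36 * a ^ 3 * b ^ 7 + 36 * a ^ 2 * b ^ 8 + 3 * b ^ 10

/-- Auxiliary form `P1y`. -/
def P1y (a b : R) : R :=
  108 * a ^ 14 * b + 432 * a ^ 13 * b ^ 2 + 972 * a ^ 12 * b ^ 3 + 1620 * a ^ 11 * b ^ 4 + 2700 * a ^ 10 * b ^ 5
    + 3132 * a ^ 9 * b ^ 6 + 2268 * a ^ 8 * b ^ 7 + 648 * a ^ 7 * b ^ 8 + 540 * a ^ 6 * b ^ 9 + 432 * a ^ 4 * b ^ 11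
    + 108 * a ^ 3 * b ^ 12 + 108 * a ^ 2 * b ^ 13

/-- Auxiliary form `P1L`. -/
def P1L (a b : R) : R :=
  3 * a ^ 5 + 12 * a ^ 4 * b + 6 * a ^ 3 * b ^ 2 + 18 * a ^ 2 * b ^ 3 - 6 * a * b ^ 4 + 3 * b ^ 5

/-- Auxiliary form `P2x`. -/
def P2x (a b : R) : R :=
  3 * a ^ 10 + 36 * a ^ 8 * b ^ 2 + 36 * a ^ 7 * b ^ 3 + 72 * a ^ 6 * b ^ 4 - 90 * a ^ 5 * b ^ 5
    + 180 * a ^ 4 * b ^ 6 - 108 * a ^ 3 * b ^ 7 + 72 * a ^ 2 * b ^ 8 - 36 * a * b ^ 9 + 3 * b ^ 10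

/-- Auxiliary form `P2y`. -/
def P2y (a b : R) : R :=
  108 * a ^ 13 * b ^ 2 - 108 * a ^ 12 * b ^ 3 + 432 * a ^ 11 * b ^ 4 + 540 * a ^ 9 * b ^ 6 - 648 * a ^ 8 * b ^ 7
    + 2268 * a ^ 7 * b ^ 8 - 3132 * a ^ 6 * b ^ 9 + 2700 * a ^ 5 * b ^ 10 - 1620 * a ^ 4 * b ^ 11
    + 972 * a ^ 3 * b ^ 12 - 432 * a ^ 2 * b ^ 13 + 108 * a * b ^ 14

/-- Auxiliary form `P2L`. -/
def P2L (a b : R) : R :=
  3 * a ^ 5 + 6 * a ^ 4 * b + 18 * a ^ 3 * b ^ 2 - 6 * a ^ 2 * b ^ 3 + 12 * a * b ^ 4 - 3 * b ^ 5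

/-- Auxiliary form `R1x`. -/
def R1x (a b z : R) : R :=
  -57 / 5 * a ^ 10 + 36 / 5 * a ^ 10 * z ^ 2 + 36 / 5 * a ^ 10 * z ^ 3 - 198 / 5 * a ^ 5 * b ^ 5
    - 396 / 5 * a ^ 5 * b ^ 5 * z ^ 2 - 396 / 5 * a ^ 5 * b ^ 5 * z ^ 3 - 93 / 5 * b ^ 10 - 36 / 5 * b ^ 10 * z ^ 2
    - 36 / 5 * b ^ 10 * z ^ 3

/-- Auxiliary form `R1y`. -/
def R1y (a b z : R) : R :=
  -216 / 5 * a ^ 15 - 432 / 5 * a ^ 15 * z - 324 / 5 * a ^ 15 * z ^ 2 - 108 / 5 * a ^ 15 * z ^ 3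
    + 2484 / 5 * a ^ 10 * b ^ 5 + 4968 / 5 * a ^ 10 * b ^ 5 * z + 3456 / 5 * a ^ 10 * b ^ 5 * z ^ 2
    + 1512 / 5 * a ^ 10 * b ^ 5 * z ^ 3 - 972 / 5 * a ^ 5 * b ^ 10 - 1944 / 5 * a ^ 5 * b ^ 10 * z
    + 1512 / 5 * a ^ 5 * b ^ 10 * z ^ 2 - 3456 / 5 * a ^ 5 * b ^ 10 * z ^ 3 - 108 / 5 * b ^ 15 - 216 / 5 * b ^ 15 * z
    + 108 / 5 * b ^ 15 * z ^ 2 - 324 / 5 * b ^ 15 * z ^ 3

/-- Auxiliary form `R1L`. -/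
def R1L (a b z : R) : R :=
  21 / 5 * a ^ 5 + 42 / 5 * a ^ 5 * z + 18 / 5 * a ^ 5 * z ^ 2 + 24 / 5 * a ^ 5 * z ^ 3 - 3 / 5 * b ^ 5
    - 6 / 5 * b ^ 5 * z - 24 / 5 * b ^ 5 * z ^ 2 + 18 / 5 * b ^ 5 * z ^ 3

/-- Auxiliary form `R2x`. -/
def R2x (a b z : R) : R :=
  -93 / 5 * a ^ 10 - 36 / 5 * a ^ 10 * z ^ 2 - 36 / 5 * a ^ 10 * z ^ 3 + 198 / 5 * a ^ 5 * b ^ 5
    + 396 / 5 * a ^ 5 * b ^ 5 * z ^ 2 + 396 / 5 * a ^ 5 * b ^ 5 * z ^ 3 - 57 / 5 * b ^ 10 + 36 / 5 * b ^ 10 * z ^ 2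
    + 36 / 5 * b ^ 10 * z ^ 3

/-- Auxiliary form `R2y`. -/
def R2y (a b z : R) : R :=
  108 / 5 * a ^ 15 + 216 / 5 * a ^ 15 * z - 108 / 5 * a ^ 15 * z ^ 2 + 324 / 5 * a ^ 15 * z ^ 3
    - 972 / 5 * a ^ 10 * b ^ 5 - 1944 / 5 * a ^ 10 * b ^ 5 * z + 1512 / 5 * a ^ 10 * b ^ 5 * z ^ 2
    - 3456 / 5 * a ^ 10 * b ^ 5 * z ^ 3 - 2484 / 5 * a ^ 5 * b ^ 10 - 4968 / 5 * a ^ 5 * b ^ 10 * z
    - 3456 / 5 * a ^ 5 * b ^ 10 * z ^ 2 - 1512 / 5 * a ^ 5 * b ^ 10 * z ^ 3 - 216 / 5 * b ^ 15 - 432 / 5 * b ^ 15 * z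
    - 324 / 5 * b ^ 15 * z ^ 2 - 108 / 5 * b ^ 15 * z ^ 3

/-- Auxiliary form `R2L`. -/
def R2L (a b z : R) : R :=
  3 / 5 * a ^ 5 + 6 / 5 * a ^ 5 * z + 24 / 5 * a ^ 5 * z ^ 2 - 18 / 5 * a ^ 5 * z ^ 3 + 21 / 5 * b ^ 5
    + 42 / 5 * b ^ 5 * z + 18 / 5 * b ^ 5 * z ^ 2 + 24 / 5 * b ^ 5 * z ^ 3

end Forms

section Identities

variable {R : Type*} [Field R] [CharZero R] {a b z : R}

omit [CharZero R] in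
lemma P1_eq :
    P1y a b ^ 2 = P1x a b ^ 3 - 27 * Hf a b * P1x a b - 54 * Tf a b := by
  simp only [P1x, P1y, Hf, Tf]
  ring

omit [CharZero R] in
lemma P2_eq :
    P2y a b ^ 2 = P2x a b ^ 3 - 27 * Hf a b * P2x a b - 54 * Tf a b := by
  simp only [P2x, P2y, Hf, Tf]
  ring

lemma R1_eq (hz : z ^ 4 + z ^ 3 + z ^ 2 + z + 1 = 0) :
    R1y a b z ^ 2 = R1x a b z ^ 3 - 27 * Hf a b * R1x a b z - 54 * Tf a b := by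
  simp only [R1x, R1y, Hf, Tf]
  linear_combination (373248 / 125 * a ^ 30 + 559872 / 125 * a ^ 30 * z + 373248 / 125 * a ^ 30 * z ^ 2 - 93312 / 125 * a ^ 30 * z ^ 4
    - 46656 / 125 * a ^ 30 * z ^ 5 - 8817984 / 125 * a ^ 25 * b ^ 5 - 12643776 / 125 * a ^ 25 * b ^ 5 * z
    - 8817984 / 125 * a ^ 25 * b ^ 5 * z ^ 2 + 3079296 / 125 * a ^ 25 * b ^ 5 * z ^ 4 + 1539648 / 125 * a ^ 25 * b ^ 5 * z ^ 5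
    + 11710656 / 25 * a ^ 20 * b ^ 10 + 14649984 / 25 * a ^ 20 * b ^ 10 * z + 11710656 / 25 * a ^ 20 * b ^ 10 * z ^ 2
    - 6718464 / 25 * a ^ 20 * b ^ 10 * z ^ 4 - 3359232 / 25 * a ^ 20 * b ^ 10 * z ^ 5 - 16282944 / 25 * a ^ 15 * b ^ 15
    - 2846016 / 25 * a ^ 15 * b ^ 15 * z - 16282944 / 25 * a ^ 15 * b ^ 15 * z ^ 2 + 23607936 / 25 * a ^ 15 * b ^ 15 * z ^ 4
    + 11803968 / 25 * a ^ 15 * b ^ 15 * z ^ 5 + 16282944 / 25 * a ^ 10 * b ^ 20 - 14649984 / 25 * a ^ 10 * b ^ 20 * z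
    + 16282944 / 25 * a ^ 10 * b ^ 20 * z ^ 2 + 6718464 / 25 * a ^ 10 * b ^ 20 * z ^ 4 + 3359232 / 25 * a ^ 10 * b ^ 20 * z ^ 5
    + 16842816 / 125 * a ^ 5 * b ^ 25 - 12643776 / 125 * a ^ 5 * b ^ 25 * z + 16842816 / 125 * a ^ 5 * b ^ 25 * z ^ 2
    + 3079296 / 125 * a ^ 5 * b ^ 25 * z ^ 4 + 1539648 / 125 * a ^ 5 * b ^ 25 * z ^ 5 + 793152 / 125 * b ^ 30
    - 559872 / 125 * b ^ 30 * z + 793152 / 125 * b ^ 30 * z ^ 2 + 93312 / 125 * b ^ 30 * z ^ 4 + 46656 / 125 * b ^ 30 * z ^ 5) * hz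

lemma R2_eq (hz : z ^ 4 + z ^ 3 + z ^ 2 + z + 1 = 0) :
    R2y a b z ^ 2 = R2x a b z ^ 3 - 27 * Hf a b * R2x a b z - 54 * Tf a b := by
  simp only [R2x, R2y, Hf, Tf]
  linear_combination (793152 / 125 * a ^ 30 - 559872 / 125 * a ^ 30 * z + 793152 / 125 * a ^ 30 * z ^ 2 + 93312 / 125 * a ^ 30 * z ^ 4
    + 46656 / 125 * a ^ 30 * z ^ 5 - 16842816 / 125 * a ^ 25 * b ^ 5 + 12643776 / 125 * a ^ 25 * b ^ 5 * z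
    - 16842816 / 125 * a ^ 25 * b ^ 5 * z ^ 2 - 3079296 / 125 * a ^ 25 * b ^ 5 * z ^ 4 - 1539648 / 125 * a ^ 25 * b ^ 5 * z ^ 5
    + 16282944 / 25 * a ^ 20 * b ^ 10 - 14649984 / 25 * a ^ 20 * b ^ 10 * z + 16282944 / 25 * a ^ 20 * b ^ 10 * z ^ 2
    + 6718464 / 25 * a ^ 20 * b ^ 10 * z ^ 4 + 3359232 / 25 * a ^ 20 * b ^ 10 * z ^ 5 + 16282944 / 25 * a ^ 15 * b ^ 15
    + 2846016 / 25 * a ^ 15 * b ^ 15 * z + 16282944 / 25 * a ^ 15 * b ^ 15 * z ^ 2 - 23607936 / 25 * a ^ 15 * b ^ 15 * z ^ 4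
    - 11803968 / 25 * a ^ 15 * b ^ 15 * z ^ 5 + 11710656 / 25 * a ^ 10 * b ^ 20 + 14649984 / 25 * a ^ 10 * b ^ 20 * z
    + 11710656 / 25 * a ^ 10 * b ^ 20 * z ^ 2 - 6718464 / 25 * a ^ 10 * b ^ 20 * z ^ 4 - 3359232 / 25 * a ^ 10 * b ^ 20 * z ^ 5
    + 8817984 / 125 * a ^ 5 * b ^ 25 + 12643776 / 125 * a ^ 5 * b ^ 25 * z + 8817984 / 125 * a ^ 5 * b ^ 25 * z ^ 2
    - 3079296 / 125 * a ^ 5 * b ^ 25 * z ^ 4 - 1539648 / 125 * a ^ 5 * b ^ 25 * z ^ 5 + 373248 / 125 * b ^ 30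
    + 559872 / 125 * b ^ 30 * z + 373248 / 125 * b ^ 30 * z ^ 2 - 93312 / 125 * b ^ 30 * z ^ 4 - 46656 / 125 * b ^ 30 * z ^ 5) * hz

omit [CharZero R] in
lemma P1_slope :
    2 * P1L a b * P1y a b = 3 * P1x a b ^ 2 - 27 * Hf a b := by
  simp only [P1x, P1y, P1L, Hf]
  ring

omit [CharZero R] in
lemma P1_dblX :
    P2x a b = P1L a b ^ 2 - 2 * P1x a b := by
  simp only [P1x, P1L, P2x]
  ring

omit [CharZero R] in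
lemma P1_dblY :
    P2y a b = -(P1L a b * (P2x a b - P1x a b) + P1y a b) := by
  simp only [P1x, P1y, P1L, P2x, P2y]
  ring

omit [CharZero R] in
lemma P2_slope :
    2 * P2L a b * P2y a b = 3 * P2x a b ^ 2 - 27 * Hf a b := by
  simp only [P2x, P2y, P2L, Hf]
  ring

omit [CharZero R] in
lemma P2_dblX :
    P1x a b = P2L a b ^ 2 - 2 * P2x a b := by
  simp only [P1x, P2x, P2L]
  ring

omit [CharZero R] in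
lemma P2_dblY :
    -P1y a b = -(P2L a b * (P1x a b - P2x a b) + P2y a b) := by
  simp only [P1x, P1y, P2x, P2y, P2L]
  ring

lemma R1_slope (hz : z ^ 4 + z ^ 3 + z ^ 2 + z + 1 = 0) :
    2 * R1L a b z * R1y a b z = 3 * R1x a b z ^ 2 - 27 * Hf a b := by
  simp only [R1x, R1y, R1L, Hf]
  linear_combination (-18144 / 25 * a ^ 20 - 18144 / 25 * a ^ 20 * z - 9072 / 25 * a ^ 20 * z ^ 2 + 191808 / 25 * a ^ 15 * b ^ 5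
    + 230688 / 25 * a ^ 15 * b ^ 5 * z + 154224 / 25 * a ^ 15 * b ^ 5 * z ^ 2 + 128304 / 25 * a ^ 10 * b ^ 10
    - 351216 / 25 * a ^ 10 * b ^ 10 * z - 574128 / 25 * a ^ 10 * b ^ 10 * z ^ 2 - 263088 / 25 * a ^ 5 * b ^ 15
    + 268272 / 25 * a ^ 5 * b ^ 15 * z - 225504 / 25 * a ^ 5 * b ^ 15 * z ^ 2 - 24624 / 25 * b ^ 20
    + 27216 / 25 * b ^ 20 * z - 15552 / 25 * b ^ 20 * z ^ 2) * hz

lemma R1_dblX (hz : z ^ 4 + z ^ 3 + z ^ 2 + z + 1 = 0) :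
    R2x a b z = R1L a b z ^ 2 - 2 * R1x a b z := by
  simp only [R1x, R1L, R2x]
  linear_combination (-1476 / 25 * a ^ 10 - 288 / 25 * a ^ 10 * z - 576 / 25 * a ^ 10 * z ^ 2 - 864 / 25 * a ^ 5 * b ^ 5
    + 1368 / 25 * a ^ 5 * b ^ 5 * z - 864 / 25 * a ^ 5 * b ^ 5 * z ^ 2 - 1224 / 25 * b ^ 10 + 1188 / 25 * b ^ 10 * z
    - 324 / 25 * b ^ 10 * z ^ 2) * hz

lemma R1_dblY (hz : z ^ 4 + z ^ 3 + z ^ 2 + z + 1 = 0) :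
    R2y a b z = -(R1L a b z * (R2x a b z - R1x a b z) + R1y a b z) := by
  simp only [R1x, R1y, R1L, R2x, R2y]
  linear_combination (-1296 / 25 * a ^ 15 - 1296 / 25 * a ^ 15 * z - 1728 / 25 * a ^ 15 * z ^ 2 + 15984 / 25 * a ^ 10 * b ^ 5
    + 15984 / 25 * a ^ 10 * b ^ 5 * z + 17712 / 25 * a ^ 10 * b ^ 5 * z ^ 2 - 17712 / 25 * a ^ 5 * b ^ 10
    - 17712 / 25 * a ^ 5 * b ^ 10 * z + 15984 / 25 * a ^ 5 * b ^ 10 * z ^ 2 - 1728 / 25 * b ^ 15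
    - 1728 / 25 * b ^ 15 * z + 1296 / 25 * b ^ 15 * z ^ 2) * hz

lemma R2_slope (hz : z ^ 4 + z ^ 3 + z ^ 2 + z + 1 = 0) :
    2 * R2L a b z * R2y a b z = 3 * R2x a b z ^ 2 - 27 * Hf a b := by
  simp only [R2x, R2y, R2L, Hf]
  linear_combination (-24624 / 25 * a ^ 20 + 27216 / 25 * a ^ 20 * z - 15552 / 25 * a ^ 20 * z ^ 2 + 263088 / 25 * a ^ 15 * b ^ 5
    - 268272 / 25 * a ^ 15 * b ^ 5 * z + 225504 / 25 * a ^ 15 * b ^ 5 * z ^ 2 + 128304 / 25 * a ^ 10 * b ^ 10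
    - 351216 / 25 * a ^ 10 * b ^ 10 * z - 574128 / 25 * a ^ 10 * b ^ 10 * z ^ 2 - 191808 / 25 * a ^ 5 * b ^ 15
    - 230688 / 25 * a ^ 5 * b ^ 15 * z - 154224 / 25 * a ^ 5 * b ^ 15 * z ^ 2 - 18144 / 25 * b ^ 20
    - 18144 / 25 * b ^ 20 * z - 9072 / 25 * b ^ 20 * z ^ 2) * hz

lemma R2_dblX (hz : z ^ 4 + z ^ 3 + z ^ 2 + z + 1 = 0) :
    R1x a b z = R2L a b z ^ 2 - 2 * R2x a b z := by
  simp only [R1x, R2x, R2L]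
  linear_combination (-1224 / 25 * a ^ 10 + 1188 / 25 * a ^ 10 * z - 324 / 25 * a ^ 10 * z ^ 2 + 864 / 25 * a ^ 5 * b ^ 5
    - 1368 / 25 * a ^ 5 * b ^ 5 * z + 864 / 25 * a ^ 5 * b ^ 5 * z ^ 2 - 1476 / 25 * b ^ 10 - 288 / 25 * b ^ 10 * z
    - 576 / 25 * b ^ 10 * z ^ 2) * hz

lemma R2_dblY (hz : z ^ 4 + z ^ 3 + z ^ 2 + z + 1 = 0) :
    -R1y a b z = -(R2L a b z * (R1x a b z - R2x a b z) + R2y a b z) := by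
  simp only [R1x, R1y, R2x, R2y, R2L]
  linear_combination (1728 / 25 * a ^ 15 + 1728 / 25 * a ^ 15 * z - 1296 / 25 * a ^ 15 * z ^ 2 - 17712 / 25 * a ^ 10 * b ^ 5
    - 17712 / 25 * a ^ 10 * b ^ 5 * z + 15984 / 25 * a ^ 10 * b ^ 5 * z ^ 2 - 15984 / 25 * a ^ 5 * b ^ 10
    - 15984 / 25 * a ^ 5 * b ^ 10 * z - 17712 / 25 * a ^ 5 * b ^ 10 * z ^ 2 - 1296 / 25 * b ^ 15
    - 1296 / 25 * b ^ 15 * z - 1728 / 25 * b ^ 15 * z ^ 2) * hz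

end Identities

section Gaps

variable {R : Type*} [Field R] [CharZero R]

/-- Five times the difference of abscissae of the points `R1` and `P1`. -/
def gap1 {S : Type*} [CommRing S] (a b z : S) : S :=
  -72 * a ^ 10 + 36 * a ^ 10 * z ^ 2 + 36 * a ^ 10 * z ^ 3 - 180 * a ^ 9 * b - 360 * a ^ 8 * b ^ 2
    - 540 * a ^ 7 * b ^ 3 - 900 * a ^ 6 * b ^ 4 - 648 * a ^ 5 * b ^ 5 - 396 * a ^ 5 * b ^ 5 * z ^ 2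
    - 396 * a ^ 5 * b ^ 5 * z ^ 3 - 360 * a ^ 4 * b ^ 6 + 180 * a ^ 3 * b ^ 7 - 180 * a ^ 2 * b ^ 8
    - 108 * b ^ 10 - 36 * b ^ 10 * z ^ 2 - 36 * b ^ 10 * z ^ 3

lemma map_gap1 {S T : Type*} [CommRing S] [CommRing T] (φ : S →+* T) (a b z : S) :
    φ (gap1 a b z) = gap1 (φ a) (φ b) (φ z) := by
  simp [gap1, map_ofNat]

lemma gap1_eq (a b z : R) : gap1 a b z = 5 * (R1x a b z - P1x a b) := by
  simp only [gap1, R1x, P1x]; ring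

/-- Five times the difference of abscissae of the points `R1` and `P2`. -/
def gap2 {S : Type*} [CommRing S] (a b z : S) : S :=
  -72 * a ^ 10 + 36 * a ^ 10 * z ^ 2 + 36 * a ^ 10 * z ^ 3 - 180 * a ^ 8 * b ^ 2 - 180 * a ^ 7 * b ^ 3
    - 360 * a ^ 6 * b ^ 4 + 252 * a ^ 5 * b ^ 5 - 396 * a ^ 5 * b ^ 5 * z ^ 2 - 396 * a ^ 5 * b ^ 5 * z ^ 3
    - 900 * a ^ 4 * b ^ 6 + 540 * a ^ 3 * b ^ 7 - 360 * a ^ 2 * b ^ 8 + 180 * a * b ^ 9 - 108 * b ^ 10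
    - 36 * b ^ 10 * z ^ 2 - 36 * b ^ 10 * z ^ 3

lemma map_gap2 {S T : Type*} [CommRing S] [CommRing T] (φ : S →+* T) (a b z : S) :
    φ (gap2 a b z) = gap2 (φ a) (φ b) (φ z) := by
  simp [gap2, map_ofNat]

lemma gap2_eq (a b z : R) : gap2 a b z = 5 * (R1x a b z - P2x a b) := by
  simp only [gap2, R1x, P2x]; ring

end Gaps

end Fermat.Agent.ThreeFive
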