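import Fermat.Agent.ThreeFive.ShortModel
import Mathlib.Algebra.Module.Torsion.Basic
import Mathlib.Algebra.Ring.Subring.Basic

/-!
# Specialisation of five-torsion on short models
-/

namespace Fermat.Agent.ThreeFive

open WeierstrassCurve

/-- A valuation-type local subring with an evaluation map. -/
structure EvalRing (L K : Type*) [Field L] [Field K] where
  /-- the subring of elements having a value -/
  O : Subring L
  /-- the evaluation map -/
  ev : O →+* K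
  /-- every element is regular or the inverse of a regular element vanishing at the place -/
  dichotomy : ∀ x : L, x ∈ O ∨ ∃ y : O, ev y = 0 ∧ x * (y : L) = 1

namespace EvalRing

variable {L K : Type*} [Field L] [Field K] (E : EvalRing L K)

@[simp, push_cast] lemma coe_2 : ((2 : E.O) : L) = 2 := map_ofNat E.O.subtype 2
@[simp, push_cast] lemma coe_4 : ((4 : E.O) : L) = 4 := map_ofNat E.O.subtype 4
@[simp, push_cast] lemma coe_16 : ((16 : E.O) : L) = 16 := map_ofNat E.O.subtype 16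
@[simp, push_cast] lemma coe_27 : ((27 : E.O) : L) = 27 := map_ofNat E.O.subtype 27
@[simp, push_cast] lemma coe_54 : ((54 : E.O) : L) = 54 := map_ofNat E.O.subtype 54
@[simp, push_cast] lemma coe_432 : ((432 : E.O) : L) = 432 := map_ofNat E.O.subtype 432
@[simp, push_cast] lemma coe_729 : ((729 : E.O) : L) = 729 := map_ofNat E.O.subtype 729

lemma inv_mem {d : E.O} (hd : E.ev d ≠ 0) : ((d : L))⁻¹ ∈ E.O := by
  rcases E.dichotomy (d : L)⁻¹ with h | ⟨y, hy, h⟩
  · exact h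
  · refine absurd ?_ hd
    have : (y : L) = d := by
      rcases eq_or_ne (d : L) 0 with h0 | h0
      · simp [h0] at h
      · field_simp at h; exact h
    rwa [Subtype.ext this] at hy

lemma mem_of_sq_mem {x : L} (h : x ^ 2 ∈ E.O) : x ∈ E.O := by
  rcases E.dichotomy x with hx | ⟨y, hy, hxy⟩
  · exact hx
  · have : E.ev (⟨_, h⟩ * y ^ 2) = E.ev 1 := by
      congr 1; ext
      push_cast
      linear_combination (x * (y : L) + 1) * hxy
    simp [hy] at this

variable [CharZero L] [CharZero K] (c4 c6 : E.O)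

/-- The generic short model. -/
abbrev gen : Affine L := SW (c4 : L) (c6 : L)

/-- The specialised short model. -/
abbrev spec : Affine K := SW (E.ev c4) (E.ev c6)

omit [CharZero L] [CharZero K] in
lemma spec_equation {x y : E.O}
    (h : (E.gen c4 c6).Equation (x : L) (y : L)) : (E.spec c4 c6).Equation (E.ev x) (E.ev y) := by
  rw [SW_equation_iff] at h ⊢
  have e : y ^ 2 = x ^ 3 - 27 * c4 * x - 54 * c6 := by
    ext; push_cast; exact h
  simpa [map_ofNat] using congrArg E.ev e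

/-- Specialisation of points; non-integral points go to zero. -/
noncomputable def sp (h : E.ev c4 ^ 3 ≠ E.ev c6 ^ 2) :
    (E.gen c4 c6).Point → (E.spec c4 c6).Point
  | .zero => .zero
  | .some x y hxy =>
    open Classical in
    if hm : x ∈ E.O ∧ y ∈ E.O then
      .some (E.ev ⟨x, hm.1⟩) (E.ev ⟨y, hm.2⟩)
        ((SW_nonsingular_iff h _ _).2 (E.spec_equation c4 c6 hxy.1))
    else .zero

variable {c4 c6}

/-- A point with integral coordinates. -/
def IsInt : (E.gen c4 c6).Point → Prop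
  | .zero => True
  | .some x y _ => x ∈ E.O ∧ y ∈ E.O

/-- Specialisation has trivial kernel on integral points. -/
lemma sp_eq_zero_iff (h : E.ev c4 ^ 3 ≠ E.ev c6 ^ 2) {P : (E.gen c4 c6).Point}
    (hP : E.IsInt P) : E.sp c4 c6 h P = 0 ↔ P = 0 := by
  rcases P with _ | ⟨x, y, hxy⟩
  · simp [sp, ← Affine.Point.zero_def]
  · simp only [sp, IsInt] at hP ⊢
    rw [dif_pos hP]
    simp

variable [DecidableEq L] [DecidableEq K]

lemma sp_neg (h : E.ev c4 ^ 3 ≠ E.ev c6 ^ 2) {P : (E.gen c4 c6).Point} (hP : E.IsInt P) :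
    E.sp c4 c6 h (-P) = -E.sp c4 c6 h P := by
  rcases P with _ | ⟨x, y, hxy⟩
  · simp [sp, ← Affine.Point.zero_def]
  · obtain ⟨hx, hy⟩ := hP
    have hy' : (E.gen c4 c6).negY x y ∈ E.O := by rw [SW_negY]; exact neg_mem hy
    rw [Affine.Point.neg_some]
    simp only [sp]
    rw [dif_pos ⟨hx, hy'⟩, dif_pos ⟨hx, hy⟩, Affine.Point.neg_some]
    simp only [Affine.Point.some.injEq, SW_negY, true_and]
    rw [← map_neg]; congr 1

lemma sp_add (h : E.ev c4 ^ 3 ≠ E.ev c6 ^ 2) {P Q : (E.gen c4 c6).Point} (hP : E.IsInt P)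
    (hQ : E.IsInt Q) (hPQ : E.IsInt (P + Q)) :
    E.sp c4 c6 h (P + Q) = E.sp c4 c6 h P + E.sp c4 c6 h Q := by
  rcases P with _ | ⟨x₁, y₁, h₁⟩
  · simp [sp, ← Affine.Point.zero_def]
  rcases Q with _ | ⟨x₂, y₂, h₂⟩
  · simp [sp, ← Affine.Point.zero_def]
  obtain ⟨hx₁, hy₁⟩ := hP
  obtain ⟨hx₂, hy₂⟩ := hQ
  by_cases hc : x₁ = x₂ ∧ y₁ = (E.gen c4 c6).negY x₂ y₂
  · have hQP : (Affine.Point.some x₁ y₁ h₁ : (E.gen c4 c6).Point) = -.some x₂ y₂ h₂ := by
      simp [Affine.Point.neg_some, hc.1, hc.2]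
    rw [hQP, neg_add_cancel, E.sp_neg h (show E.IsInt (.some x₂ y₂ h₂) from ⟨hx₂, hy₂⟩),
      neg_add_cancel]
    rfl
  rw [Affine.Point.add_some hc] at hPQ ⊢
  set l := (E.gen c4 c6).slope x₁ x₂ y₁ y₂ with hl
  obtain ⟨hx₃, hy₃⟩ := hPQ
  have R1 : l * (x₁ - x₂) = y₁ - y₂ := by
    by_cases hx : x₁ = x₂
    · have hy : y₁ ≠ (E.gen c4 c6).negY x₂ y₂ := fun e => hc ⟨hx, e⟩
      rw [hx, Affine.Y_eq_of_Y_ne h₁.1 h₂.1 hx hy]; ring
    · rw [hl, Affine.slope_of_X_ne hx, div_mul_cancel₀ _ (sub_ne_zero.2 hx)]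
  have e₁ := (SW_equation_iff _ _ _ _).1 h₁.1
  have e₂ := (SW_equation_iff _ _ _ _).1 h₂.1
  have R2 : l * (y₁ + y₂) = x₁ ^ 2 + x₁ * x₂ + x₂ ^ 2 - 27 * (c4 : L) := by
    by_cases hx : x₁ = x₂
    · subst hx
      have hy : y₁ ≠ (E.gen c4 c6).negY x₁ y₂ := fun e => hc ⟨rfl, e⟩
      obtain rfl : y₁ = y₂ := Affine.Y_eq_of_Y_ne h₁.1 h₂.1 rfl hy
      have hl' : l * (y₁ - (E.gen c4 c6).negY x₁ y₁) =
          3 * x₁ ^ 2 + 2 * (E.gen c4 c6).a₂ * x₁ + (E.gen c4 c6).a₄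
            - (E.gen c4 c6).a₁ * y₁ := by
        rw [hl, Affine.slope_of_Y_ne rfl hy, div_mul_cancel₀ _ (sub_ne_zero.2 hy)]
      simp only [SW_negY, SW_a₁, SW_a₂, SW_a₄] at hl'
      linear_combination hl'
    · refine mul_left_cancel₀ (sub_ne_zero.2 hx) ?_
      linear_combination (y₁ + y₂) * R1 + e₁ - e₂
  have hX3 : (E.gen c4 c6).addX x₁ x₂ l = l ^ 2 - x₁ - x₂ := by simp [Affine.addX]
  have hlm : l ∈ E.O := by
    refine E.mem_of_sq_mem ?_
    rw [show l ^ 2 = (E.gen c4 c6).addX x₁ x₂ l + x₁ + x₂ by rw [hX3]; ring]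
    exact add_mem (add_mem hx₃ hx₁) hx₂
  simp only [sp]
  rw [dif_pos ⟨hx₃, hy₃⟩, dif_pos ⟨hx₁, hy₁⟩, dif_pos ⟨hx₂, hy₂⟩]
  set X₁ := E.ev ⟨x₁, hx₁⟩
  set X₂ := E.ev ⟨x₂, hx₂⟩
  set Y₁ := E.ev ⟨y₁, hy₁⟩
  set Y₂ := E.ev ⟨y₂, hy₂⟩
  set M := E.ev ⟨l, hlm⟩
  have S1 : M * (X₁ - X₂) = Y₁ - Y₂ := by
    simp only [M, X₁, X₂, Y₁, Y₂, ← map_sub, ← map_mul]
    congr 1; ext; push_cast; exact R1
  have S2 : M * (Y₁ + Y₂) = X₁ ^ 2 + X₁ * X₂ + X₂ ^ 2 - 27 * E.ev c4 := by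
    have e : (⟨l, hlm⟩ : E.O) * (⟨y₁, hy₁⟩ + ⟨y₂, hy₂⟩) = ⟨x₁, hx₁⟩ ^ 2
        + ⟨x₁, hx₁⟩ * ⟨x₂, hx₂⟩ + ⟨x₂, hx₂⟩ ^ 2 - 27 * c4 := by
      ext; push_cast; exact R2
    have := congrArg E.ev e
    simpa only [map_mul, map_add, map_sub, map_pow, map_ofNat] using this
  have n₁ : (E.spec c4 c6).Nonsingular X₁ Y₁ :=
    (SW_nonsingular_iff h _ _).2 (E.spec_equation c4 c6 h₁.1)
  have hc' : ¬(X₁ = X₂ ∧ Y₁ = (E.spec c4 c6).negY X₂ Y₂) := by
    rintro ⟨hX, hY⟩
    rw [SW_negY] at hY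
    rw [hX, hY] at S1 S2
    have hY0 : Y₂ = 0 := by
      have : (2 : K) * Y₂ = 0 := by linear_combination S1
      simpa using this
    obtain ⟨-, k | k⟩ := (Affine.nonsingular_iff _ _).1 n₁
    · apply k
      simp only [SW_a₁, SW_a₂, SW_a₄]
      rw [hX]; linear_combination S2
    · apply k
      simp [hY, hY0]
  have hM : (E.spec c4 c6).slope X₁ X₂ Y₁ Y₂ = M := by
    by_cases hX : X₁ = X₂
    · have hY : Y₁ ≠ (E.spec c4 c6).negY X₂ Y₂ := fun e => hc' ⟨hX, e⟩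
      rw [Affine.slope_of_Y_ne hX hY]
      have hY' : Y₁ = Y₂ := by
        have := S1; rw [hX] at this; linear_combination -this
      rw [← hX, ← hY'] at hY S2
      rw [div_eq_iff (sub_ne_zero.2 hY)]
      simp only [SW_a₁, SW_a₂, SW_a₄, SW_negY]
      linear_combination -S2
    · rw [Affine.slope_of_X_ne hX, div_eq_iff (sub_ne_zero.2 hX)]
      exact S1.symm
  rw [Affine.Point.add_some hc']
  simp only [Affine.Point.some.injEq, hM]
  constructor
  · simp only [Affine.addX, SW_a₁, SW_a₂, M, X₁, X₂]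
    simp only [← map_zero E.ev, ← map_mul, ← map_add, ← map_sub, ← map_pow]
    congr 1
  · simp only [Affine.addY, Affine.negAddY, Affine.negY, Affine.addX, SW_a₁, SW_a₂, SW_a₃, M, X₁, X₂,
      Y₁]
    simp only [← map_zero E.ev, ← map_mul, ← map_add, ← map_sub, ← map_pow, ← map_neg]
    congr 1

omit [DecidableEq K] in
/-- A non-integral point doubles to a non-integral point with inverse abscissa multiplied by `4`. -/
lemma double_nonint (h : E.ev c4 ^ 3 ≠ E.ev c6 ^ 2) {x y : L}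
    (hxy : (E.gen c4 c6).Nonsingular x y) (hy : y ≠ 0) {w : E.O} (hw : E.ev w = 0)
    (hxw : x * (w : L) = 1) :
    ∃ (x' y' : L) (h' : (E.gen c4 c6).Nonsingular x' y') (w' u : E.O),
      (Affine.Point.some x y hxy + Affine.Point.some x y hxy : (E.gen c4 c6).Point)
        = .some x' y' h' ∧ y' = (E.gen c4 c6).addY x x y ((E.gen c4 c6).slope x x y y) ∧
      E.ev w' = 0 ∧ x' * (w' : L) = 1 ∧ E.ev u = 1 ∧ (w' : L) = 4 * (w : L) * (u : L) := by
  have hne : y ≠ (E.gen c4 c6).negY x y := by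
    rw [SW_negY]; intro e
    exact hy (by simpa using (show (2 : L) * y = 0 by linear_combination e))
  rw [Affine.Point.add_self_of_Y_ne hne]
  set l := (E.gen c4 c6).slope x x y y with hl
  have hl' : l * (y - (E.gen c4 c6).negY x y) =
      3 * x ^ 2 + 2 * (E.gen c4 c6).a₂ * x + (E.gen c4 c6).a₄ - (E.gen c4 c6).a₁ * y := by
    rw [hl, Affine.slope_of_Y_ne rfl hne, div_mul_cancel₀ _ (sub_ne_zero.2 hne)]
  simp only [SW_negY, SW_a₁, SW_a₂, SW_a₄] at hl'
  have e₁ := (SW_equation_iff _ _ _ _).1 hxy.1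
  set n : E.O := 1 + 54 * c4 * w ^ 2 + 432 * c6 * w ^ 3 + 729 * c4 ^ 2 * w ^ 4 with hn
  set d : E.O := 1 - 27 * c4 * w ^ 2 - 54 * c6 * w ^ 3 with hd
  have hn1 : E.ev n = 1 := by simp [hn, hw]
  have hn0 : E.ev n ≠ 0 := by rw [hn1]; exact one_ne_zero
  have hnL : (n : L) ≠ 0 := by
    intro e; apply hn0
    rw [show n = 0 from Subtype.ext e, map_zero]
  set ni : E.O := ⟨_, E.inv_mem hn0⟩ with hni
  have hninv : n * ni = 1 := by ext; push_cast; exact mul_inv_cancel₀ hnL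
  have hu : E.ev (d * ni) = 1 := by
    have : E.ev ni = 1 := by simpa [map_mul, hn1] using congrArg E.ev hninv
    simp [map_mul, this, hd, hw]
  refine ⟨_, _, _, 4 * w * (d * ni), d * ni, rfl, rfl, by simp [hw], ?_, hu, by push_cast; ring⟩
  have hX : (E.gen c4 c6).addX x x l = l ^ 2 - 2 * x := by
    simp [Affine.addX]; ring
  rw [hX]
  have key : (l ^ 2 - 2 * x) * (4 * (w : L) * (d : L)) = n := by
    have k2 : l ^ 2 * (4 * y ^ 2) = (3 * x ^ 2 - 27 * (c4 : L)) ^ 2 := by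
      linear_combination (l * (2 * y) + (3 * x ^ 2 - 27 * (c4 : L))) * hl'
    have hd' : (d : L) = y ^ 2 * (w : L) ^ 3 := by
      rw [hd, e₁]; push_cast
      linear_combination (-(x * (w : L)) ^ 2 - x * (w : L) - 1 + 27 * (c4 : L) * (w : L) ^ 2) * hxw
    rw [hd', hn]; push_cast
    linear_combination (w : L) ^ 4 * k2 - 8 * x * (w : L) ^ 4 * e₁ +
      ((x * (w : L)) ^ 3 + (x * (w : L)) ^ 2 + x * (w : L) + 1
        + 54 * (c4 : L) * (w : L) ^ 2 * (x * (w : L) + 1) + 432 * (c6 : L) * (w : L) ^ 3) * hxw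
  push_cast
  have hnL' : (n : L) * (ni : L) = 1 := by exact_mod_cast congrArg Subtype.val hninv
  linear_combination (ni : L) * key + hnL'

/-- Five-torsion points are integral. -/
lemma isInt_of_five_smul (h : E.ev c4 ^ 3 ≠ E.ev c6 ^ 2) {P : (E.gen c4 c6).Point}
    (hP : (5 : ℤ) • P = 0) : E.IsInt P := by
  rcases P with _ | ⟨x, y, hxy⟩
  · trivial
  rcases E.dichotomy x with hx | ⟨w, hw, hxw⟩
  · refine ⟨hx, E.mem_of_sq_mem ?_⟩
    rw [(SW_equation_iff _ _ _ _).1 hxy.1]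
    exact sub_mem (sub_mem (pow_mem hx 3) (mul_mem (mul_mem (natCast_mem E.O 27) c4.2) hx))
      (mul_mem (natCast_mem E.O 54) c6.2)
  exfalso
  set P : (E.gen c4 c6).Point := .some x y hxy with hPdef
  have hP0 : P ≠ 0 := Affine.Point.some_ne_zero hxy
  have hy : y ≠ 0 := by
    intro h0
    have : P + P = 0 := by
      rw [hPdef, Affine.Point.add_self_of_Y_eq (by rw [SW_negY, h0, neg_zero])]
    apply hP0
    calc P = (5 : ℤ) • P - (2 : ℤ) • (P + P) := by abel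
      _ = 0 := by rw [hP, this]; simp
  obtain ⟨x₂, y₂, h₂, w₂, u, hQ, -, hw₂, hxw₂, hu, hw₂'⟩ := E.double_nonint h hxy hy hw hxw
  have hy₂ : y₂ ≠ 0 := by
    intro h0
    have : (P + P) + (P + P) = 0 := by
      rw [hPdef, hQ, Affine.Point.add_self_of_Y_eq (by rw [SW_negY, h0, neg_zero])]
    apply hP0
    calc P = (5 : ℤ) • P - ((P + P) + (P + P)) := by abel
      _ = 0 := by rw [hP, this]; simp
  obtain ⟨x₄, y₄, h₄, w₄, u', hR, -, -, hxw₄, hu', hw₄'⟩ := E.double_nonint h h₂ hy₂ hw₂ hxw₂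
  have h4P : (Affine.Point.some x₄ y₄ h₄ : (E.gen c4 c6).Point) = -P := by
    rw [← hR, ← hQ]
    refine eq_neg_of_add_eq_zero_left ?_
    rw [← hP]; abel
  rw [hPdef, Affine.Point.neg_some] at h4P
  obtain ⟨rfl, -⟩ : x₄ = x ∧ _ := by simpa only [Affine.Point.some.injEq] using h4P
  have hw0 : (w : L) ≠ 0 := by intro h0; simp [h0] at hxw
  have hx0 : x₄ ≠ 0 := by intro h0; simp [h0] at hxw
  have hww : (w₄ : L) = (w : L) := mul_left_cancel₀ hx0 (hxw₄.trans hxw.symm)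
  have h16 : (16 : E.O) * (u * u') = 1 := by
    ext; push_cast
    refine mul_left_cancel₀ hw0 ?_
    linear_combination hww - hw₄' - (4 * (u' : L)) * hw₂'
  have := congrArg E.ev h16
  simp [hu, hu', map_ofNat] at this

/-- Specialisation restricted to five-torsion. -/
noncomputable def spTorsion (h : E.ev c4 ^ 3 ≠ E.ev c6 ^ 2) :
    Submodule.torsionBy ℤ (E.gen c4 c6).Point 5 →+
      Submodule.torsionBy ℤ (E.spec c4 c6).Point 5 :=
  let f : Submodule.torsionBy ℤ (E.gen c4 c6).Point 5 →+ (E.spec c4 c6).Point :=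
    { toFun := fun P => E.sp c4 c6 h P.1
      map_zero' := rfl
      map_add' := fun P Q => E.sp_add h
        (E.isInt_of_five_smul h ((Submodule.mem_torsionBy_iff _ _).1 P.2))
        (E.isInt_of_five_smul h ((Submodule.mem_torsionBy_iff _ _).1 Q.2))
        (E.isInt_of_five_smul h ((Submodule.mem_torsionBy_iff _ _).1 (P + Q).2)) }
  f.codRestrict _ fun P => (Submodule.mem_torsionBy_iff _ _).2 <| by
    rw [← map_zsmul f, show (5 : ℤ) • P = 0 from Submodule.smul_torsionBy _ P, map_zero]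

lemma spTorsion_apply (h : E.ev c4 ^ 3 ≠ E.ev c6 ^ 2)
    (P : Submodule.torsionBy ℤ (E.gen c4 c6).Point 5) :
    ((E.spTorsion h P : Submodule.torsionBy ℤ (E.spec c4 c6).Point 5) : (E.spec c4 c6).Point) =
      E.sp c4 c6 h P.1 := rfl

lemma spTorsion_injective (h : E.ev c4 ^ 3 ≠ E.ev c6 ^ 2) :
    Function.Injective (E.spTorsion h) := by
  rw [injective_iff_map_eq_zero]
  intro P hP
  have := congrArg Subtype.val hP
  rw [spTorsion_apply] at this
  exact Subtype.ext ((E.sp_eq_zero_iff h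
    (E.isInt_of_five_smul h ((Submodule.mem_torsionBy_iff _ _).1 P.2))).1 this)

end EvalRing

end Fermat.Agent.ThreeFive
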