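import Fermat.Agent.ThreeFive.Family
import Fermat.Agent.ThreeFive.Points
import Fermat.Agent.ThreeFive.Specialise
import Mathlib.FieldTheory.RatFunc.AsPolynomial
import Mathlib.RingTheory.RootsOfUnity.AlgebraicallyClosed
import Mathlib.NumberTheory.Cyclotomic.Basic

/-!
# The Galois-equivariant isomorphism of five-torsion along the family
-/

namespace Fermat.Agent.ThreeFive

open WeierstrassCurve

section EvalAt

open Polynomial

variable {K : Type*} [Field K]

lemma eval₂_id_denom_ne {x : RatFunc K} {a : K} (p q : K[X]) (hq : q.eval a ≠ 0)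
    (h : x = algebraMap K[X] (RatFunc K) p / algebraMap K[X] (RatFunc K) q) :
    (RatFunc.denom x).eval a ≠ 0 := fun h0 =>
  hq (eval_eq_zero_of_dvd_of_eval_eq_zero (h ▸ RatFunc.denom_div_dvd p q) h0)

/-- The local ring of rational functions at `a`, with evaluation. -/
noncomputable def evalAt (a : K) : EvalRing (RatFunc K) K where
  O :=
    { carrier := {x | (RatFunc.denom x).eval a ≠ 0}
      mul_mem' := fun {x y} hx hy h =>
        mul_ne_zero hx hy (by
          rw [← Polynomial.eval_mul]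
          exact eval_eq_zero_of_dvd_of_eval_eq_zero (RatFunc.denom_mul_dvd x y) h)
      one_mem' := by simp
      add_mem' := fun {x y} hx hy h =>
        mul_ne_zero hx hy (by
          rw [← Polynomial.eval_mul]
          exact eval_eq_zero_of_dvd_of_eval_eq_zero (RatFunc.denom_add_dvd x y) h)
      zero_mem' := by simp
      neg_mem' := fun {x} hx => eval₂_id_denom_ne (-x.num) x.denom hx (by
        rw [map_neg, neg_div, RatFunc.num_div_denom]) }
  ev :=
    { toFun := fun x => RatFunc.eval (RingHom.id K) a x.1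
      map_one' := by simp [RatFunc.eval]
      map_zero' := by simp [RatFunc.eval]
      map_add' := fun x y => RatFunc.eval_add (RingHom.id K) a (by rw [Polynomial.eval₂_id]; exact x.2)
        (by rw [Polynomial.eval₂_id]; exact y.2)
      map_mul' := fun x y => RatFunc.eval_mul (RingHom.id K) a (by rw [Polynomial.eval₂_id]; exact x.2)
        (by rw [Polynomial.eval₂_id]; exact y.2) }
  dichotomy x := by
    by_cases h : (RatFunc.denom x).eval a = 0
    · right
      have hn : (RatFunc.num x).eval a ≠ 0 := fun hn =>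
        absurd ((RatFunc.isCoprime_num_denom x).isUnit_of_dvd'
          (dvd_iff_isRoot.2 hn) (dvd_iff_isRoot.2 h)) (not_isUnit_X_sub_C a)
      set y : RatFunc K := algebraMap K[X] _ x.denom / algebraMap K[X] _ x.num with hy
      have hym : (RatFunc.denom y).eval a ≠ 0 := eval₂_id_denom_ne _ _ hn hy
      refine ⟨⟨y, hym⟩, ?_, ?_⟩
      · have hmul : y * algebraMap K[X] (RatFunc K) x.num = algebraMap K[X] _ x.denom := by
          rw [hy, div_mul_cancel₀]
          simp only [ne_eq, map_eq_zero_iff _ (RatFunc.algebraMap_injective K)]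
          exact fun h0 => hn (by simp [h0])
        have e := congrArg (RatFunc.eval (RingHom.id K) a) hmul
        rw [RatFunc.eval_mul (RingHom.id K) a (by simpa using hym) (by simp)] at e
        simpa [RatFunc.eval, h, hn] using e
      · have hn0 : algebraMap K[X] (RatFunc K) x.num ≠ 0 := by
          simp only [ne_eq, map_eq_zero_iff _ (RatFunc.algebraMap_injective K)]
          exact fun h0 => hn (by simp [h0])
        have hd0 : algebraMap K[X] (RatFunc K) x.denom ≠ 0 := by
          simp [RatFunc.denom_ne_zero]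
        show x * y = 1
        rw [hy]
        nth_rw 1 [← RatFunc.num_div_denom x]
        field_simp
    · exact Or.inl h

lemma algebraMap_mem_evalAt (a : K) (p : K[X]) :
    algebraMap K[X] (RatFunc K) p ∈ (evalAt a).O := by
  show (RatFunc.denom (algebraMap K[X] (RatFunc K) p)).eval a ≠ 0
  simp

/-- A polynomial as a regular function at `a`. -/
noncomputable def polyAt (a : K) (p : K[X]) : (evalAt a).O :=
  ⟨algebraMap K[X] (RatFunc K) p, algebraMap_mem_evalAt a p⟩

@[simp] lemma coe_polyAt (a : K) (p : K[X]) :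
    (polyAt a p : RatFunc K) = algebraMap K[X] (RatFunc K) p := rfl

@[simp] lemma ev_polyAt (a : K) (p : K[X]) : (evalAt a).ev (polyAt a p) = p.eval a := by
  show RatFunc.eval (RingHom.id K) a (algebraMap K[X] (RatFunc K) p) = p.eval a
  simp [RatFunc.eval]

/-- An automorphism of `K` acting on coefficients. -/
noncomputable def coeffHom (σ : K ≃+* K) : RatFunc K →+* RatFunc K :=
  RatFunc.mapRingHom (Polynomial.mapRingHom σ.toRingHom)
    (nonZeroDivisors_le_comap_nonZeroDivisors_of_injective _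
      (Polynomial.map_injective σ.toRingHom σ.injective))

lemma coeffHom_div (σ : K ≃+* K) (p q : K[X]) :
    coeffHom σ (algebraMap K[X] _ p / algebraMap K[X] _ q) =
      algebraMap K[X] _ (p.map σ.toRingHom) / algebraMap K[X] _ (q.map σ.toRingHom) :=
  RatFunc.map_apply_div (φ := Polynomial.mapRingHom σ.toRingHom)
    (nonZeroDivisors_le_comap_nonZeroDivisors_of_injective _
      (Polynomial.map_injective σ.toRingHom σ.injective)) p q

lemma coeffHom_algebraMap (σ : K ≃+* K) (p : K[X]) :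
    coeffHom σ (algebraMap K[X] _ p) = algebraMap K[X] _ (p.map σ.toRingHom) := by
  simpa using coeffHom_div σ p 1

lemma coeffHom_mem {σ : K ≃+* K} {a : K} (ha : σ a = a) {x : RatFunc K}
    (hx : x ∈ (evalAt a).O) :
    ∃ h : coeffHom σ x ∈ (evalAt a).O,
      (evalAt a).ev ⟨coeffHom σ x, h⟩ = σ ((evalAt a).ev ⟨x, hx⟩) := by
  have hd : ∀ p : K[X], (p.map σ.toRingHom).eval a = σ (p.eval a) := by
    intro p
    have := Polynomial.eval_map_apply (f := σ.toRingHom) (p := p) a
    rwa [show σ.toRingHom a = a from ha] at this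
  have hx' : (RatFunc.denom x).eval a ≠ 0 := hx
  have hden : ((RatFunc.denom x).map σ.toRingHom).eval a ≠ 0 := by
    rw [hd]; simpa using hx'
  have e : coeffHom σ x = algebraMap K[X] _ (x.num.map σ.toRingHom) /
      algebraMap K[X] _ (x.denom.map σ.toRingHom) := by
    conv_lhs => rw [← RatFunc.num_div_denom x]
    exact coeffHom_div σ _ _
  have hm : coeffHom σ x ∈ (evalAt a).O := eval₂_id_denom_ne _ _ hden e
  refine ⟨hm, ?_⟩
  have h1 : (⟨coeffHom σ x, hm⟩ : (evalAt a).O) * polyAt a (x.denom.map σ.toRingHom) =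
      polyAt a (x.num.map σ.toRingHom) := by
    ext
    simp only [Subring.coe_mul, coe_polyAt, e]
    rw [div_mul_cancel₀]
    simp only [ne_eq, map_eq_zero_iff _ (RatFunc.algebraMap_injective K)]
    exact fun h0 => hden (by rw [h0]; simp)
  have h2 : (⟨x, hx⟩ : (evalAt a).O) * polyAt a x.denom = polyAt a x.num := by
    ext
    simp only [Subring.coe_mul, coe_polyAt]
    nth_rw 1 [← RatFunc.num_div_denom x]
    rw [div_mul_cancel₀]
    simp [RatFunc.denom_ne_zero]
  have e1 := congrArg (evalAt a).ev h1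
  have e2 := congrArg (evalAt a).ev h2
  simp only [map_mul, ev_polyAt, hd] at e1 e2
  refine mul_right_cancel₀ (show σ (x.denom.eval a) ≠ 0 by simpa using hx') ?_
  rw [e1, ← map_mul, e2]

end EvalAt

section MapSW

variable {L L' : Type*} [Field L] [Field L'] [CharZero L] [CharZero L']
  (φ : L →+* L') {c4 c6 : L} {c4' c6' : L'} (h4 : φ c4 = c4') (h6 : φ c6 = c6')

include h4 h6 in
lemma map_SW : (SW c4 c6).map φ = SW c4' c6' := by
  subst h4; subst h6
  ext <;> simp [SW, WeierstrassCurve.map, map_ofNat]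

/-- Functoriality of short models in the field. -/
noncomputable def mapSW : (SW c4 c6).Point → (SW c4' c6').Point
  | .zero => .zero
  | .some x y h => .some (φ x) (φ y) (by
      have := (Affine.map_nonsingular (SW c4 c6) φ.injective x y).2 h
      rwa [map_SW φ h4 h6] at this)

variable [DecidableEq L] [DecidableEq L']

lemma mapSW_add (P Q : (SW c4 c6).Point) :
    mapSW φ h4 h6 (P + Q) = mapSW φ h4 h6 P + mapSW φ h4 h6 Q := by
  rcases P with _ | ⟨x₁, y₁, h₁⟩
  · simp [mapSW, ← Affine.Point.zero_def]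
  rcases Q with _ | ⟨x₂, y₂, h₂⟩
  · simp [mapSW, ← Affine.Point.zero_def]
  have hn : (SW c4' c6').negY (φ x₂) (φ y₂) = φ ((SW c4 c6).negY x₂ y₂) := by simp
  by_cases hc : x₁ = x₂ ∧ y₁ = (SW c4 c6).negY x₂ y₂
  · rw [Affine.Point.add_of_Y_eq hc.1 hc.2]
    simp only [mapSW]
    rw [Affine.Point.add_of_Y_eq (congrArg φ hc.1) (by rw [hn, hc.2])]
    rfl
  · have hc' : ¬(φ x₁ = φ x₂ ∧ φ y₁ = (SW c4' c6').negY (φ x₂) (φ y₂)) := by
      rw [hn]; rintro ⟨u, v⟩; exact hc ⟨φ.injective u, φ.injective v⟩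
    rw [Affine.Point.add_some hc]
    simp only [mapSW]
    rw [Affine.Point.add_some hc']
    simp only [← map_SW φ h4 h6, Affine.map_slope, Affine.map_addX,
      Affine.map_addY]

/-- Functoriality of short models, as a group homomorphism. -/
noncomputable def mapSWHom : (SW c4 c6).Point →+ (SW c4' c6').Point :=
  { toFun := mapSW φ h4 h6, map_zero' := rfl, map_add' := mapSW_add φ h4 h6 }

/-- Functoriality on five-torsion. -/
noncomputable def mapTorsion : Submodule.torsionBy ℤ (SW c4 c6).Point 5 →+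
    Submodule.torsionBy ℤ (SW c4' c6').Point 5 :=
  ((mapSWHom φ h4 h6).comp (Submodule.torsionBy ℤ (SW c4 c6).Point 5).subtype.toAddMonoidHom)
    |>.codRestrict _ fun P => (Submodule.mem_torsionBy_iff _ _).2 <| by
      rw [AddMonoidHom.comp_apply, ← map_zsmul]
      show mapSWHom φ h4 h6 ((5 : ℤ) • (P : (SW c4 c6).Point)) = 0
      rw [(Submodule.mem_torsionBy_iff _ _).1 P.2, map_zero]

lemma coe_mapTorsion (P : Submodule.torsionBy ℤ (SW c4 c6).Point 5) :
    ((mapTorsion φ h4 h6 P : Submodule.torsionBy ℤ (SW c4' c6').Point 5) : (SW c4' c6').Point)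
      = mapSW φ h4 h6 P.1 := rfl

lemma mapTorsion_injective : Function.Injective (mapTorsion φ h4 h6) := by
  intro P Q hPQ
  have := congrArg Subtype.val hPQ
  rw [coe_mapTorsion, coe_mapTorsion] at this
  rcases P with ⟨_ | ⟨x, y, hxy⟩, hP⟩ <;> rcases Q with ⟨_ | ⟨x', y', hxy'⟩, hQ⟩ <;>
    simp [mapSW] at this ⊢
  exact ⟨φ.injective this.1, φ.injective this.2⟩

end MapSW

section Family

open Polynomial

variable {K : Type} [Field K] [CharZero K] [IsAlgClosed K]
  [DecidableEq K] [DecidableEq (RatFunc K)] (c4 c6 : ℚ)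

/-- The generic `c₄`. -/
noncomputable abbrev G4 : K[X] := (F4 c4 c6).map (algebraMap ℚ K)

/-- The generic `c₆`. -/
noncomputable abbrev G6 : K[X] := (F6 c4 c6).map (algebraMap ℚ K)

variable (K) in
/-- The generic member of the family. -/
noncomputable abbrev genCurve : Affine (RatFunc K) :=
  SW (algebraMap K[X] (RatFunc K) (G4 c4 c6)) (algebraMap K[X] (RatFunc K) (G6 c4 c6))

variable {c4 c6}

omit [IsAlgClosed K] [DecidableEq (RatFunc K)] in
/-- Some point of the pencil lies over `(1 : 0)` or over `(0 : 1)`. -/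
lemma exists_axis {a b : K} (hf : ff a b ≠ 0) :
    (∃ t : K, a + t * w0 a b ≠ 0 ∧ b + t * w1 a b = 0) ∨
    (∃ t : K, a + t * w0 a b = 0 ∧ b + t * w1 a b ≠ 0) := by
  by_cases h1 : w1 a b = 0
  · have h0 : w0 a b ≠ 0 := fun h0 => hf (by
      have hdet := det_w a b
      rw [h1, h0] at hdet; linear_combination (1 / 12 : K) * hdet)
    have ha : a + -a / w0 a b * w0 a b = 0 := by rw [div_mul_cancel₀ _ h0]; ring
    exact Or.inr ⟨_, ha, fun hb => lineA_lineB_not_both hf ha hb⟩
  · have hb : b + -b / w1 a b * w1 a b = 0 := by rw [div_mul_cancel₀ _ h1]; ring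
    exact Or.inl ⟨_, fun ha => lineA_lineB_not_both hf ha hb, hb⟩

/-- The curve `genCurve` has at least 25 points of order dividing five. -/
lemma exists_embedding (h : c4 ^ 3 ≠ c6 ^ 2) :
    ∃ g : Fin 5 × Fin 5 → Submodule.torsionBy ℤ (genCurve K c4 c6).Point 5,
      Function.Injective g := by
  have hK : (algebraMap ℚ K c4) ^ 3 ≠ (algebraMap ℚ K c6) ^ 2 := by
    rw [← map_pow, ← map_pow]; exact fun e => h ((algebraMap ℚ K).injective e)
  obtain ⟨a, b, hH, hT⟩ := exists_point hK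
  have hf := ff_ne_zero_of_ne hH hT hK
  obtain ⟨e4, e6, eD⟩ := pencil_spec hH hT
  obtain ⟨ζ, hζ⟩ := HasEnoughRootsOfUnity.exists_primitiveRoot K 5
  have hz : ζ ^ 4 + ζ ^ 3 + ζ ^ 2 + ζ + 1 = 0 := by
    have := hζ.geom_sum_eq_zero (by norm_num)
    simp [Finset.sum_range_succ] at this
    linear_combination this
  set ι := algebraMap K[X] (RatFunc K) with hι
  set A := ι (lineA a b)
  set B := ι (lineB a b)
  set z := ι (C ζ)
  have hz' : z ^ 4 + z ^ 3 + z ^ 2 + z + 1 = 0 := by
    simp only [z, ← map_pow, ← map_add, ← map_one ι, ← C_1, hz, map_zero]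
  have hA4 : Hf A B = ι (G4 c4 c6) := by rw [G4, ← e4]; exact (map_Hf ι _ _).symm
  have hA6 : Tf A B = ι (G6 c4 c6) := by rw [G6, ← e6]; exact (map_Tf ι _ _).symm
  have hne : (ι (G4 c4 c6)) ^ 3 ≠ (ι (G6 c4 c6)) ^ 2 := by
    rw [← map_pow, ← map_pow]
    intro e
    have := congrArg (Polynomial.eval 0) (RatFunc.algebraMap_injective K e)
    simp only [eval_pow, eval_map, eval₂_at_zero, coeff_zero_eq_eval_zero, F4_eval_zero h,
      F6_eval_zero h] at this
    exact hK this
  have hne' : Hf A B ^ 3 ≠ Tf A B ^ 2 := by rw [hA4, hA6]; exact hne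
  have eP1 := P1_eq (a := A) (b := B)
  have eP2 := P2_eq (a := A) (b := B)
  have eR1 := R1_eq (a := A) (b := B) hz'
  have eR2 := R2_eq (a := A) (b := B) hz'
  rw [show genCurve K c4 c6 = SW (Hf A B) (Tf A B) by rw [hA4, hA6]]
  set P := SW.mk hne' eP1 with hP
  set P' := SW.mk hne' eP2 with hP'
  set Q := SW.mk hne' eR1 with hQ
  set Q' := SW.mk hne' eR2 with hQ'
  have neg : ∀ {x y : RatFunc K} (e : y ^ 2 = x ^ 3 - 27 * Hf A B * x - 54 * Tf A B),
      -SW.mk hne' e = SW.mk hne' (show (-y) ^ 2 = _ by rw [neg_sq]; exact e) := by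
    intro x y e; simp [SW.mk]
  have p2 : P + P = P' := SW.double hne' _ P1_slope P1_dblX P1_dblY _
  have p4 : P' + P' = -P := by
    rw [hP, neg]
    exact SW.double hne' _ P2_slope P2_dblX P2_dblY _
  have q2 : Q + Q = Q' := SW.double hne' _ (R1_slope hz') (R1_dblX hz') (R1_dblY hz') _
  have q4 : Q' + Q' = -Q := by
    rw [hQ, neg]
    exact SW.double hne' _ (R2_slope hz') (R2_dblX hz') (R2_dblY hz') _
  have five : ∀ {G : Type} [AddCommGroup G] (x y : G), x + x = y → y + y = -x →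
      (5 : ℤ) • x = 0 := by
    intro G _ x y h1 h2
    have : (4 : ℤ) • x = -x := by
      calc (4 : ℤ) • x = (x + x) + (x + x) := by abel
        _ = -x := by rw [h1, h2]
    calc (5 : ℤ) • x = (4 : ℤ) • x + x := by abel
      _ = 0 := by rw [this, neg_add_cancel]
  have P5 := five P P' p2 p4
  have Q5 := five Q Q' q2 q4
  -- the second point is not a multiple of the first
  have hxne : R1x A B z ≠ P1x A B ∧ R1x A B z ≠ P2x A B := by
    set s : K := ζ ^ 2 + ζ ^ 3 with hs
    have hs2 : s ^ 2 + s - 1 = 0 := by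
      rw [hs]; linear_combination (ζ ^ 2 + ζ - 1) * hz
    have hs_a : s ≠ 2 := fun e => by
      rw [e] at hs2; norm_num at hs2
    have hs_b : s ≠ -3 := fun e => by
      rw [e] at hs2; norm_num at hs2
    have main : ∀ g : K[X], g = gap1 (lineA a b) (lineB a b) (C ζ) ∨
        g = gap2 (lineA a b) (lineB a b) (C ζ) → g ≠ 0 := by
      intro g hg h0
      rcases exists_axis hf with ⟨t, hA, hB⟩ | ⟨t, hA, hB⟩
      · have e1 : g.eval t = 36 * (s - 2) * (a + t * w0 a b) ^ 10 := by
          rcases hg with rfl | rfl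
          · rw [← coe_evalRingHom, map_gap1]; simp [gap1, hB, hs]; ring
          · rw [← coe_evalRingHom, map_gap2]; simp [gap2, hB, hs]; ring
        rw [h0, eval_zero] at e1
        simp [sub_eq_zero, hs_a, hA] at e1
      · have e1 : g.eval t = -36 * (s + 3) * (b + t * w1 a b) ^ 10 := by
          rcases hg with rfl | rfl
          · rw [← coe_evalRingHom, map_gap1]; simp [gap1, hA, hs]; ring
          · rw [← coe_evalRingHom, map_gap2]; simp [gap2, hA, hs]; ring
        rw [h0, eval_zero] at e1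
        simp [add_eq_zero_iff_eq_neg, hs_b, hB] at e1
    constructor <;> intro e
    · apply main _ (Or.inl rfl)
      apply RatFunc.algebraMap_injective K
      rw [map_gap1, map_zero, gap1_eq, e, sub_self, mul_zero]
    · apply main _ (Or.inr rfl)
      apply RatFunc.algebraMap_injective K
      rw [map_gap2, map_zero, gap2_eq, e, sub_self, mul_zero]
  have hmult : ∀ k : ℤ, Q ≠ k • P := by
    intro k hk
    have hk5 : k • P = (k % 5) • P := by
      conv_lhs => rw [← Int.mul_ediv_add_emod k 5, add_zsmul, mul_zsmul', P5, smul_zero, zero_add]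
    rw [hk5] at hk
    have : k % 5 = 0 ∨ k % 5 = 1 ∨ k % 5 = 2 ∨ k % 5 = 3 ∨ k % 5 = 4 := by omega
    rcases this with e | e | e | e | e <;> rw [e] at hk
    · rw [zero_zsmul] at hk; exact Affine.Point.some_ne_zero _ hk
    · rw [one_zsmul] at hk
      simp only [hP, hQ, SW.mk, Affine.Point.some.injEq] at hk
      exact hxne.1 hk.1
    · rw [two_zsmul, p2] at hk
      simp only [hP', hQ, SW.mk, Affine.Point.some.injEq] at hk
      exact hxne.2 hk.1
    · have : (3 : ℤ) • P = -P' := by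
        calc (3 : ℤ) • P = (5 : ℤ) • P - (P + P) := by abel
          _ = -P' := by rw [P5, p2, zero_sub]
      rw [this, hP', neg] at hk
      simp only [hQ, SW.mk, Affine.Point.some.injEq] at hk
      exact hxne.2 hk.1
    · have : (4 : ℤ) • P = -P := by
        calc (4 : ℤ) • P = (5 : ℤ) • P - P := by abel
          _ = -P := by rw [P5, zero_sub]
      rw [this, hP, neg] at hk
      simp only [hQ, SW.mk, Affine.Point.some.injEq] at hk
      exact hxne.1 hk.1
  refine ⟨fun ij => ⟨(ij.1 : ℤ) • P + (ij.2 : ℤ) • Q, ?_⟩, ?_⟩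
  · rw [Submodule.mem_torsionBy_iff, smul_add, smul_comm _ (_ : ℤ) P, smul_comm _ (_ : ℤ) Q, P5,
      Q5, smul_zero, smul_zero, add_zero]
  · rintro ⟨i, j⟩ ⟨i', j'⟩ e
    have e' : ((i : ℤ) - i') • P + ((j : ℤ) - j') • Q = 0 := by
      have := congrArg Subtype.val e
      simp only at this
      rw [sub_smul, sub_smul, sub_add_sub_comm, this, sub_self]
    have hj : ((j : ℤ) - j') % 5 = 0 := by
      by_contra hj
      obtain ⟨u, v, huv⟩ : IsCoprime ((j : ℤ) - j') 5 :=
        ((Nat.prime_iff_prime_int.1 Nat.prime_five).coprime_iff_not_dvd.2 (fun hd => hj (Int.emod_eq_zero_of_dvd hd))).symm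
      apply hmult (-(u * ((i : ℤ) - i')))
      calc Q = (u * ((j : ℤ) - j') + v * 5) • Q := by rw [huv, one_zsmul]
        _ = u • (((i : ℤ) - i') • P + ((j : ℤ) - j') • Q) - (u * ((i : ℤ) - i')) • P
            + v • ((5 : ℤ) • Q) := by
          rw [add_zsmul, smul_add, smul_smul, smul_smul, smul_smul]
          abel
        _ = -(u * ((i : ℤ) - i')) • P := by
          rw [e', Q5, smul_zero, smul_zero, add_zero, zero_sub, neg_zsmul]
    have hjj : j = j' := Fin.ext (by omega)
    subst hjj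
    simp only [sub_self, zero_zsmul, add_zero] at e'
    have hii : i = i' := by
      by_contra hne
      have hi : ((i : ℤ) - i') % 5 ≠ 0 := by
        have : (i : ℕ) ≠ i' := fun c => hne (Fin.ext c)
        omega
      obtain ⟨u, v, huv⟩ : IsCoprime ((i : ℤ) - i') 5 :=
        ((Nat.prime_iff_prime_int.1 Nat.prime_five).coprime_iff_not_dvd.2 (fun hd => hi (Int.emod_eq_zero_of_dvd hd))).symm
      have : P = 0 := by
        calc P = (u * ((i : ℤ) - i') + v * 5) • P := by rw [huv, one_zsmul]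
          _ = u • (((i : ℤ) - i') • P) + v • ((5 : ℤ) • P) := by
            rw [add_zsmul, smul_smul, smul_smul]
          _ = 0 := by rw [e', P5, smul_zero, smul_zero, add_zero]
      exact Affine.Point.some_ne_zero _ this
    rw [hii]


/-- Specialisation of the generic five-torsion at the rational parameter `t`. -/
noncomputable def spAt (t : ℚ) {d4 d6 : K} (e4 : algebraMap ℚ K ((F4 c4 c6).eval t) = d4)
    (e6 : algebraMap ℚ K ((F6 c4 c6).eval t) = d6) (hd : d4 ^ 3 ≠ d6 ^ 2) :
    Submodule.torsionBy ℤ (genCurve K c4 c6).Point 5 →+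
      Submodule.torsionBy ℤ (SW d4 d6).Point 5 :=
  (mapTorsion (RingHom.id K) (c4 := (evalAt (algebraMap ℚ K t)).ev (polyAt _ (G4 c4 c6)))
      (c6 := (evalAt (algebraMap ℚ K t)).ev (polyAt _ (G6 c4 c6)))
      (by rw [RingHom.id_apply, ev_polyAt, G4, Polynomial.eval_map_apply, e4])
      (by rw [RingHom.id_apply, ev_polyAt, G6, Polynomial.eval_map_apply, e6])).comp
    ((evalAt (algebraMap ℚ K t)).spTorsion (c4 := polyAt _ (G4 c4 c6)) (c6 := polyAt _ (G6 c4 c6))
      (by rw [ev_polyAt, ev_polyAt, G4, G6, Polynomial.eval_map_apply, Polynomial.eval_map_apply,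
        e4, e6]; exact hd))

omit [IsAlgClosed K] in
lemma spAt_injective (t : ℚ) {d4 d6 : K} (e4 : algebraMap ℚ K ((F4 c4 c6).eval t) = d4)
    (e6 : algebraMap ℚ K ((F6 c4 c6).eval t) = d6) (hd : d4 ^ 3 ≠ d6 ^ 2) :
    Function.Injective (spAt (c4 := c4) (c6 := c6) t e4 e6 hd) := by
  have hc : (evalAt (algebraMap ℚ K t)).ev (polyAt _ (G4 c4 c6)) ^ 3 ≠
      (evalAt (algebraMap ℚ K t)).ev (polyAt _ (G6 c4 c6)) ^ 2 := by
    rw [ev_polyAt, ev_polyAt, G4, G6, Polynomial.eval_map_apply, Polynomial.eval_map_apply,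
      e4, e6]
    exact hd
  exact fun P Q hPQ => (evalAt (algebraMap ℚ K t)).spTorsion_injective
    (c4 := polyAt _ (G4 c4 c6)) (c6 := polyAt _ (G6 c4 c6)) hc
    (mapTorsion_injective _ _ _ hPQ)

omit [IsAlgClosed K] [DecidableEq K] [DecidableEq (RatFunc K)] in
lemma coeffHom_G (σ : K ≃+* K) (p : ℚ[X]) :
    coeffHom σ (algebraMap K[X] (RatFunc K) (p.map (algebraMap ℚ K))) =
      algebraMap K[X] (RatFunc K) (p.map (algebraMap ℚ K)) := by
  rw [coeffHom_algebraMap, Polynomial.map_map,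
    Subsingleton.elim (σ.toRingHom.comp (algebraMap ℚ K)) (algebraMap ℚ K)]

omit [IsAlgClosed K] [DecidableEq K] [DecidableEq (RatFunc K)] in
lemma fixes_rat (σ : K ≃+* K) (q : ℚ) :
    σ.toRingHom (algebraMap ℚ K q) = algebraMap ℚ K q :=
  RingHom.congr_fun (Subsingleton.elim (σ.toRingHom.comp (algebraMap ℚ K)) (algebraMap ℚ K)) q

omit [IsAlgClosed K] [DecidableEq K] [DecidableEq (RatFunc K)] in
/-- Specialisation commutes with compatible coefficient maps. -/
lemma sp_mapSW {L : Type*} [Field L] [CharZero L] [DecidableEq L] (E : EvalRing L K) {c₄ c₆ : E.O}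
    (hc : E.ev c₄ ^ 3 ≠ E.ev c₆ ^ 2) (φ : L →+* L) (ψ : K →+* K) (p4 : φ c₄ = c₄)
    (p6 : φ c₆ = c₆) (q4 : ψ (E.ev c₄) = E.ev c₄) (q6 : ψ (E.ev c₆) = E.ev c₆)
    (hφ : ∀ (x : L) (hx : x ∈ E.O), ∃ h : φ x ∈ E.O, E.ev ⟨φ x, h⟩ = ψ (E.ev ⟨x, hx⟩))
    (P : (E.gen c₄ c₆).Point) (hP : E.IsInt P) :
    E.sp c₄ c₆ hc (mapSW φ p4 p6 P) = mapSW ψ q4 q6 (E.sp c₄ c₆ hc P) := by
  rcases P with _ | ⟨x, y, hxy⟩
  · rfl
  · obtain ⟨hx, hy⟩ := hP
    obtain ⟨hx', ex⟩ := hφ x hx
    obtain ⟨hy', ey⟩ := hφ y hy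
    simp only [mapSW, EvalRing.sp]
    rw [dif_pos ⟨hx', hy'⟩, dif_pos ⟨hx, hy⟩]
    simp only [Affine.Point.some.injEq]
    exact ⟨ex, ey⟩

omit [IsAlgClosed K] [DecidableEq (RatFunc K)] [DecidableEq K] in
lemma mapSW_id_comm {e4 e6 d4 d6 : K} (i4 : (RingHom.id K) e4 = d4) (i6 : (RingHom.id K) e6 = d6)
    (ψ : K →+* K) (q4 : ψ e4 = e4) (q6 : ψ e6 = e6) (s4 : ψ d4 = d4) (s6 : ψ d6 = d6)
    (P : (SW e4 e6).Point) :
    mapSW (RingHom.id K) i4 i6 (mapSW ψ q4 q6 P) = mapSW ψ s4 s6 (mapSW (RingHom.id K) i4 i6 P) := by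
  rcases P with _ | ⟨x, y, hxy⟩ <;> rfl

lemma spAt_commute (t : ℚ) {d4 d6 : K} (e4 : algebraMap ℚ K ((F4 c4 c6).eval t) = d4)
    (e6 : algebraMap ℚ K ((F6 c4 c6).eval t) = d6) (hd : d4 ^ 3 ≠ d6 ^ 2) (σ : K ≃+* K)
    (s4 : σ.toRingHom d4 = d4) (s6 : σ.toRingHom d6 = d6)
    (P : Submodule.torsionBy ℤ (genCurve K c4 c6).Point 5) :
    spAt t e4 e6 hd (mapTorsion (coeffHom σ) (coeffHom_G σ _) (coeffHom_G σ _) P) =
      mapTorsion σ.toRingHom s4 s6 (spAt t e4 e6 hd P) := by
  set a := algebraMap ℚ K t with ha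
  have v4 : (evalAt a).ev (polyAt a (G4 c4 c6)) = d4 := by
    rw [ev_polyAt, G4, Polynomial.eval_map_apply, e4]
  have v6 : (evalAt a).ev (polyAt a (G6 c4 c6)) = d6 := by
    rw [ev_polyAt, G6, Polynomial.eval_map_apply, e6]
  have hc : (evalAt a).ev (polyAt a (G4 c4 c6)) ^ 3 ≠ (evalAt a).ev (polyAt a (G6 c4 c6)) ^ 2 := by
    rw [v4, v6]; exact hd
  have q4 : σ.toRingHom ((evalAt a).ev (polyAt a (G4 c4 c6))) =
      (evalAt a).ev (polyAt a (G4 c4 c6)) := by rw [v4, s4]
  have q6 : σ.toRingHom ((evalAt a).ev (polyAt a (G6 c4 c6))) =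
      (evalAt a).ev (polyAt a (G6 c4 c6)) := by rw [v6, s6]
  have h5 : (5 : ℤ) • P.1 = 0 := (Submodule.mem_torsionBy_iff _ _).1 P.2
  have h1 := sp_mapSW (evalAt a) hc (coeffHom σ) σ.toRingHom (coeffHom_G σ _) (coeffHom_G σ _)
    q4 q6 (fun x hx => coeffHom_mem (fixes_rat σ t) hx) P.1 ((evalAt a).isInt_of_five_smul hc h5)
  have h2 := mapSW_id_comm v4 v6 σ.toRingHom q4 q6 s4 s6 ((evalAt a).sp _ _ hc P.1)
  apply Subtype.ext
  exact (congrArg (mapSW (RingHom.id K) v4 v6) h1).trans h2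

/-- The five-torsion of a member of the family is Galois-equivariantly that of the original
curve. -/
theorem exists_torsion_iso (h : c4 ^ 3 ≠ c6 ^ 2)
    (hcard : ∀ d4 d6 : K, d4 ^ 3 ≠ d6 ^ 2 →
      Nat.card (Submodule.torsionBy ℤ (SW d4 d6).Point 5) = 25)
    (t : ℚ) (ht : (F4 c4 c6).eval t ^ 3 ≠ (F6 c4 c6).eval t ^ 2) :
    ∃ e : Submodule.torsionBy ℤ (SW (algebraMap ℚ K c4) (algebraMap ℚ K c6)).Point 5 ≃+
        Submodule.torsionBy ℤ (SW (algebraMap ℚ K ((F4 c4 c6).eval t))
          (algebraMap ℚ K ((F6 c4 c6).eval t))).Point 5,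
      ∀ (σ : K ≃+* K) P,
        e (mapTorsion σ.toRingHom (fixes_rat σ c4) (fixes_rat σ c6) P) =
          mapTorsion σ.toRingHom (fixes_rat σ _) (fixes_rat σ _) (e P) := by
  have ne : ∀ {x y : ℚ}, x ^ 3 ≠ y ^ 2 → (algebraMap ℚ K x) ^ 3 ≠ (algebraMap ℚ K y) ^ 2 := by
    intro x y hxy
    rw [← map_pow, ← map_pow]
    exact fun e => hxy ((algebraMap ℚ K).injective e)
  set f0 := spAt (K := K) (c4 := c4) (c6 := c6) 0 (congrArg _ (F4_eval_zero h))
    (congrArg _ (F6_eval_zero h)) (ne h) with hf0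
  set ft := spAt (K := K) (c4 := c4) (c6 := c6) t rfl rfl (ne ht) with hft
  obtain ⟨g, hg⟩ := exists_embedding (K := K) h
  have bij : ∀ {d4 d6 : K}, d4 ^ 3 ≠ d6 ^ 2 →
      ∀ f : Submodule.torsionBy ℤ (genCurve K c4 c6).Point 5 →+
        Submodule.torsionBy ℤ (SW d4 d6).Point 5, Function.Injective f → Function.Bijective f := by
    intro d4 d6 hd f hf
    have : Finite (Submodule.torsionBy ℤ (SW d4 d6).Point 5) :=
      Nat.finite_of_card_ne_zero (by rw [hcard _ _ hd]; norm_num)
    refine hf.bijective_of_nat_card_le ?_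
    have : Finite (Submodule.torsionBy ℤ (genCurve K c4 c6).Point 5) := Finite.of_injective f hf
    calc Nat.card (Submodule.torsionBy ℤ (SW d4 d6).Point 5) = Nat.card (Fin 5 × Fin 5) := by
          rw [hcard _ _ hd, Nat.card_prod, Nat.card_fin]
      _ ≤ _ := Nat.card_le_card_of_injective g hg
  have b0 := bij (ne h) f0 (spAt_injective _ _ _ _)
  have bt := bij (ne ht) ft (spAt_injective _ _ _ _)
  refine ⟨(AddEquiv.ofBijective f0 b0).symm.trans (AddEquiv.ofBijective ft bt), fun σ P => ?_⟩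
  obtain ⟨Q, rfl⟩ := b0.2 P
  have key : ∀ R, (AddEquiv.ofBijective f0 b0).symm (f0 R) = R := fun R =>
    (AddEquiv.ofBijective f0 b0).symm_apply_apply R
  have c0 := spAt_commute 0 (congrArg _ (F4_eval_zero h)) (congrArg _ (F6_eval_zero h)) (ne h) σ
    (fixes_rat σ c4) (fixes_rat σ c6) Q
  rw [← hf0] at c0
  rw [← c0]
  simp only [AddEquiv.trans_apply, key, AddEquiv.ofBijective_apply]
  exact spAt_commute t rfl rfl (ne ht) σ (fixes_rat σ _) (fixes_rat σ _) Q

end Family


end Fermat.Agent.ThreeFive
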