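import Fermat.Prelude.Def_FLTPrelim_ModularRep
import Fermat.Prelude.Def_EllipticCurve_FrobeniusTrace
import Fermat.Agent.EllTorsion.Count
import Fermat.Agent.ThreeFive.TorsionIso
import Fermat.Agent.ThreeFive.NoBranch

/-!
# Galois modules of members of the family
-/

namespace Fermat.Agent.ThreeFive

open WeierstrassCurve
open scoped WeierstrassCurve.Affine

local notation "Qb" => AlgebraicClosure ℚ

section Short

variable {K : Type*} [Field K] [CharZero K] [DecidableEq K]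

/-- `toShort` with prescribed invariants. -/
lemma exists_toShort_at (W : Affine K) (s : K) (hW : W.Δ ≠ 0) (hs : s ≠ 0) {d4 d6 : K}
    (e4 : s ^ 4 * W.c₄ = d4) (e6 : s ^ 6 * W.c₆ = d6) :
    ∃ T : W.Point ≃+ (SW d4 d6).Point, ∀ x y (h : W.Nonsingular x y), ∃ h',
      T (.some x y h) = .some (toShortX W s x) (toShortY W s x y) h' := by
  subst e4 e6
  exact ⟨toShort hW hs, fun x y h => by
    obtain ⟨h', e⟩ := toShortFun_some hW hs h
    exact ⟨h', by rw [toShort_apply]; exact e⟩⟩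

/-- The short model has `n²` points killed by `n`. -/
lemma SW_natCard_torsion [IsAlgClosed K] {d4 d6 : K} (h : d4 ^ 3 ≠ d6 ^ 2) (n : ℕ)
    (hn : (n : K) ≠ 0) :
    Nat.card (Submodule.torsionBy ℤ (SW d4 d6).Point (n : ℤ)) = n ^ 2 := by
  have : (SW d4 d6).IsElliptic := ⟨by
    rw [isUnit_iff_ne_zero]
    intro h0
    apply h
    have e := (SW d4 d6).c_relation
    rw [h0, mul_zero] at e
    have h4 : (SW d4 d6).c₄ = 1296 * d4 := by
      simp only [WeierstrassCurve.c₄, WeierstrassCurve.b₂, WeierstrassCurve.b₄, SW_a₁, SW_a₂,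
        SW_a₃, SW_a₄]
      ring
    have h6 : (SW d4 d6).c₆ = 46656 * d6 := by
      simp only [WeierstrassCurve.c₆, WeierstrassCurve.b₂, WeierstrassCurve.b₄,
        WeierstrassCurve.b₆, SW_a₁, SW_a₂, SW_a₃, SW_a₄, SW_a₆]
      ring
    rw [h4, h6] at e
    have : (2176782336 : K) * (d4 ^ 3 - d6 ^ 2) = 0 := by linear_combination -e
    exact sub_eq_zero.1 (by simpa using this)⟩
  exact EllTorsion.natCard_torsionBy n hn

end Short

/-- A Galois equivariant isomorphism onto a short model with scaled invariants. -/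
lemma exists_rat_short (E : WeierstrassCurve ℚ) (hE : E.Δ ≠ 0) (s : ℚ) (hs : s ≠ 0) {d4 d6 : ℚ}
    (e4 : s ^ 4 * E.c₄ = d4) (e6 : s ^ 6 * E.c₆ = d6) :
    ∃ T : (E⁄Qb).Point ≃+ (SW (algebraMap ℚ Qb d4) (algebraMap ℚ Qb d6)).Point,
      ∀ (σ : Qb ≃ₐ[ℚ] Qb) (P : (E⁄Qb).Point), T (σ • P) =
        mapSW (σ : Qb ≃+* Qb).toRingHom (fixes_rat (σ : Qb ≃+* Qb) d4)
          (fixes_rat (σ : Qb ≃+* Qb) d6) (T P) := by
  set ι := algebraMap ℚ Qb
  have h4 : ι s ^ 4 * (E⁄Qb : Affine Qb).c₄ = ι d4 := by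
    rw [← e4, map_mul, map_pow]; simp [WeierstrassCurve.baseChange, ι]
  have h6 : ι s ^ 6 * (E⁄Qb : Affine Qb).c₆ = ι d6 := by
    rw [← e6, map_mul, map_pow]; simp [WeierstrassCurve.baseChange, ι]
  have hΔ : (E⁄Qb : Affine Qb).Δ ≠ 0 := by
    simp [WeierstrassCurve.baseChange, hE]
  obtain ⟨T, hT⟩ := exists_toShort_at (E⁄Qb : Affine Qb) (ι s) hΔ
    ((_root_.map_ne_zero _).2 hs) h4 h6
  refine ⟨T, fun σ P => ?_⟩
  rcases P with _ | ⟨x, y, h⟩
  · rw [show σ • (Affine.Point.zero : (E⁄Qb).Point) = (0 : (E⁄Qb).Point) from rfl, map_zero,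
      show (Affine.Point.zero : (E⁄Qb).Point) = 0 from rfl, map_zero]
    rfl
  · obtain ⟨h', e'⟩ := hT x y h
    have hσ : ∃ k, σ • (Affine.Point.some x y h : (E⁄Qb).Point) = .some (σ x) (σ y) k :=
      ⟨(E.toAffine.baseChange_nonsingular σ.toAlgHom.injective x y).mpr h, rfl⟩
    obtain ⟨k, ek⟩ := hσ
    obtain ⟨k', ek'⟩ := hT (σ x) (σ y) k
    rw [ek, ek', e']
    simp only [mapSW, Affine.Point.some.injEq]
    simp [toShortX, toShortY, WeierstrassCurve.baseChange, map_ofNat, ι]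

/-- An isomorphism of point groups restricted to torsion. -/
def torsionEquiv {G H : Type*} [AddCommGroup G] [AddCommGroup H] (e : G ≃+ H) (n : ℤ) :
    Submodule.torsionBy ℤ G n ≃+ Submodule.torsionBy ℤ H n where
  toFun x := ⟨e x.1, (Submodule.mem_torsionBy_iff _ _).2 <| by
    rw [← map_zsmul, (Submodule.mem_torsionBy_iff _ _).1 x.2, map_zero]⟩
  invFun x := ⟨e.symm x.1, (Submodule.mem_torsionBy_iff _ _).2 <| by
    rw [← map_zsmul, (Submodule.mem_torsionBy_iff _ _).1 x.2, map_zero]⟩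
  left_inv x := Subtype.ext (e.symm_apply_apply _)
  right_inv x := Subtype.ext (e.apply_symm_apply _)
  map_add' x y := Subtype.ext (map_add e _ _)

/-- Equivariant five-torsion isomorphism between `E` and a member of its family. -/
theorem exists_equivariant_iso (E E' : WeierstrassCurve ℚ) (hE : E.Δ ≠ 0) (hE' : E'.Δ ≠ 0)
    (t s : ℚ) (hs : s ≠ 0) (e4 : s ^ 4 * E'.c₄ = (F4 E.c₄ E.c₆).eval t)
    (e6 : s ^ 6 * E'.c₆ = (F6 E.c₄ E.c₆).eval t) :
    ∃ e : Submodule.torsionBy ℤ (E⁄Qb).Point ((5 : ℕ) : ℤ) ≃+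
        Submodule.torsionBy ℤ (E'⁄Qb).Point ((5 : ℕ) : ℤ),
      ∀ (σ : Qb ≃ₐ[ℚ] Qb) x, e (σ • x) = σ • e x := by
  classical
  have h : E.c₄ ^ 3 ≠ E.c₆ ^ 2 := by
    rw [← sub_ne_zero, ← E.c_relation]; exact mul_ne_zero (by norm_num) hE
  have ht : (F4 E.c₄ E.c₆).eval t ^ 3 ≠ (F6 E.c₄ E.c₆).eval t ^ 2 := by
    rw [← sub_ne_zero, ← e4, ← e6]
    have : (s ^ 4 * E'.c₄) ^ 3 - (s ^ 6 * E'.c₆) ^ 2 = s ^ 12 * (1728 * E'.Δ) := by
      rw [E'.c_relation]; ring
    rw [this]; exact mul_ne_zero (pow_ne_zero _ hs) (mul_ne_zero (by norm_num) hE')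
  obtain ⟨T, hT⟩ := exists_rat_short E hE 1 one_ne_zero (d4 := E.c₄) (d6 := E.c₆) (by ring) (by ring)
  obtain ⟨T', hT'⟩ := exists_rat_short E' hE' s hs e4 e6
  obtain ⟨m, hm⟩ := exists_torsion_iso (K := Qb) h
    (fun d4 d6 hd => by
      have := SW_natCard_torsion hd 5 (by norm_num)
      simpa using this) t ht
  refine ⟨(torsionEquiv T ((5 : ℕ) : ℤ)).trans (m.trans (torsionEquiv T' ((5 : ℕ) : ℤ)).symm), fun σ x => ?_⟩
  set g := (torsionEquiv T ((5 : ℕ) : ℤ)).trans (m.trans (torsionEquiv T' ((5 : ℕ) : ℤ)).symm) with hg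
  apply (torsionEquiv T' ((5 : ℕ) : ℤ)).injective
  have h1 : torsionEquiv T ((5 : ℕ) : ℤ) (σ • x) = mapTorsion (σ : Qb ≃+* Qb).toRingHom
      (fixes_rat (σ : Qb ≃+* Qb) _) (fixes_rat (σ : Qb ≃+* Qb) _) (torsionEquiv T ((5 : ℕ) : ℤ) x) :=
    Subtype.ext (hT σ x.1)
  have h2 : ∀ y, torsionEquiv T' ((5 : ℕ) : ℤ) (σ • y) = mapTorsion (σ : Qb ≃+* Qb).toRingHom
      (fixes_rat (σ : Qb ≃+* Qb) _) (fixes_rat (σ : Qb ≃+* Qb) _) (torsionEquiv T' ((5 : ℕ) : ℤ) y) :=
    fun y => Subtype.ext (hT' σ y.1)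
  rw [h2]
  have hgx : ∀ z, torsionEquiv T' ((5 : ℕ) : ℤ) (g z) = m (torsionEquiv T ((5 : ℕ) : ℤ) z) := fun z =>
    (torsionEquiv T' ((5 : ℕ) : ℤ)).apply_symm_apply _
  rw [hgx, hgx, ← hm]
  exact congrArg m h1

/-- An equivariant isomorphism preserves traces. -/
theorem galoisTrace_eq (E E' : WeierstrassCurve ℚ) (n : ℕ) [Fact n.Prime]
    (e : Submodule.torsionBy ℤ (E⁄Qb).Point (n : ℤ) ≃+
      Submodule.torsionBy ℤ (E'⁄Qb).Point (n : ℤ))
    (he : ∀ (σ : Qb ≃ₐ[ℚ] Qb) x, e (σ • x) = σ • e x) (σ : Qb ≃ₐ[ℚ] Qb) :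
    Affine.Point.galoisTrace ℚ E n σ = Affine.Point.galoisTrace ℚ E' n σ := by
  let L : Submodule.torsionBy ℤ (E⁄Qb).Point (n : ℤ) ≃ₗ[ZMod n]
      Submodule.torsionBy ℤ (E'⁄Qb).Point (n : ℤ) :=
    { e with map_smul' := fun c x => ZMod.map_smul e.toAddMonoidHom c x }
  have hc : L.conj (Affine.Point.galoisRepModuleEnd ℚ E n σ) =
      Affine.Point.galoisRepModuleEnd ℚ E' n σ := by
    refine LinearMap.ext fun y => ?_
    rw [LinearEquiv.conj_apply_apply]
    show L (σ • L.symm y) = σ • y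
    exact (he σ _).trans (congrArg (σ • ·) (L.apply_symm_apply y))
  rw [Affine.Point.galoisTrace_def, Affine.Point.galoisTrace_def, ← hc, LinearMap.trace_conj']

/-- A model without rational root of the three-division polynomial has irreducible `E[3]`. -/
theorem irreducible_three (E : WeierstrassCurve ℚ) (hE : E.Δ ≠ 0) (s : ℚ) (hs : s ≠ 0) {A B : ℚ}
    (eA : s ^ 4 * E.c₄ = A) (eB : s ^ 6 * E.c₆ = B)
    (hroot : ∀ x : ℚ, psi3 (-27 * A) (-54 * B) x ≠ 0) :
    Affine.Point.GaloisRepIsIrreducible (K := Qb) ℚ E 3 := by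
  classical
  have hne : (algebraMap ℚ Qb A) ^ 3 ≠ (algebraMap ℚ Qb B) ^ 2 := by
    rw [← map_pow, ← map_pow]
    intro e
    have e' := (algebraMap ℚ Qb).injective e
    rw [← eA, ← eB] at e'
    have : s ^ 12 * (1728 * E.Δ) = 0 := by rw [E.c_relation]; linear_combination e'
    simp [hs, hE] at this
  obtain ⟨T, hT⟩ := exists_rat_short E hE s hs eA eB
  have hcard : Nat.card (Submodule.torsionBy ℤ (E⁄Qb).Point ((3 : ℕ) : ℤ)) = 9 := by
    rw [Nat.card_congr (torsionEquiv T ((3 : ℕ) : ℤ)).toEquiv, SW_natCard_torsion hne 3 (by norm_num)]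
    norm_num
  have : Finite (Submodule.torsionBy ℤ (E⁄Qb).Point ((3 : ℕ) : ℤ)) :=
    Nat.finite_of_card_ne_zero (by omega)
  refine ⟨Finite.one_lt_card_iff_nontrivial.1 (by omega), fun N hN => ?_⟩
  by_contra hcon
  push Not at hcon
  obtain ⟨hbot, htop⟩ := hcon
  -- `N` has three elements
  have hN3 : Nat.card N = 3 := by
    have hd : Nat.card N.toAddSubgroup ∣ 3 ^ 2 := by
      have := AddSubgroup.card_addSubgroup_dvd_card N.toAddSubgroup
      rw [hcard] at this; exact this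
    obtain ⟨i, hi, he⟩ := (Nat.dvd_prime_pow Nat.prime_three).1 hd
    have h1 : Nat.card N.toAddSubgroup ≠ 1 := fun h1 => hbot <| by
      rw [AddSubgroup.card_eq_one] at h1
      exact Submodule.toAddSubgroup_injective h1
    have h9 : Nat.card N.toAddSubgroup ≠ 9 := fun h9 => htop <| by
      have := AddSubgroup.eq_top_of_card_eq N.toAddSubgroup (by rw [h9, hcard])
      exact Submodule.toAddSubgroup_injective this
    show Nat.card N.toAddSubgroup = 3
    interval_cases i <;> omega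
  obtain ⟨P, hPN, hP0⟩ := N.ne_bot_iff.1 hbot
  have h3 : (P : (E⁄Qb).Point) + P + P = 0 := by
    have := (Submodule.mem_torsionBy_iff _ _).1 P.2
    rw [← this]; push_cast; abel
  have hPne : (P : (E⁄Qb).Point) ≠ 0 := fun h => hP0 (Subtype.ext h)
  have hneg : (P : (E⁄Qb).Point) ≠ -P := by
    intro h
    apply hPne
    have h2 : (P : (E⁄Qb).Point) + P = 0 := by nth_rw 1 [h]; exact neg_add_cancel _
    rwa [h2, zero_add] at h3
  have hfix : ∀ σ : Qb ≃ₐ[ℚ] Qb, σ • (P : (E⁄Qb).Point) = P ∨ σ • (P : (E⁄Qb).Point) = -P := by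
    intro σ
    by_contra hc
    push Not at hc
    have : Fintype N := Fintype.ofFinite _
    set a : N := ⟨P, hPN⟩
    set b : N := ⟨σ • P, hN σ P hPN⟩
    have hb0 : b ≠ 0 := fun h => hP0 <| by
      have h' : σ • P = 0 := congrArg Subtype.val h
      rw [← inv_smul_smul σ P, h', smul_zero]
    have hcard4 : ({0, a, -a, b} : Finset N).card = 4 := by
      rw [Finset.card_insert_of_notMem, Finset.card_insert_of_notMem, Finset.card_insert_of_notMem,
        Finset.card_singleton]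
      · simp only [Finset.mem_singleton]
        intro h
        exact hc.2 (congrArg (fun z : N => (z.1 : (E⁄Qb).Point)) h).symm
      · simp only [Finset.mem_insert, Finset.mem_singleton, not_or]
        refine ⟨fun h => hneg (congrArg (fun z : N => (z.1 : (E⁄Qb).Point)) h), fun h => ?_⟩
        exact hc.1 (congrArg (fun z : N => (z.1 : (E⁄Qb).Point)) h).symm
      · simp only [Finset.mem_insert, Finset.mem_singleton, not_or]
        refine ⟨fun h => hP0 (congrArg Subtype.val h).symm, fun h => ?_, fun h => hb0 h.symm⟩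
        exact hP0 (congrArg Subtype.val (neg_eq_zero.1 h.symm))
    have := Finset.card_le_univ ({0, a, -a, b} : Finset N)
    rw [hcard4, ← Nat.card_eq_fintype_card, hN3] at this
    omega
  -- the abscissa of the short model
  rcases hQ : T (P : (E⁄Qb).Point) with _ | ⟨X, Y, hXY⟩
  · exact hPne (T.injective (hQ.trans (map_zero T).symm))
  have hX : ∀ σ : Qb ≃ₐ[ℚ] Qb, σ X = X := by
    intro σ
    have e := hT σ P
    rcases hfix σ with h | h
    · rw [h, hQ] at e
      simp only [mapSW, Affine.Point.some.injEq] at e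
      exact e.1.symm
    · rw [h, map_neg, hQ, Affine.Point.neg_some] at e
      simp only [mapSW, Affine.Point.some.injEq] at e
      exact e.1.symm
  have : IsAlgClosure ℚ Qb := ⟨inferInstance, AlgebraicClosure.isAlgebraic ℚ⟩
  obtain ⟨x, hx⟩ := IntermediateField.mem_bot.1 ((InfiniteGalois.mem_bot_iff_fixed X).2 hX)
  apply hroot x
  apply (algebraMap ℚ Qb).injective
  rw [map_psi3, map_zero, map_mul, map_mul, map_neg, map_neg, map_ofNat, map_ofNat, hx]
  -- doubling is negation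
  have hdbl : T (P : (E⁄Qb).Point) + T P = -T P := by
    rw [← map_neg, ← map_add]; exact congrArg T (eq_neg_of_add_eq_zero_left h3)
  rw [hQ] at hdbl
  have hY : Y ≠ (SW (algebraMap ℚ Qb A) (algebraMap ℚ Qb B)).negY X Y := by
    intro hY
    rw [Affine.Point.add_self_of_Y_eq hY, eq_comm, neg_eq_zero] at hdbl
    exact Affine.Point.some_ne_zero _ hdbl
  rw [Affine.Point.add_self_of_Y_ne hY, Affine.Point.neg_some] at hdbl
  simp only [Affine.Point.some.injEq] at hdbl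
  set l := (SW (algebraMap ℚ Qb A) (algebraMap ℚ Qb B)).slope X X Y Y with hl
  have hl' : l * (Y - (SW (algebraMap ℚ Qb A) (algebraMap ℚ Qb B)).negY X Y) =
      3 * X ^ 2 - 27 * algebraMap ℚ Qb A := by
    rw [hl, Affine.slope_of_Y_ne rfl hY, div_mul_cancel₀ _ (sub_ne_zero.2 hY)]
    simp; ring
  rw [SW_negY] at hl'
  have h1 : l ^ 2 = 3 * X := by
    have := hdbl.1
    simp [Affine.addX] at this
    linear_combination this
  have hc := (SW_equation_iff _ _ _ _).1 hXY.1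
  have h2 : 4 * Y ^ 2 * l ^ 2 = (3 * X ^ 2 - 27 * algebraMap ℚ Qb A) ^ 2 := by
    linear_combination (2 * Y * l + (3 * X ^ 2 - 27 * algebraMap ℚ Qb A)) * hl'
  simp only [psi3]
  linear_combination h2 - 4 * Y ^ 2 * h1 - 12 * X * hc

end Fermat.Agent.ThreeFive
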