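import Fermat.Agent.ThreeFive.Galois

/-!
# Irreducibility of two-torsion from the cubic
-/

namespace Fermat.Agent.ThreeFive

open WeierstrassCurve
open scoped WeierstrassCurve.Affine

local notation "Qb" => AlgebraicClosure ℚ

/-- A model whose two-division cubic has no rational root has irreducible `E[2]`. -/
theorem irreducible_two (E : WeierstrassCurve ℚ) (hE : E.Δ ≠ 0) (s : ℚ) (hs : s ≠ 0) {A B : ℚ}
    (eA : s ^ 4 * E.c₄ = A) (eB : s ^ 6 * E.c₆ = B)
    (hroot : ∀ x : ℚ, x ^ 3 + (-27 * A) * x + (-54 * B) ≠ 0) :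
    Affine.Point.GaloisRepIsIrreducible (K := Qb) ℚ E 2 := by
  classical
  have hne : (algebraMap ℚ Qb A) ^ 3 ≠ (algebraMap ℚ Qb B) ^ 2 := by
    rw [← map_pow, ← map_pow]
    intro e
    have e' := (algebraMap ℚ Qb).injective e
    rw [← eA, ← eB] at e'
    have : s ^ 12 * (1728 * E.Δ) = 0 := by rw [E.c_relation]; linear_combination e'
    simp [hs, hE] at this
  obtain ⟨T, hT⟩ := exists_rat_short E hE s hs eA eB
  have hcard : Nat.card (Submodule.torsionBy ℤ (E⁄Qb).Point ((2 : ℕ) : ℤ)) = 4 := by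
    rw [Nat.card_congr (torsionEquiv T ((2 : ℕ) : ℤ)).toEquiv,
      SW_natCard_torsion hne 2 (by norm_num)]
    norm_num
  have : Finite (Submodule.torsionBy ℤ (E⁄Qb).Point ((2 : ℕ) : ℤ)) :=
    Nat.finite_of_card_ne_zero (by omega)
  refine ⟨Finite.one_lt_card_iff_nontrivial.1 (by omega), fun N hN => ?_⟩
  by_contra hcon
  push Not at hcon
  obtain ⟨hbot, htop⟩ := hcon
  -- `N` has two elements
  have hN2 : Nat.card N = 2 := by
    have hd : Nat.card N.toAddSubgroup ∣ 2 ^ 2 := by
      have := AddSubgroup.card_addSubgroup_dvd_card N.toAddSubgroup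
      rw [hcard] at this; exact this
    obtain ⟨i, hi, he⟩ := (Nat.dvd_prime_pow Nat.prime_two).1 hd
    have h1 : Nat.card N.toAddSubgroup ≠ 1 := fun h1 => hbot <| by
      rw [AddSubgroup.card_eq_one] at h1
      exact Submodule.toAddSubgroup_injective h1
    have h4 : Nat.card N.toAddSubgroup ≠ 4 := fun h4 => htop <| by
      have := AddSubgroup.eq_top_of_card_eq N.toAddSubgroup (by rw [h4, hcard])
      exact Submodule.toAddSubgroup_injective this
    show Nat.card N.toAddSubgroup = 2
    interval_cases i <;> omega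
  obtain ⟨P, hPN, hP0⟩ := N.ne_bot_iff.1 hbot
  have h2 : (P : (E⁄Qb).Point) + P = 0 := by
    have := (Submodule.mem_torsionBy_iff _ _).1 P.2
    rw [← this]; push_cast; abel
  have hPne : (P : (E⁄Qb).Point) ≠ 0 := fun h => hP0 (Subtype.ext h)
  have hfix : ∀ σ : Qb ≃ₐ[ℚ] Qb, σ • (P : (E⁄Qb).Point) = P := by
    intro σ
    have : Fintype N := Fintype.ofFinite _
    set a : N := ⟨P, hPN⟩
    set b : N := ⟨σ • P, hN σ P hPN⟩
    have hb0 : b ≠ 0 := fun h => hP0 <| by
      have h' : σ • P = 0 := congrArg Subtype.val h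
      rw [← inv_smul_smul σ P, h', smul_zero]
    have ha0 : a ≠ 0 := fun h => hP0 (congrArg Subtype.val h)
    by_contra hc
    have hab : a ≠ b := fun h => hc
      (congrArg (fun z : N => (z.1 : (E⁄Qb).Point)) h).symm
    have hcard3 : ({0, a, b} : Finset N).card = 3 := by
      rw [Finset.card_insert_of_notMem, Finset.card_insert_of_notMem, Finset.card_singleton]
      · simpa using hab
      · simp [Ne.symm ha0, Ne.symm hb0]
    have := Finset.card_le_univ ({0, a, b} : Finset N)
    rw [hcard3, ← Nat.card_eq_fintype_card, hN2] at this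
    omega
  -- the abscissa of the short model
  rcases hQ : T (P : (E⁄Qb).Point) with _ | ⟨X, Y, hXY⟩
  · exact hPne (T.injective (hQ.trans (map_zero T).symm))
  have hX : ∀ σ : Qb ≃ₐ[ℚ] Qb, σ X = X := by
    intro σ
    have e := hT σ P
    rw [hfix σ, hQ] at e
    simp only [mapSW, Affine.Point.some.injEq] at e
    exact e.1.symm
  have : IsAlgClosure ℚ Qb := ⟨inferInstance, AlgebraicClosure.isAlgebraic ℚ⟩
  obtain ⟨x, hx⟩ := IntermediateField.mem_bot.1 ((InfiniteGalois.mem_bot_iff_fixed X).2 hX)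
  apply hroot x
  apply (algebraMap ℚ Qb).injective
  simp only [map_add, map_mul, map_pow, map_neg, map_ofNat, map_zero, hx]
  have hdbl : T (P : (E⁄Qb).Point) = -T P :=
    eq_neg_of_add_eq_zero_left (by rw [← map_add, h2, map_zero])
  rw [hQ, Affine.Point.neg_some] at hdbl
  simp only [Affine.Point.some.injEq, true_and] at hdbl
  rw [SW_negY] at hdbl
  have hY : Y = 0 := by
    have : (2 : Qb) * Y = 0 := by linear_combination hdbl
    simpa using this
  have hc := (SW_equation_iff _ _ _ _).1 hXY.1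
  rw [hY] at hc
  linear_combination -hc

end Fermat.Agent.ThreeFive
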