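import Fermat.Agent.ThreeFive.Hilbert

/-!
# Elementary irreducibility specialisation for cubics

If a cubic `x³ + A(t)x + B(t)` has for all large integers `k` a root at `t = 1/k` which becomes
integral after multiplication by `k¹⁰`, then it has a polynomial root of degree at most ten.
-/

namespace Fermat.Agent.ThreeFive.Hilbert

open Filter Topology

open scoped fwdDiff

/-- The cubic. -/
def cubic (A B : Polynomial ℝ) (t x : ℝ) : ℝ :=
  x ^ 3 + A.eval t * x + B.eval t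

lemma continuous_cubic (A B : Polynomial ℝ) :
    Continuous fun z : ℝ × ℝ => cubic A B z.1 z.2 := by
  simp only [cubic]; fun_prop

/-- An analytic branch through a simple root of the cubic. -/
lemma exists_branch_cubic (A B : Polynomial ℝ) (α : ℝ) (h0 : cubic A B 0 α = 0)
    (h1 : 3 * α ^ 2 + A.eval 0 ≠ 0) :
    ∃ φ : ℝ → ℝ, AnalyticAt ℝ φ 0 ∧ φ 0 = α ∧ (∀ᶠ t in 𝓝 (0 : ℝ), cubic A B t (φ t) = 0) ∧
      ∀ᶠ z in 𝓝 ((0 : ℝ), α), cubic A B z.1 z.2 = 0 → z.2 = φ z.1 := by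
  set Φ : ℝ × ℝ → ℝ × ℝ := fun z => (z.1, cubic A B z.1 z.2) with hΦ
  have hA : ∀ (P : Polynomial ℝ) (z : ℝ × ℝ), AnalyticAt ℝ (fun z : ℝ × ℝ => P.eval z.1) z := by
    intro P z
    have := (analyticAt_fst (𝕜 := ℝ) (p := z)).aeval_polynomial P
    simpa [Polynomial.coe_aeval_eq_eval] using this
  have hq : ∀ z, AnalyticAt ℝ (fun z : ℝ × ℝ => cubic A B z.1 z.2) z := by
    intro z
    simp only [cubic]
    have hs := analyticAt_snd (𝕜 := ℝ) (p := z)
    exact ((hs.pow 3).add ((hA A z).mul hs)).add (hA B z)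
  have hΦa : AnalyticAt ℝ Φ (0, α) := analyticAt_fst.prod (hq _)
  set L : ℝ × ℝ →L[ℝ] ℝ := fderiv ℝ (fun z : ℝ × ℝ => cubic A B z.1 z.2) (0, α) with hL
  have hLq : HasStrictFDerivAt (fun z : ℝ × ℝ => cubic A B z.1 z.2) L (0, α) :=
    (hq _).hasStrictFDerivAt
  have hb : L (0, 1) = 3 * α ^ 2 + A.eval 0 := by
    have hd1 : HasDerivAt (fun s : ℝ => ((0 : ℝ), s)) ((0 : ℝ), (1 : ℝ)) α :=
      (hasDerivAt_const α (0 : ℝ)).prodMk (hasDerivAt_id' α)
    have h2 := hLq.hasFDerivAt.comp_hasDerivAt α hd1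
    have h3 : HasDerivAt (fun s : ℝ => cubic A B 0 s) (3 * α ^ 2 + A.eval 0) α := by
      simp only [cubic]
      refine (((hasDerivAt_pow 3 α).add ((hasDerivAt_id' α).const_mul (A.eval 0))).add_const
        (B.eval 0)).congr_deriv ?_
      push_cast; ring
    exact h2.unique h3
  set b := L (0, 1) with hbdef
  have hb0 : b ≠ 0 := by rw [hb]; exact h1
  set a := L (1, 0) with hadef
  have hLz : ∀ z : ℝ × ℝ, L z = a * z.1 + b * z.2 := by
    intro z
    have : z = z.1 • ((1 : ℝ), (0 : ℝ)) + z.2 • ((0 : ℝ), (1 : ℝ)) := by simp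
    conv_lhs => rw [this]
    rw [map_add, map_smul, map_smul, smul_eq_mul, smul_eq_mul, hadef, hbdef]
    ring
  let e : (ℝ × ℝ) ≃L[ℝ] ℝ × ℝ :=
    ContinuousLinearEquiv.equivOfInverse ((ContinuousLinearMap.fst ℝ ℝ ℝ).prod L)
      ((ContinuousLinearMap.fst ℝ ℝ ℝ).prod
        ((1 / b) • ContinuousLinearMap.snd ℝ ℝ ℝ - (a / b) • ContinuousLinearMap.fst ℝ ℝ ℝ))
      (fun z => by
        refine Prod.ext (by simp) ?_
        simp [hLz]; field_simp; ring)
      (fun z => by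
        refine Prod.ext (by simp) ?_
        simp [hLz]; field_simp; ring)
  have hΦd : HasStrictFDerivAt Φ (e : ℝ × ℝ →L[ℝ] ℝ × ℝ) (0, α) :=
    hasStrictFDerivAt_fst.prodMk hLq
  set R := hΦd.toOpenPartialHomeomorph Φ with hR
  have hsrc : ((0 : ℝ), α) ∈ R.source := hΦd.mem_toOpenPartialHomeomorph_source
  have hcoe : (R : ℝ × ℝ → ℝ × ℝ) = Φ := hΦd.toOpenPartialHomeomorph_coe
  have hΦ0 : Φ (0, α) = (0, 0) := by simp [hΦ, h0]
  have hRs : AnalyticAt ℝ R.symm (0, 0) := by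
    have := R.analyticAt_symm' (i := e) hsrc (by rw [hcoe]; exact hΦa)
      (by rw [hcoe]; exact hΦd.hasFDerivAt.fderiv)
    rwa [hcoe, hΦ0] at this
  set g : ℝ → ℝ × ℝ := fun t => (t, 0) with hg
  have hga : AnalyticAt ℝ g 0 := analyticAt_id.prod analyticAt_const
  refine ⟨fun t => (R.symm (g t)).2, ?_, ?_, ?_, ?_⟩
  · exact (analyticAt_snd).comp (AnalyticAt.comp hRs hga)
  · show (R.symm (0, 0)).2 = α
    rw [← hΦ0, ← hcoe, R.left_inv hsrc]
  · have hmem : ∀ᶠ t in 𝓝 (0 : ℝ), g t ∈ R.target := by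
      refine hga.continuousAt.eventually_mem (R.open_target.mem_nhds ?_)
      have := R.map_source hsrc
      rwa [hcoe, hΦ0] at this
    filter_upwards [hmem] with t ht
    have h2 := R.right_inv ht
    rw [hcoe] at h2
    have e1 : (R.symm (g t)).1 = t := congrArg Prod.fst h2
    have e2 : cubic A B (R.symm (g t)).1 (R.symm (g t)).2 = 0 := congrArg Prod.snd h2
    rwa [e1] at e2
  · filter_upwards [R.open_source.mem_nhds hsrc] with z hz hz0
    show z.2 = (R.symm (z.1, 0)).2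
    have : Φ z = (z.1, 0) := by simp [hΦ, hz0]
    rw [← this, ← hcoe, R.left_inv hz]

/-- All roots of the cubic for small parameters lie on finitely many analytic branches. -/
lemma exists_branches_cubic (A B : Polynomial ℝ)
    (hsimple : ∀ α : ℝ, cubic A B 0 α = 0 → 3 * α ^ 2 + A.eval 0 ≠ 0) :
    ∃ (ι : Type) (_ : Finite ι) (φ : ι → ℝ → ℝ), (∀ i, AnalyticAt ℝ (φ i) 0) ∧
      (∀ i, ∀ᶠ t in 𝓝 (0 : ℝ), cubic A B t (φ i t) = 0) ∧
      ∀ᶠ t in 𝓝 (0 : ℝ), ∀ x, cubic A B t x = 0 → ∃ i, x = φ i t := by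
  classical
  set Z : Set ℝ := {α | cubic A B 0 α = 0} with hZ
  have hfin : Z.Finite := by
    set q : Polynomial ℝ := Polynomial.X ^ 3 + Polynomial.C (A.eval 0) * Polynomial.X
      + Polynomial.C (B.eval 0) with hq
    have hq0 : q ≠ 0 := by
      intro e
      have := congrArg (fun p => Polynomial.coeff p 3) e
      simp only [hq, Polynomial.coeff_add, Polynomial.coeff_C_mul, Polynomial.coeff_X_pow,
        Polynomial.coeff_X, Polynomial.coeff_C, Polynomial.coeff_zero] at this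
      norm_num at this
    refine Set.Finite.subset q.roots.toFinset.finite_toSet fun α hα => ?_
    rw [Finset.mem_coe, Multiset.mem_toFinset, Polynomial.mem_roots hq0]
    simpa [Polynomial.IsRoot, hq, cubic] using (show cubic A B 0 α = 0 from hα)
  choose φ hφ using fun i : Z => exists_branch_cubic A B i.1 i.2 (hsimple _ i.2)
  refine ⟨Z, hfin.to_subtype, φ, fun i => (hφ i).1, fun i => (hφ i).2.2.1, ?_⟩
  obtain ⟨C, hC0, hC⟩ : ∃ C : ℝ, 0 < C ∧ ∀ᶠ t in 𝓝 (0 : ℝ),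
      |A.eval t| < C ∧ |B.eval t| < C := by
    refine ⟨|A.eval 0| + |B.eval 0| + 1, by positivity, ?_⟩
    refine Filter.Eventually.and ?_ ?_
    · exact A.continuous.abs.continuousAt.eventually_lt continuousAt_const
        (by linarith [abs_nonneg (B.eval 0)])
    · exact B.continuous.abs.continuousAt.eventually_lt continuousAt_const
        (by linarith [abs_nonneg (A.eval 0)])
  set R := 2 * C + 2 with hR
  have hbound : ∀ᶠ t in 𝓝 (0 : ℝ), ∀ x, cubic A B t x = 0 → x ∈ Set.Icc (-R) R := by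
    filter_upwards [hC] with t ⟨ha, hb⟩ x hx
    rw [Set.mem_Icc, ← abs_le]
    by_contra hlt
    push Not at hlt
    have h3 : |x| ^ 3 ≤ C * |x| + C := by
      have e : x ^ 3 = -(A.eval t * x) - B.eval t := by simp only [cubic] at hx; linarith
      rw [← abs_pow, e]
      refine (abs_sub _ _).trans (add_le_add ?_ hb.le)
      rw [abs_neg, abs_mul]
      exact mul_le_mul_of_nonneg_right ha.le (abs_nonneg x)
    have hx1 : (2 : ℝ) ≤ |x| := by linarith
    have hxC : 2 * C ≤ |x| := by linarith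
    nlinarith [mul_le_mul hx1 hxC (by linarith) (abs_nonneg x), abs_nonneg x]
  have hloc : ∀ᶠ t in 𝓝 (0 : ℝ), ∀ x ∈ Set.Icc (-R) R, cubic A B t x = 0 →
      ∃ i, x = φ i t := by
    refine IsCompact.eventually_forall_of_forall_eventually isCompact_Icc fun x _ => ?_
    by_cases hx : cubic A B 0 x = 0
    · filter_upwards [(hφ ⟨x, hx⟩).2.2.2] with z hz h0
      exact ⟨_, hz h0⟩
    · filter_upwards [(continuous_cubic A B).continuousAt.eventually_ne hx] with z hz h0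
      exact absurd h0 hz
  filter_upwards [hbound, hloc] with t h h' x hx
  exact h' x (h x hx) hx

/-- A branch of the cubic with non-vanishing eleventh derivative on a punctured neighbourhood. -/
lemma eventually_iteratedDeriv_ne_zero_cubic (A B : Polynomial ℝ)
    (hno : ∀ p : Polynomial ℝ, p.natDegree ≤ 10 → p ^ 3 + A * p + B ≠ 0)
    {φ : ℝ → ℝ} (hφ : AnalyticAt ℝ φ 0) (hroot : ∀ᶠ t in 𝓝 (0 : ℝ), cubic A B t (φ t) = 0) :
    ∀ᶠ t in 𝓝[≠] (0 : ℝ), iteratedDeriv 11 φ t ≠ 0 := by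
  rcases (hφ.iterated_deriv 11).eventually_eq_zero_or_eventually_ne_zero with h | h
  · exfalso
    obtain ⟨δ, hδ, hball⟩ := Metric.eventually_nhds_iff.1
      (h.and (hφ.eventually_analyticAt.and hroot))
    have hmem : ∀ t ∈ Set.Ioo (-δ) δ, dist t 0 < δ := fun t ht => by
      rw [Real.dist_eq, sub_zero, abs_lt]; exact ht
    obtain ⟨p, hp, hpe⟩ := exists_poly_of_iteratedDeriv_eq_zero 10 φ δ hδ
      (fun t ht => (hball (hmem t ht)).2.1)
      (fun t ht => by rw [iteratedDeriv_eq_iterate]; exact (hball (hmem t ht)).1)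
    refine hno p hp (Polynomial.eq_zero_of_infinite_isRoot _
      ((Set.Ioo_infinite (show -δ < δ by linarith)).mono fun t ht => ?_))
    have := (hball (hmem t ht)).2.2
    rw [hpe t ht, cubic] at this
    simpa [Polynomial.IsRoot] using this
  · rw [iteratedDeriv_eq_iterate]; exact h

/-- Beyond every bound there is `k` for which the cubic at `1/k` has no integral scaled root. -/
theorem exists_no_root_cubic (A B : Polynomial ℝ)
    (hsimple : ∀ α : ℝ, cubic A B 0 α = 0 → 3 * α ^ 2 + A.eval 0 ≠ 0)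
    (hno : ∀ p : Polynomial ℝ, p.natDegree ≤ 10 → p ^ 3 + A * p + B ≠ 0) (K₀ : ℕ) :
    ∃ k : ℕ, K₀ ≤ k ∧ ∀ x : ℝ, cubic A B (1 / (k : ℝ)) x = 0 →
      ∀ z : ℤ, (k : ℝ) ^ 10 * x ≠ z := by
  by_contra! hcon
  choose X hX Z hZ using hcon
  obtain ⟨ι, hι, φ, hφ, hroot, hcover⟩ := exists_branches_cubic A B hsimple
  have hall : ∀ᶠ t in 𝓝[>] (0 : ℝ),
      (∀ x, cubic A B t x = 0 → ∃ i, x = φ i t) ∧
      ∀ i, AnalyticAt ℝ (φ i) t ∧ iteratedDeriv 11 (φ i) t ≠ 0 ∧
        |iteratedDeriv 11 (φ i) t| ≤ |iteratedDeriv 11 (φ i) 0| + 1 := by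
    refine (hcover.filter_mono nhdsWithin_le_nhds).and (eventually_all.2 fun i => ?_)
    refine ((hφ i).eventually_analyticAt.filter_mono nhdsWithin_le_nhds).and
      (((eventually_iteratedDeriv_ne_zero_cubic A B hno (hφ i) (hroot i)).filter_mono
        (nhdsWithin_mono 0 fun t ht => ne_of_gt ht)).and ?_)
    have hc : ContinuousAt (fun t => |iteratedDeriv 11 (φ i) t|) 0 := by
      rw [iteratedDeriv_eq_iterate]
      exact ((hφ i).iterated_deriv 11).continuousAt.abs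
    exact (hc.eventually_le_const (lt_add_one _)).filter_mono nhdsWithin_le_nhds
  obtain ⟨δ, hδ, hball⟩ := Metric.eventually_nhds_iff.1 (eventually_nhdsWithin_iff.1 hall)
  set R := 1 / δ with hR
  have hR0 : 0 < R := div_pos one_pos hδ
  have hsmall : ∀ u : ℝ, R < u → 0 < 1 / u ∧ dist (1 / u) 0 < δ := by
    intro u hu
    have hu0 : 0 < u := hR0.trans hu
    refine ⟨div_pos one_pos hu0, ?_⟩
    rw [Real.dist_eq, sub_zero, abs_of_pos (div_pos one_pos hu0), div_lt_iff₀ hu0]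
    rw [hR, div_lt_iff₀ hδ] at hu
    linarith
  obtain ⟨C, hC⟩ : ∃ C, ∀ i, |iteratedDeriv 11 (φ i) 0| + 1 ≤ C :=
    ⟨_, fun i => le_ciSup (f := fun i => |iteratedDeriv 11 (φ i) 0| + 1)
      (Set.finite_range _).bddAbove i⟩
  obtain ⟨κ, hκ, hHJ⟩ := Combinatorics.Line.exists_mono_in_high_dimension (Fin 12) ι
  set Bnd : ℝ := (Fintype.card κ : ℝ) ^ 11 * C + 1 with hBnd
  obtain ⟨K, hK0, hK⟩ : ∃ K : ℕ, K₀ ≤ K ∧ R < K ∧ Bnd < K ∧ (1 : ℝ) ≤ K := by
    obtain ⟨K, hK⟩ := exists_nat_gt (max R (max Bnd (max (K₀ : ℝ) 1)))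
    simp only [max_lt_iff] at hK
    exact ⟨K, by exact_mod_cast hK.2.2.1.le, hK.1, hK.2.1, hK.2.2.2.le⟩
  have hu : ∀ k : ℕ, K ≤ k → R < (k : ℝ) := fun k hk => hK.1.trans_le (by exact_mod_cast hk)
  have hcol : ∀ (k : ℕ) (hk : K ≤ k), ∃ i, X k (hK0.trans hk) = φ i (1 / (k : ℝ)) := fun k hk =>
    (hball (hsmall _ (hu k hk)).2 (hsmall _ (hu k hk)).1).1 _ (hX k (hK0.trans hk))
  obtain ⟨i0, -⟩ := hcol K le_rfl
  obtain ⟨l, i, hl⟩ := hHJ fun v =>
    if hk : K ≤ K + ∑ j, (v j : ℕ) then (hcol _ hk).choose else i0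
  classical
  set s : Finset κ := {j | l.idxFun j = none} with hs
  set b : ℕ := ∑ j ∈ sᶜ, (((l.idxFun j).getD 0 : Fin 12) : ℕ) with hb
  set d : ℕ := s.card with hd
  have hdpos : 0 < d := Finset.card_pos.2 ⟨l.proper.choose, by simp [hs, l.proper.choose_spec]⟩
  have hsum : ∀ m : Fin 12, ∑ j, (l m j : ℕ) = b + d * m := by
    intro m
    rw [← Finset.sum_compl_add_sum s, hb, hd]
    congr 1
    · refine Finset.sum_congr rfl fun j hj => ?_
      simp only [hs, Finset.mem_compl, Finset.mem_filter, Finset.mem_univ, true_and] at hj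
      obtain ⟨v, hv⟩ := Option.ne_none_iff_exists'.1 hj
      simp [hv]
    · rw [Finset.sum_congr rfl fun j hj => ?_, Finset.sum_const, smul_eq_mul]
      simp only [hs, Finset.mem_filter] at hj
      simp [hj.2]
  set G : ℝ → ℝ := fun u => u ^ 10 * φ i (1 / u) with hG
  set x0 : ℝ := ((K + b : ℕ) : ℝ) with hx0
  set h : ℝ := (d : ℝ) with hh
  have hint : ∀ m : Fin 12, ∃ n : ℤ, G (x0 + (m : ℕ) • h) = n := by
    intro m
    have e := hl m
    simp only [dif_pos (Nat.le_add_right K _)] at e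
    have hle : K ≤ K + ∑ j, (l m j : ℕ) := Nat.le_add_right _ _
    have hsp := (hcol _ hle).choose_spec
    rw [e] at hsp
    refine ⟨Z (K + ∑ j, (l m j : ℕ)) (hK0.trans hle), ?_⟩
    have hu' : x0 + (m : ℕ) • h = ((K + ∑ j, (l m j : ℕ) : ℕ) : ℝ) := by
      rw [hsum, hx0, hh, nsmul_eq_mul]; push_cast; ring
    rw [hu', hG]
    simp only
    rw [← hsp, hZ]
  set U : Set ℝ := Set.Ioi R with hU
  set V : Set ℝ := {t | AnalyticAt ℝ (φ i) t} with hV
  have hVo : IsOpen V := isOpen_analyticAt ℝ (φ i)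
  have hUV : ∀ z ∈ U, z ≠ 0 ∧ 1 / z ∈ V := fun z hz =>
    ⟨(hR0.trans hz).ne', ((hball (hsmall z hz).2 (hsmall z hz).1).2 i).1⟩
  have hGa : AnalyticOnNhd ℝ G U := fun z hz =>
    (analyticAt_id.pow 10).mul
      (AnalyticAt.comp (g := φ i) (hUV z hz).2 (analyticAt_const.div analyticAt_id (hUV z hz).1))
  have hxR : R < x0 := hu _ (Nat.le_add_right _ _)
  have hhpos : 0 < h := by rw [hh]; exact_mod_cast hdpos
  obtain ⟨ξ, hξ, hdiff⟩ := exists_fwdDiff_iter_eq 11 G R h x0 hGa hhpos hxR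
  have hξR : R < ξ := hxR.trans_le hξ
  have hval : iteratedDeriv 11 G ξ =
      (-1) ^ 11 * iteratedDeriv 11 (φ i) (1 / ξ) / ξ ^ 12 :=
    iteratedDeriv_bol (φ := φ i) hVo isOpen_Ioi (fun t ht => ht) 1 hUV 10 hξR
  have hsumint : ∃ n : ℤ, Δ_[h] ^[11] G x0 = n := by
    choose n hn using hint
    refine ⟨∑ k : Fin 12, ((-1) ^ (11 - (k : ℕ)) * (11 : ℕ).choose k) * n k, ?_⟩
    rw [fwdDiff_iter_eq_sum_shift, Finset.sum_range (f := fun k => _ • G (x0 + k • h))]
    push_cast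
    refine Finset.sum_congr rfl fun k _ => ?_
    rw [hn k, zsmul_eq_mul]; push_cast; ring
  obtain ⟨n, hn⟩ := hsumint
  obtain ⟨hne, hle⟩ := ((hball (hsmall ξ hξR).2 (hsmall ξ hξR).1).2 i).2
  have hξ0 : 0 < ξ := hR0.trans hξR
  have hn0 : n ≠ 0 := by
    intro e
    rw [hdiff, hval, e, one_div] at hn
    rw [one_div] at hne
    simp [hne, hξ0.ne', hhpos.ne'] at hn
  have hn1 : (1 : ℝ) ≤ |(n : ℝ)| := by exact_mod_cast Int.one_le_abs hn0
  have hdle : (d : ℝ) ≤ Fintype.card κ := by exact_mod_cast s.card_le_univ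
  have hξK : (K : ℝ) ≤ ξ := le_trans (by rw [hx0]; push_cast; linarith [b.cast_nonneg (α := ℝ)]) hξ
  have hC0 : (0 : ℝ) ≤ C := le_trans (by positivity) (hC i)
  have hbound : |(n : ℝ)| ≤ (Fintype.card κ : ℝ) ^ 11 * C / ξ ^ 12 := by
    rw [← hn, hdiff, hval, abs_mul, abs_div, abs_mul, abs_pow, abs_pow, abs_pow, abs_neg, abs_one,
      one_pow, one_mul, abs_of_pos hξ0, abs_of_pos hhpos, ← mul_div_assoc, hh]
    refine div_le_div_of_nonneg_right ?_ (by positivity)
    exact mul_le_mul (pow_le_pow_left₀ (by positivity) hdle 11) (hle.trans (hC i))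
      (abs_nonneg _) (by positivity)
  have hξ12 : Bnd < ξ ^ 12 := lt_of_lt_of_le hK.2.1
    (hξK.trans (le_self_pow₀ (hK.2.2.trans hξK) (by norm_num)))
  have hlt : (Fintype.card κ : ℝ) ^ 11 * C / ξ ^ 12 < 1 := by
    rw [div_lt_one (by positivity)]
    rw [hBnd] at hξ12
    linarith
  linarith

end Fermat.Agent.ThreeFive.Hilbert
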