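import Fermat.Agent.ThreeFive.NoBranchTwo
import Fermat.Agent.ThreeFive.HilbertCubic
import Mathlib.Analysis.Complex.Basic

/-!
# The family in a parameter adapted to a line of integral points

For `(u, v) = (u₁, v₁) + z (P, Q)` the homogenised family is `z^N · moved (1/z)`.
-/

namespace Fermat.Agent.ThreeFive

open Polynomial

/-- The homogenisation of `p` in degree `N` at `(P + u₁ X, Q + v₁ X)`. -/
noncomputable def moved {K : Type*} [CommRing K] (p : K[X]) (N : ℕ) (P Q u₁ v₁ : K) : K[X] :=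
  ∑ n ∈ Finset.range (N + 1),
    C (p.coeff n) * (C Q + C v₁ * X) ^ n * (C P + C u₁ * X) ^ (N - n)

variable {K : Type*} [Field K] (p : K[X]) (N : ℕ) (P Q u₁ v₁ : K)

lemma map_moved {L : Type*} [Field L] (φ : K →+* L) :
    (moved p N P Q u₁ v₁).map φ = moved (p.map φ) N (φ P) (φ Q) (φ u₁) (φ v₁) := by
  simp [moved, Polynomial.map_sum]

lemma eval_moved (hp : p.natDegree ≤ N) (t : K) (h : P + u₁ * t ≠ 0) :
    (moved p N P Q u₁ v₁).eval t =
      (P + u₁ * t) ^ N * p.eval ((Q + v₁ * t) / (P + u₁ * t)) := by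
  rw [moved, eval_finsetSum, Polynomial.eval_eq_sum_range' (show p.natDegree < N + 1 by omega),
    Finset.mul_sum]
  refine Finset.sum_congr rfl fun n hn => ?_
  have hn' : n ≤ N := by simp at hn; omega
  simp only [eval_mul, eval_pow, eval_add, eval_C, eval_X]
  rw [div_pow, show (P + u₁ * t) ^ N = (P + u₁ * t) ^ (N - n) * (P + u₁ * t) ^ n by
    rw [← pow_add, Nat.sub_add_cancel hn']]
  have h' : (P + u₁ * t) ^ n ≠ 0 := pow_ne_zero _ h
  generalize (P + u₁ * t) ^ n = w at h' ⊢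
  field_simp

variable {c4 c6 : ℚ}

/-- The moved cubic has no polynomial root of degree at most ten. -/
theorem no_branch_two_moved (h : c4 ^ 3 ≠ c6 ^ 2) (P Q u₁ v₁ : ℂ) (hδ : P * v₁ - Q * u₁ ≠ 0)
    (p : ℂ[X]) (hp : p.natDegree ≤ 10) :
    p ^ 3 + (-27 * moved ((F4 c4 c6).map (algebraMap ℚ ℂ)) 20 P Q u₁ v₁) * p +
      (-54 * moved ((F6 c4 c6).map (algebraMap ℚ ℂ)) 30 P Q u₁ v₁) ≠ 0 := by
  intro h0
  set δ := P * v₁ - Q * u₁ with hδdef
  set q : ℂ[X] := C ((δ ^ 10)⁻¹) * ∑ i ∈ Finset.range 11,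
    C (p.coeff i) * (C P * X - C Q) ^ i * (C v₁ - C u₁ * X) ^ (10 - i) with hq
  have hqd : q.natDegree ≤ 10 := by
    refine (natDegree_C_mul_le _ _).trans (natDegree_sum_le_of_forall_le _ _ fun i hi => ?_)
    have hi' : i ≤ 10 := by simp at hi; omega
    refine natDegree_mul_le.trans ?_
    have h1 : (C (p.coeff i) * (C P * X - C Q) ^ i).natDegree ≤ i :=
      (natDegree_C_mul_le _ _).trans (natDegree_pow_le.trans
        (by
          have : (C P * X - C Q : ℂ[X]).natDegree ≤ 1 := by compute_degree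
          nlinarith))
    have h2 : ((C v₁ - C u₁ * X : ℂ[X]) ^ (10 - i)).natDegree ≤ 10 - i :=
      natDegree_pow_le.trans (by
        have : (C v₁ - C u₁ * X : ℂ[X]).natDegree ≤ 1 := by compute_degree
        nlinarith)
    omega
  refine no_branch_two h q hqd (Polynomial.eq_zero_of_infinite_isRoot _ ?_)
  have hfin : {s : ℂ | v₁ - u₁ * s = 0}.Finite := by
    refine Set.Subsingleton.finite fun a ha b hb => ?_
    simp only [Set.mem_ofPred_eq] at ha hb
    by_cases hu : u₁ = 0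
    · exfalso
      rw [hu, zero_mul, sub_zero] at ha
      exact hδ (by rw [hδdef, ha, hu]; ring)
    · exact mul_left_cancel₀ hu (by linear_combination hb - ha)
  refine Set.Infinite.mono ?_ hfin.infinite_compl
  intro s hs
  simp only [Set.mem_compl_iff, Set.mem_ofPred_eq] at hs
  set w := v₁ - u₁ * s with hw
  set t := (P * s - Q) / w with ht
  have e1 : P + u₁ * t = δ / w := by
    rw [ht, hδdef]; field_simp; rw [hw]; ring
  have e2 : (Q + v₁ * t) / (P + u₁ * t) = s := by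
    rw [e1, ht]; field_simp; rw [hδdef, hw]; ring
  have hne : P + u₁ * t ≠ 0 := by rw [e1]; exact div_ne_zero hδ hs
  have m4 := eval_moved ((F4 c4 c6).map (algebraMap ℚ ℂ)) 20 P Q u₁ v₁
    (natDegree_map_le.trans (natDegree_F4_le c4 c6)) t hne
  have m6 := eval_moved ((F6 c4 c6).map (algebraMap ℚ ℂ)) 30 P Q u₁ v₁
    (natDegree_map_le.trans (natDegree_F6_le c4 c6)) t hne
  rw [e2, e1] at m4 m6
  have hqs : q.eval s = w ^ 10 / δ ^ 10 * p.eval t := by
    rw [hq, Polynomial.eval_eq_sum_range' (show p.natDegree < 11 by omega), eval_mul, eval_C,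
      eval_finsetSum, Finset.mul_sum, Finset.mul_sum]
    refine Finset.sum_congr rfl fun i hi => ?_
    have hi' : i ≤ 10 := by simp at hi; omega
    simp only [eval_mul, eval_pow, eval_sub, eval_C, eval_X, ← hw]
    rw [ht, div_pow, show w ^ 10 = w ^ (10 - i) * w ^ i by rw [← pow_add, Nat.sub_add_cancel hi']]
    field_simp
  have h1 := congrArg (Polynomial.eval t) h0
  simp only [eval_add, eval_mul, eval_pow, eval_neg, eval_ofNat, eval_zero, m4, m6] at h1
  show Polynomial.eval s _ = 0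
  simp only [eval_add, eval_mul, eval_pow, eval_neg, eval_ofNat, hqs]
  field_simp at h1 ⊢
  linear_combination h1

/-- For arbitrarily large `k` the cubic at `(u₁, v₁) + k (P, Q)` has no integral root. -/
theorem exists_cubic_no_int_root (h : c4 ^ 3 ≠ c6 ^ 2) (P Q u₁ v₁ : ℤ) (hP : 0 < P)
    (hδ : P * v₁ - Q * u₁ ≠ 0) (hD : (FD c4 c6).eval ((Q : ℚ) / P) ≠ 0) (K₀ : ℕ) :
    ∃ k : ℕ, K₀ ≤ k ∧ ∀ z : ℤ,
      (z : ℚ) ^ 3 +
        (-27 * (((u₁ + k * P : ℤ) : ℚ) ^ 20 *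
          (F4 c4 c6).eval (((v₁ + k * Q : ℤ) : ℚ) / ((u₁ + k * P : ℤ) : ℚ)))) * z +
        (-54 * (((u₁ + k * P : ℤ) : ℚ) ^ 30 *
          (F6 c4 c6).eval (((v₁ + k * Q : ℤ) : ℚ) / ((u₁ + k * P : ℤ) : ℚ)))) ≠ 0 := by
  set ι := algebraMap ℚ ℝ with hι
  set A : ℝ[X] := -27 * moved ((F4 c4 c6).map ι) 20 (P : ℝ) (Q : ℝ) (u₁ : ℝ) (v₁ : ℝ) with hA
  set B : ℝ[X] := -54 * moved ((F6 c4 c6).map ι) 30 (P : ℝ) (Q : ℝ) (u₁ : ℝ) (v₁ : ℝ) with hB
  have hPR : (P : ℝ) ≠ 0 := by exact_mod_cast hP.ne'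
  have hev : ∀ (f : ℚ[X]) (x : ℚ), (f.map ι).eval (x : ℝ) = ((f.eval x : ℚ) : ℝ) := fun f x => by
    rw [Polynomial.eval_map, show (x : ℝ) = ι x from rfl, Polynomial.eval₂_at_apply]; rfl
  have hm : ∀ (f : ℚ[X]) (N : ℕ) (t : ℚ), f.natDegree ≤ N → (P : ℚ) + u₁ * t ≠ 0 →
      (moved (f.map ι) N (P : ℝ) (Q : ℝ) (u₁ : ℝ) (v₁ : ℝ)).eval (t : ℝ) =
        ((((P : ℚ) + u₁ * t) ^ N * f.eval (((Q : ℚ) + v₁ * t) / ((P : ℚ) + u₁ * t)) : ℚ) : ℝ) := by
    intro f N t hf hne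
    rw [eval_moved _ _ _ _ _ _ (natDegree_map_le.trans hf) _ (by exact_mod_cast hne)]
    push_cast
    rw [← hev f]
    push_cast
    rfl
  set a := (P : ℚ) ^ 20 * (F4 c4 c6).eval ((Q : ℚ) / P) with ha
  set b := (P : ℚ) ^ 30 * (F6 c4 c6).eval ((Q : ℚ) / P) with hb
  have hA0 : A.eval 0 = -27 * (a : ℝ) := by
    have := hm (F4 c4 c6) 20 0 (natDegree_F4_le _ _) (by simpa using hP.ne')
    simp only [Rat.cast_zero, mul_zero, add_zero] at this
    rw [hA, eval_mul, this, ha]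
    simp
  have hB0 : B.eval 0 = -54 * (b : ℝ) := by
    have := hm (F6 c4 c6) 30 0 (natDegree_F6_le _ _) (by simpa using hP.ne')
    simp only [Rat.cast_zero, mul_zero, add_zero] at this
    rw [hB, eval_mul, this, hb]
    simp
  have hab : a ^ 3 - b ^ 2 ≠ 0 := by
    have e := congrArg (Polynomial.eval ((Q : ℚ) / P)) (F_disc h)
    simp only [eval_sub, eval_pow, eval_mul, eval_C] at e
    have hP' : (P : ℚ) ≠ 0 := by exact_mod_cast hP.ne'
    rw [ha, hb, show ((P : ℚ) ^ 20 * (F4 c4 c6).eval ((Q : ℚ) / P)) ^ 3 -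
      ((P : ℚ) ^ 30 * (F6 c4 c6).eval ((Q : ℚ) / P)) ^ 2 = (P : ℚ) ^ 60 *
        ((c4 ^ 3 - c6 ^ 2) * (FD c4 c6).eval ((Q : ℚ) / P) ^ 5) by rw [← e]; ring]
    exact mul_ne_zero (pow_ne_zero _ hP') (mul_ne_zero (sub_ne_zero.2 h) (pow_ne_zero _ hD))
  obtain ⟨k, hk, hroot⟩ := Hilbert.exists_no_root_cubic A B
    (fun α hα hc => by
      simp only [Hilbert.cubic] at hα
      rw [hA0] at hc hα; rw [hB0] at hα
      have e1 : (a : ℝ) = α ^ 2 / 9 := by linarith
      have e2 : (b : ℝ) = -α ^ 3 / 27 := by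
        rw [e1] at hα; linear_combination (-1 / 54 : ℝ) * hα
      apply hab
      have : (((a ^ 3 - b ^ 2 : ℚ)) : ℝ) = 0 := by push_cast; rw [e1, e2]; ring
      exact_mod_cast this)
    (fun q hq e => by
      have hδC : (P : ℂ) * (v₁ : ℂ) - (Q : ℂ) * (u₁ : ℂ) ≠ 0 := by exact_mod_cast hδ
      refine no_branch_two_moved h (P : ℂ) Q u₁ v₁ hδC (q.map Complex.ofRealHom)
        (natDegree_map_le.trans hq) ?_
      have e' := congrArg (Polynomial.map Complex.ofRealHom) e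
      simp only [hA, hB, Polynomial.map_add, Polynomial.map_mul, Polynomial.map_pow,
        Polynomial.map_neg, Polynomial.map_ofNat, Polynomial.map_zero, map_moved,
        Polynomial.map_map, map_intCast] at e'
      rw [show Complex.ofRealHom.comp ι = algebraMap ℚ ℂ from Subsingleton.elim _ _] at e'
      exact e')
    (max K₀ (u₁.natAbs + 1))
  refine ⟨k, le_trans (le_max_left _ _) hk, fun z hz => ?_⟩
  have hk1 : (u₁.natAbs + 1 : ℕ) ≤ k := le_trans (le_max_right _ _) hk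
  have hkQ : (k : ℚ) ≠ 0 := by exact_mod_cast (by omega : k ≠ 0)
  have hu : (0 : ℤ) < u₁ + k * P := by
    have h1 : (u₁.natAbs : ℤ) + 1 ≤ k := by exact_mod_cast hk1
    have h2 : (k : ℤ) * 1 ≤ k * P := mul_le_mul_of_nonneg_left (by omega) (Int.natCast_nonneg k)
    omega
  have hne : (P : ℚ) + u₁ * (1 / (k : ℚ)) ≠ 0 := by
    have : (P : ℚ) + u₁ * (1 / (k : ℚ)) = ((u₁ + k * P : ℤ) : ℚ) / k := by
      push_cast; field_simp; ring
    rw [this]
    exact div_ne_zero (by exact_mod_cast hu.ne') hkQ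
  have hkR : (k : ℝ) ≠ 0 := by exact_mod_cast (by omega : k ≠ 0)
  refine hroot ((z : ℝ) / (k : ℝ) ^ 10) ?_ z (by field_simp)
  have h4 := hm (F4 c4 c6) 20 (1 / (k : ℚ)) (natDegree_F4_le _ _) hne
  have h6 := hm (F6 c4 c6) 30 (1 / (k : ℚ)) (natDegree_F6_le _ _) hne
  push_cast at h4 h6
  simp only [Hilbert.cubic, hA, hB, eval_mul, eval_neg, eval_ofNat, h4, h6]
  have hargs : ((Q : ℚ) + v₁ * (1 / (k : ℚ))) / ((P : ℚ) + u₁ * (1 / (k : ℚ))) =
      ((v₁ + k * Q : ℤ) : ℚ) / ((u₁ + k * P : ℤ) : ℚ) := by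
    push_cast
    field_simp
    ring
  rw [hargs]
  have hzR := congrArg (fun x : ℚ => (x : ℝ)) hz
  push_cast at hzR ⊢
  field_simp
  linear_combination hzR

end Fermat.Agent.ThreeFive
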