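import Fermat.Agent.ThreeFive.Explicit
import Mathlib.Analysis.Real.Sqrt
import Mathlib.Topology.Algebra.Polynomial
import Mathlib.Topology.Instances.Rat

/-!
# Negative values of the cuspidal polynomial
-/

namespace Fermat.Agent.ThreeFive

open Polynomial

/-- The cuspidal polynomial at the real point `-1/r`, in the normalised variable. -/
lemma kD_sum_eq {R : Type*} [Field R] [CharZero R] (r e : R) (hr : r ≠ 0) :
    ∑ n ∈ Finset.range 13, kD (r ^ 2) (e * r ^ 3) (r ^ 6 * (1 - e ^ 2) / 1728) n * (-1 / r) ^ n =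
      -104960 - 212480 * e - 7680 * e ^ 2 + 202240 * e ^ 3 + 102400 * e ^ 4 := by
  simp only [Finset.sum_range_succ, Finset.sum_range_zero, kD]
  field_simp
  ring

variable {c4 c6 E : ℚ}

/-- When the discriminant is positive the cuspidal polynomial takes negative values at infinitely
many rational points. -/
theorem infinite_FD_neg (hE : c4 ^ 3 - c6 ^ 2 = 1728 * E) (hpos : 0 < E) :
    {τ : ℚ | (FD c4 c6).eval τ < 0}.Infinite := by
  have h : c4 ^ 3 ≠ c6 ^ 2 := by intro e; rw [e, sub_self] at hE; linarith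
  have h4 : 0 < c4 := by
    by_contra hc
    push Not at hc
    nlinarith [mul_nonneg (neg_nonneg.2 hc) (sq_nonneg c4), sq_nonneg c6]
  have h4R : (0 : ℝ) < c4 := by exact_mod_cast h4
  obtain ⟨r, hr2, hr6⟩ : ∃ r : ℝ, r ^ 2 = c4 ∧ 0 ≤ (c6 : ℝ) * r := by
    rcases le_total 0 (c6 : ℝ) with hs | hs
    · exact ⟨√c4, Real.sq_sqrt h4R.le, mul_nonneg hs (Real.sqrt_nonneg _)⟩
    · exact ⟨-√c4, by rw [neg_sq, Real.sq_sqrt h4R.le],
        mul_nonneg_of_nonpos_of_nonpos hs (neg_nonpos.2 (Real.sqrt_nonneg _))⟩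
  have hr : r ≠ 0 := by
    intro h0
    rw [h0] at hr2
    norm_num at hr2
    linarith
  set e : ℝ := (c6 : ℝ) / r ^ 3 with he
  have he6 : e * r ^ 3 = c6 := div_mul_cancel₀ _ (pow_ne_zero 3 hr)
  have he0 : 0 ≤ e := by
    have h4' : e = (c6 : ℝ) * r / r ^ 4 := by rw [he]; field_simp
    rw [h4']; exact div_nonneg hr6 (by positivity)
  have hER : (c4 : ℝ) ^ 3 - (c6 : ℝ) ^ 2 = 1728 * (E : ℝ) := by exact_mod_cast hE
  have hEe : (E : ℝ) = r ^ 6 * (1 - e ^ 2) / 1728 := by
    rw [show r ^ 6 = (r ^ 2) ^ 3 by ring, ← he6, ← hr2] at *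
    linear_combination (-1 / 1728 : ℝ) * hER
  have he1 : e ^ 2 < 1 := by
    have : (0 : ℝ) < r ^ 6 * (1 - e ^ 2) / 1728 := hEe ▸ (by exact_mod_cast hpos)
    by_contra hc
    push Not at hc
    nlinarith [mul_nonneg (pow_nonneg (sq_nonneg r) 3) (sub_nonneg.2 hc)]
  set f : ℝ → ℝ := fun t => ((FD c4 c6).map (algebraMap ℚ ℝ)).eval t with hf
  have hneg : f (-1 / r) < 0 := by
    have hdeg : ((FD c4 c6).map (algebraMap ℚ ℝ)).natDegree < 13 :=
      Nat.lt_succ_of_le (natDegree_map_le.trans (natDegree_FD_le c4 c6))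
    simp only [hf]
    rw [Polynomial.eval_eq_sum_range' hdeg]
    simp only [coeff_map, (coeff_family h hE _).2.2, eq_ratCast]
    have hcast : ∀ n, ((kD c4 c6 E n : ℚ) : ℝ) = kD (c4 : ℝ) (c6 : ℝ) (E : ℝ) n := fun n => by
      exact map_kD (Rat.castHom ℝ) c4 c6 E n
    simp only [hcast]
    rw [← hr2, ← he6, hEe, kD_sum_eq r e hr]
    have e1 : e ≤ 1 := by nlinarith
    have e3 : e ^ 3 ≤ e := by nlinarith [mul_le_mul_of_nonneg_left he1.le he0]
    have e4 : e ^ 4 ≤ e := by nlinarith [mul_le_mul e3 e1 he0 he0]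
    nlinarith
  obtain ⟨δ, hδ, hball⟩ := Metric.isOpen_iff.1 (isOpen_Iio.preimage (Polynomial.continuous _))
    (-1 / r) hneg
  refine Set.infinite_of_injective_forall_mem
    (f := fun n : ℕ => (exists_rat_btwn
      (show -1 / r + δ / ((n : ℝ) + 2) < -1 / r + δ / ((n : ℝ) + 1) by
        gcongr; linarith)).choose) ?_ ?_
  · intro m n hmn
    simp only at hmn
    by_contra hne
    have key : ∀ a b : ℕ, a < b → (-1 / r + δ / ((b : ℝ) + 1)) ≤ -1 / r + δ / ((a : ℝ) + 2) := by
      intro a b hab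
      have : (a : ℝ) + 1 ≤ b := by exact_mod_cast hab
      have : δ / ((b : ℝ) + 1) ≤ δ / ((a : ℝ) + 2) :=
        div_le_div_of_nonneg_left hδ.le (by positivity) (by linarith)
      linarith
    have hm := (exists_rat_btwn
      (show -1 / r + δ / ((m : ℝ) + 2) < -1 / r + δ / ((m : ℝ) + 1) by gcongr; linarith)).choose_spec
    have hn := (exists_rat_btwn
      (show -1 / r + δ / ((n : ℝ) + 2) < -1 / r + δ / ((n : ℝ) + 1) by gcongr; linarith)).choose_spec
    rw [hmn] at hm
    rcases Nat.lt_or_gt_of_ne hne with hlt | hlt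
    · linarith [key m n hlt, hm.1, hn.2]
    · linarith [key n m hlt, hn.1, hm.2]
  · intro n
    set q := (exists_rat_btwn
      (show -1 / r + δ / ((n : ℝ) + 2) < -1 / r + δ / ((n : ℝ) + 1) by gcongr; linarith)).choose
      with hq
    have hspec := (exists_rat_btwn
      (show -1 / r + δ / ((n : ℝ) + 2) < -1 / r + δ / ((n : ℝ) + 1) by gcongr; linarith)).choose_spec
    rw [← hq] at hspec
    have hlo : 0 < δ / ((n : ℝ) + 2) := by positivity
    have hhi : δ / ((n : ℝ) + 1) ≤ δ := div_le_self hδ.le (by linarith [n.cast_nonneg (α := ℝ)])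
    have := hball (show (q : ℝ) ∈ Metric.ball (-1 / r) δ by
      rw [Metric.mem_ball, Real.dist_eq, abs_lt]; constructor <;> linarith [hspec.1, hspec.2])
    simp only [Set.mem_preimage, Set.mem_Iio] at this
    rw [show (q : ℝ) = algebraMap ℚ ℝ q from rfl, Polynomial.eval_map,
      Polynomial.eval₂_at_apply, eq_ratCast] at this
    exact_mod_cast this

end Fermat.Agent.ThreeFive
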