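import Fermat.Agent.ThreeFive.Explicit
import Mathlib.Data.ZMod.Basic
import Mathlib.Tactic.ReduceModChar

/-!
# Residues of the pencil forms modulo 64
-/

namespace Fermat.Agent.ThreeFive

lemma k4_mod64 (s e : ZMod 64) :
    ∑ n ∈ Finset.range 21, k4 (s ^ 2) (-s ^ 3) (2 * e) n * (1 - s) ^ (20 - n) = s ^ 2 := by
  simp only [Finset.sum_range_succ, Finset.sum_range_zero, k4]
  ring_nf
  reduce_mod_char

lemma k6_mod64 (s e : ZMod 64) :
    ∑ n ∈ Finset.range 31, k6 (s ^ 2) (-s ^ 3) (2 * e) n * (1 - s) ^ (30 - n) = -s ^ 3 := by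
  simp only [Finset.sum_range_succ, Finset.sum_range_zero, k6]
  ring_nf
  reduce_mod_char

lemma kD_mod64 (s e : ZMod 64) :
    ∑ n ∈ Finset.range 13, kD (s ^ 2) (-s ^ 3) (2 * e) n * (1 - s) ^ (12 - n) = 1 - 12 * s := by
  simp only [Finset.sum_range_succ, Finset.sum_range_zero, kD]
  ring_nf
  reduce_mod_char

end Fermat.Agent.ThreeFive
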