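import Fermat.Agent.ThreeFive.Model
import Fermat.Agent.ThreeFive.Galois
import Fermat.Agent.ThreeFive.Moved
import Fermat.Agent.ThreeFive.Negative
import Fermat.Agent.ThreeFive.Residues
import Fermat.Agent.ThreeFive.IrreducibleTwo
import Fermat.Agent.EllFrobenius.Rat
import Mathlib.Data.Nat.Factorization.Induction
import Mathlib.NumberTheory.Padics.PadicVal.Basic

/-!
# The switch with conditions at 2, at infinity and at an auxiliary prime

From a semistable curve with multiplicative reduction at 2 and positive discriminant we produce a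
member of the family of curves with the same five-torsion which is congruent to it modulo any
given odd number, is multiplicative at 2, has discriminant multiplied by a negative fifth power
`g⁵` with `g ≡ 5 (mod 8)`, and has irreducible two-torsion.
-/

namespace Fermat.Agent.ThreeFive

open WeierstrassCurve Polynomial
open scoped WeierstrassCurve.Affine

local notation "Qb" => AlgebraicClosure ℚ

section Forms

/-- The polynomial with given coefficients up to degree `N`. -/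
noncomputable def ofCoeffs {R : Type*} [CommRing R] (N : ℕ) (k : ℕ → R) : R[X] :=
  ∑ n ∈ Finset.range (N + 1), C (k n) * X ^ n

lemma coeff_ofCoeffs {R : Type*} [CommRing R] (N : ℕ) (k : ℕ → R) {n : ℕ} (hn : n ≤ N) :
    (ofCoeffs N k).coeff n = k n := by
  simp [ofCoeffs, coeff_C_mul, coeff_X_pow, hn]

lemma natDegree_ofCoeffs {R : Type*} [CommRing R] (N : ℕ) (k : ℕ → R) :
    (ofCoeffs N k).natDegree ≤ N := by
  refine natDegree_sum_le_of_forall_le _ _ fun i hi => (natDegree_C_mul_le _ _).trans ?_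
  exact (natDegree_X_pow_le i).trans (Nat.lt_succ_iff.1 (Finset.mem_range.1 hi))

lemma map_ofCoeffs (N : ℕ) (k : ℕ → ℤ) (p : ℚ[X]) (hp : p.natDegree ≤ N)
    (h : ∀ n ≤ N, p.coeff n = (k n : ℚ)) :
    (ofCoeffs N k).map (Int.castRingHom ℚ) = C ((1 : ℤ) : ℚ) * p := by
  rw [Int.cast_one, map_one, one_mul]
  ext n
  rcases le_or_gt n N with hn | hn
  · rw [coeff_map, coeff_ofCoeffs N k hn, h n hn]; rfl
  · rw [coeff_map, coeff_eq_zero_of_natDegree_lt ((natDegree_ofCoeffs N k).trans_lt hn),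
      coeff_eq_zero_of_natDegree_lt (hp.trans_lt hn), map_zero]

variable (c4 c6 Δ : ℤ)

/-- The integral form `G4`. -/
noncomputable def Z4 : ℤ[X] := ofCoeffs 20 (k4 c4 c6 Δ)

/-- The integral form `G6`. -/
noncomputable def Z6 : ℤ[X] := ofCoeffs 30 (k6 c4 c6 Δ)

/-- The integral form `GD`. -/
noncomputable def ZD : ℤ[X] := ofCoeffs 12 (kD c4 c6 Δ)

variable {c4 c6 Δ}

lemma map_Z (hne : (c4 : ℚ) ^ 3 ≠ (c6 : ℚ) ^ 2)
    (hrel : (c4 : ℚ) ^ 3 - (c6 : ℚ) ^ 2 = 1728 * (Δ : ℚ)) :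
    (Z4 c4 c6 Δ).map (Int.castRingHom ℚ) = C ((1 : ℤ) : ℚ) * F4 (c4 : ℚ) c6 ∧
    (Z6 c4 c6 Δ).map (Int.castRingHom ℚ) = C ((1 : ℤ) : ℚ) * F6 (c4 : ℚ) c6 ∧
    (ZD c4 c6 Δ).map (Int.castRingHom ℚ) = C ((1 : ℤ) : ℚ) * FD (c4 : ℚ) c6 := by
  refine ⟨map_ofCoeffs _ _ _ (natDegree_F4_le _ _) fun n _ => ?_,
    map_ofCoeffs _ _ _ (natDegree_F6_le _ _) fun n _ => ?_,
    map_ofCoeffs _ _ _ (natDegree_FD_le _ _) fun n _ => ?_⟩
  · rw [(coeff_family hne hrel n).1]; exact (map_k4 (Int.castRingHom ℚ) c4 c6 Δ n).symm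
  · rw [(coeff_family hne hrel n).2.1]; exact (map_k6 (Int.castRingHom ℚ) c4 c6 Δ n).symm
  · rw [(coeff_family hne hrel n).2.2]; exact (map_kD (Int.castRingHom ℚ) c4 c6 Δ n).symm

/-- The value of an integral form modulo `m`. -/
lemma cast_hom_zmod {m : ℕ} (N : ℕ) (k : ℕ → ℤ) (u v : ℤ) :
    ((hom (ofCoeffs N k) N u v : ℤ) : ZMod m) =
      ∑ n ∈ Finset.range (N + 1), (k n : ZMod m) * (v : ZMod m) ^ n * (u : ZMod m) ^ (N - n) := by
  rw [hom]
  push_cast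
  refine Finset.sum_congr rfl fun n hn => ?_
  rw [coeff_ofCoeffs N k (Nat.lt_succ_iff.1 (Finset.mem_range.1 hn))]

/-- Values at `(1, 0)`. -/
lemma hom_sub_zero_dvd {R : ℤ} (N : ℕ) (k : ℕ → ℤ) {u v : ℤ} (hu : R ∣ u - 1) (hv : R ∣ v) :
    R ∣ hom (ofCoeffs N k) N u v - k 0 := by
  have h1 := hv.trans (hom_sub_dvd (ofCoeffs N k) N u v)
  rw [coeff_ofCoeffs N k (Nat.zero_le N)] at h1
  have h2 : R ∣ u ^ N - 1 := by
    have := sub_dvd_pow_sub_pow u 1 N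
    rw [one_pow] at this
    exact hu.trans this
  have := dvd_add h1 (h2.mul_left (k 0))
  rwa [show hom (ofCoeffs N k) N u v - k 0 * u ^ N + k 0 * (u ^ N - 1) =
    hom (ofCoeffs N k) N u v - k 0 by ring] at this

lemma odd_pow_32 : ∀ m : ZMod 64, (2 * m + 1) ^ 32 = 1 := by decide +kernel

lemma pow_32_of_odd {n : ℤ} (hn : ¬(2 : ℤ) ∣ n) : ((n : ℤ) : ZMod 64) ^ 32 = 1 := by
  obtain ⟨m, rfl⟩ : ∃ m, n = 2 * m + 1 := ⟨n / 2, by omega⟩
  push_cast
  exact odd_pow_32 _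

/-- Values of the forms modulo 64 at `(1 - s, 1)`, where `s = -c₆/c₄`. -/
lemma hom_mod64 (h4 : ¬(2 : ℤ) ∣ c4) (hΔ : (2 : ℤ) ∣ Δ) (hrel : c4 ^ 3 - c6 ^ 2 = 1728 * Δ)
    {u v : ℤ} (hu : (u : ZMod 64) = 1 - (-c6 * c4 ^ 31 : ℤ)) (hv : (v : ZMod 64) = 1) :
    (64 : ℤ) ∣ hom (Z4 c4 c6 Δ) 20 u v - c4 ∧ (64 : ℤ) ∣ hom (Z6 c4 c6 Δ) 30 u v - c6 ∧
      hom (ZD c4 c6 Δ) 12 u v % 8 = 5 := by
  set s : ZMod 64 := ((-c6 * c4 ^ 31 : ℤ) : ZMod 64) with hs
  obtain ⟨e, he⟩ := hΔ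
  have h32 := pow_32_of_odd h4
  have hc : (c4 : ZMod 64) ^ 3 = (c6 : ZMod 64) ^ 2 := by
    have := congrArg (fun x : ℤ => (x : ZMod 64)) hrel
    rw [he] at this
    push_cast at this
    rw [show (1728 : ZMod 64) * (2 * (e : ZMod 64)) = ((1728 * 2 : ℕ) : ZMod 64) * e by
      push_cast; ring, show ((1728 * 2 : ℕ) : ZMod 64) = 0 from rfl, zero_mul] at this
    exact sub_eq_zero.1 this
  have hH : (c4 : ZMod 64) = s ^ 2 := by
    rw [hs]; push_cast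
    linear_combination -((c4 : ZMod 64) * ((c4 : ZMod 64) ^ 32 + 1)) * h32
      + (c4 : ZMod 64) ^ 62 * hc
  have hT : (c6 : ZMod 64) = -s ^ 3 := by
    rw [hs]; push_cast
    linear_combination -((c6 : ZMod 64) * ((c4 : ZMod 64) ^ 64 + (c4 : ZMod 64) ^ 32 + 1)) * h32
      + ((c6 : ZMod 64) * (c4 : ZMod 64) ^ 93) * hc
  have hE : (Δ : ZMod 64) = 2 * (e : ZMod 64) := by rw [he]; push_cast; ring
  have k4e : ∀ n, ((k4 c4 c6 Δ n : ℤ) : ZMod 64) = k4 (s ^ 2) (-s ^ 3) (2 * (e : ZMod 64)) n := by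
    intro n; rw [← hH, ← hT, ← hE]; exact map_k4 (Int.castRingHom (ZMod 64)) c4 c6 Δ n
  have k6e : ∀ n, ((k6 c4 c6 Δ n : ℤ) : ZMod 64) = k6 (s ^ 2) (-s ^ 3) (2 * (e : ZMod 64)) n := by
    intro n; rw [← hH, ← hT, ← hE]; exact map_k6 (Int.castRingHom (ZMod 64)) c4 c6 Δ n
  have kDe : ∀ n, ((kD c4 c6 Δ n : ℤ) : ZMod 64) = kD (s ^ 2) (-s ^ 3) (2 * (e : ZMod 64)) n := by
    intro n; rw [← hH, ← hT, ← hE]; exact map_kD (Int.castRingHom (ZMod 64)) c4 c6 Δ n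
  refine ⟨?_, ?_, ?_⟩
  · rw [show (64 : ℤ) = ((64 : ℕ) : ℤ) from rfl, ← ZMod.intCast_zmod_eq_zero_iff_dvd, Int.cast_sub,
      sub_eq_zero, Z4, cast_hom_zmod, hH, hu, hv]
    simp only [k4e, one_pow, mul_one]
    exact k4_mod64 s e
  · rw [show (64 : ℤ) = ((64 : ℕ) : ℤ) from rfl, ← ZMod.intCast_zmod_eq_zero_iff_dvd, Int.cast_sub,
      sub_eq_zero, Z6, cast_hom_zmod, hT, hu, hv]
    simp only [k6e, one_pow, mul_one]
    exact k6_mod64 s e
  · have h5 : (64 : ℤ) ∣ hom (ZD c4 c6 Δ) 12 u v - (1 - 12 * (-c6 * c4 ^ 31)) := by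
      rw [show (64 : ℤ) = ((64 : ℕ) : ℤ) from rfl, ← ZMod.intCast_zmod_eq_zero_iff_dvd, Int.cast_sub,
        sub_eq_zero, ZD, cast_hom_zmod, hu, hv]
      simp only [kDe, one_pow, mul_one]
      rw [kD_mod64 s e, hs]
      push_cast
      ring
    have hodd : ¬(2 : ℤ) ∣ -c6 * c4 ^ 31 := by
      intro h
      rcases Int.prime_two.dvd_or_dvd h with h | h
      · rw [dvd_neg] at h
        refine h4 (Int.prime_two.dvd_of_dvd_pow (n := 3) ?_)
        rw [show c4 ^ 3 = c6 ^ 2 + 1728 * Δ by linarith]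
        exact dvd_add (dvd_pow h two_ne_zero) (Dvd.intro (864 * Δ) (by ring))
      · exact h4 (Int.prime_two.dvd_of_dvd_pow h)
    generalize hom (ZD c4 c6 Δ) 12 u v = g at h5
    generalize -c6 * c4 ^ 31 = m at h5 hodd
    omega

end Forms

/-- A number `≡ 3, 5 (mod 8)` has a prime divisor `≡ 3, 5 (mod 8)` of odd multiplicity. -/
lemma exists_prime_odd_mult : ∀ n : ℕ, (n % 8 = 3 ∨ n % 8 = 5) →
    ∃ l : ℕ, l.Prime ∧ (l % 8 = 3 ∨ l % 8 = 5) ∧ Odd (padicValNat l n) := by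
  intro n
  induction n using Nat.recOnPrimeCoprime with
  | zero => intro h; omega
  | prime_pow p a hp =>
    intro h
    have := Fact.mk hp
    rcases hp.eq_two_or_odd with rfl | hodd
    · exfalso
      rcases a with _ | _ | _ | a
      · simp at h
      · simp at h
      · simp at h
      · rw [show (2 : ℕ) ^ (a + 3) = 8 * 2 ^ a by ring, Nat.mul_mod_right] at h; omega
    · have h8 : p ^ 2 % 8 = 1 := by
        rw [Nat.pow_mod]
        have := Nat.mod_lt p (show 8 > 0 by norm_num)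
        have : p % 8 % 2 = 1 := by omega
        interval_cases hr : p % 8 <;> simp_all
      rcases Nat.even_or_odd a with ⟨c, hc⟩ | ⟨c, hc⟩
      · exfalso
        rw [hc, ← two_mul, pow_mul, Nat.pow_mod, h8, one_pow] at h
        omega
      · refine ⟨p, hp, ?_, ?_⟩
        · rw [hc, pow_succ, pow_mul, Nat.mul_mod, Nat.pow_mod, h8, one_pow] at h
          omega
        · rw [padicValNat.prime_pow]; exact ⟨c, hc⟩
  | coprime a b ha hb hab iha ihb =>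
    intro h
    have key : (a % 8 = 3 ∨ a % 8 = 5) ∨ (b % 8 = 3 ∨ b % 8 = 5) := by
      rw [Nat.mul_mod] at h
      have := Nat.mod_lt a (show 8 > 0 by norm_num)
      have := Nat.mod_lt b (show 8 > 0 by norm_num)
      generalize a % 8 = r at *
      generalize b % 8 = r' at *
      interval_cases r <;> interval_cases r' <;> simp_all
    have hmul : ∀ {l : ℕ} {x y : ℕ}, l.Prime → x.Coprime y → 1 < x → 1 < y →
        Odd (padicValNat l x) → Odd (padicValNat l (x * y)) := by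
      intro l x y hl hxy hx hy ho
      have := Fact.mk hl
      have hdx : l ∣ x := dvd_of_one_le_padicValNat ho.pos
      have hy0 : padicValNat l y = 0 := padicValNat.eq_zero_of_not_dvd fun hdy =>
        hl.not_dvd_one (hxy.gcd_eq_one ▸ Nat.dvd_gcd hdx hdy)
      rwa [padicValNat.mul (by omega) (by omega), hy0, add_zero]
    rcases key with k | k
    · obtain ⟨l, hl, hl8, ho⟩ := iha k
      exact ⟨l, hl, hl8, hmul hl hab ha hb ho⟩
    · obtain ⟨l, hl, hl8, ho⟩ := ihb k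
      exact ⟨l, hl, hl8, mul_comm b a ▸ hmul hl hab.symm hb ha ho⟩

/-- An odd multiple of the odd part of `n`. -/
lemma exists_odd_part (n : ℕ) (hn : n ≠ 0) :
    ∃ R : ℕ, ¬2 ∣ R ∧ ∀ q : ℕ, q.Prime → q ≠ 2 → q ∣ n → q ∣ R := by
  obtain ⟨a, R, hR, rfl⟩ := Nat.exists_eq_pow_mul_and_not_dvd hn 2 (by norm_num)
  refine ⟨R, hR, fun q hq hq2 hdvd => ?_⟩
  rcases hq.dvd_mul.1 hdvd with h | h
  · exact absurd ((Nat.prime_dvd_prime_iff_eq hq Nat.prime_two).1 (hq.dvd_of_dvd_pow h)) hq2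
  · exact h

/-- **The switch with conditions.**
For `W` semistable, multiplicative at 2 and of positive discriminant and an odd modulus `M` there
is a semistable `W'` with Galois-isomorphic five-torsion, congruent to `W` modulo `M`, with
`Δ' = Δ g⁵` for some `g < 0`, `g ≡ 5 (mod 8)`, `g ≡ 1 (mod M)`, prime to `Δ`; the invariants
`c₄, c₆` are congruent modulo 64; `E'[2]` is irreducible, `Δ'` has odd multiplicity at a prime
`≡ 3, 5 (mod 8)` not dividing `Δ`. -/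
theorem exists_switch_two (W : WeierstrassCurve ℤ) (hW : W.IsSemistableModel)
    (h2 : (2 : ℤ) ∣ W.Δ) (hpos : 0 < W.Δ) (M : ℕ) (hM : ¬2 ∣ M) :
    ∃ (W' : WeierstrassCurve ℤ) (g : ℤ),
      W'.Δ = W.Δ * g ^ 5 ∧ g < 0 ∧ g % 8 = 5 ∧ (M : ℤ) ∣ g - 1 ∧
      (∀ q : ℕ, q.Prime → (q : ℤ) ∣ W.Δ → ¬(q : ℤ) ∣ g) ∧
      W'.Δ < 0 ∧ W'.IsSemistableModel ∧
      ((64 : ℤ) ∣ W'.c₄ - W.c₄ ∧ (64 : ℤ) ∣ W'.c₆ - W.c₆) ∧
      (W'.a₁ = W.a₁ ∧ W'.a₂ = W.a₂ ∧ W'.a₃ = W.a₃ ∧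
        (M : ℤ) ∣ W'.a₄ - W.a₄ ∧ (M : ℤ) ∣ W'.a₆ - W.a₆) ∧
      W'.ModRepIsIrreducible 2 ∧
      (∀ x : ℚ, x ^ 3 + (-27 * (W'.c₄ : ℚ)) * x + (-54 * (W'.c₆ : ℚ)) ≠ 0) ∧
      (∃ l : ℕ, l.Prime ∧ (l % 8 = 3 ∨ l % 8 = 5) ∧ ¬(l : ℤ) ∣ W.Δ ∧ (l : ℤ) ∣ W'.Δ ∧
        Odd (padicValInt l W'.Δ)) ∧
      (∃ e : Submodule.torsionBy ℤ ((W.map (Int.castRingHom ℚ))⁄Qb).Point ((5 : ℕ) : ℤ) ≃+
          Submodule.torsionBy ℤ ((W'.map (Int.castRingHom ℚ))⁄Qb).Point ((5 : ℕ) : ℤ),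
        ∀ (σ : Qb ≃ₐ[ℚ] Qb) x, e (σ • x) = σ • e x) := by
  have hΔ : W.Δ ≠ 0 := hpos.ne'
  set c4 := W.c₄ with hc4def
  set c6 := W.c₆ with hc6def
  set Δ := W.Δ with hΔdef
  have hrelZ : c4 ^ 3 - c6 ^ 2 = 1728 * Δ := W.c_relation.symm
  have hrel : (c4 : ℚ) ^ 3 - (c6 : ℚ) ^ 2 = 1728 * (Δ : ℚ) := by exact_mod_cast hrelZ
  have hne : (c4 : ℚ) ^ 3 ≠ (c6 : ℚ) ^ 2 := by
    rw [← sub_ne_zero, hrel]; exact mul_ne_zero (by norm_num) (by exact_mod_cast hΔ)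
  have h4odd : ¬(2 : ℤ) ∣ c4 := hW 2 Nat.prime_two h2
  obtain ⟨hP4, hP6, hPD⟩ := map_Z (c4 := c4) (c6 := c6) (Δ := Δ) hne hrel
  -- Bezout and leading coefficients
  obtain ⟨ra, rb, hbez⟩ := F4_FD_coprime hne
  obtain ⟨da, Pa, hda, hPa⟩ := exists_int_poly ra
  obtain ⟨db, Pb, hdb, hPb⟩ := exists_int_poly rb
  set Nb : ℤ := da * db with hNb
  have hNb0 : Nb ≠ 0 := by positivity
  have hbezZ : C db * Pa * Z4 c4 c6 Δ + C da * Pb * ZD c4 c6 Δ = C Nb := by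
    apply Polynomial.map_injective (Int.castRingHom ℚ) Int.cast_injective
    simp only [Polynomial.map_add, Polynomial.map_mul, Polynomial.map_C, hPa, hPb, hP4, hPD, hNb]
    simp only [eq_intCast (Int.castRingHom ℚ), Int.cast_mul, map_mul, Int.cast_one, map_one,
      one_mul]
    linear_combination (C (db : ℚ) * C (da : ℚ)) * hbez
  obtain ⟨L, hL0, hL⟩ : ∃ L : ℤ, L ≠ 0 ∧
      ∀ q : ℤ, q ∣ (Z4 c4 c6 Δ).coeff 20 → q ∣ (ZD c4 c6 Δ).coeff 12 → q ∣ L := by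
    rcases leading_not_both_zero hne with h | h
    · refine ⟨(Z4 c4 c6 Δ).coeff 20, ?_, fun q h _ => h⟩
      intro e
      have := congrArg (fun q => Polynomial.coeff q 20) hP4
      simp [coeff_map, e] at this
      exact h this.symm
    · refine ⟨(ZD c4 c6 Δ).coeff 12, ?_, fun q _ h => h⟩
      intro e
      have := congrArg (fun q => Polynomial.coeff q 12) hPD
      simp [coeff_map, e] at this
      exact h this.symm
  -- the odd modulus `R = 81 * M'`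
  obtain ⟨R₀, hR₀, hR₀d⟩ := exists_odd_part (Δ * Nb * L).natAbs
    (Int.natAbs_ne_zero.2 (mul_ne_zero (mul_ne_zero hΔ hNb0) hL0))
  set M' : ℤ := (M : ℤ) * R₀ with hM'
  have hM'odd : ¬(2 : ℤ) ∣ M' := by
    intro h
    rcases Int.prime_two.dvd_or_dvd h with h | h
    · exact hM (Int.natCast_dvd_natCast.1 h)
    · exact hR₀ (Int.natCast_dvd_natCast.1 h)
  set R : ℤ := 81 * M' with hR
  have hRodd : ¬(2 : ℤ) ∣ R := by
    intro h
    rcases Int.prime_two.dvd_or_dvd h with h | h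
    · omega
    · exact hM'odd h
  have hR0 : R ≠ 0 := fun h => hRodd (h ▸ dvd_zero 2)
  -- base point and direction
  set sg : ℤ := -c6 * c4 ^ 31 with hsg
  set v1 : ℤ := R ^ 32 with hv1
  set u1 : ℤ := 1 - sg * v1 with hu1
  obtain ⟨τ, hτ, hτne⟩ := ((infinite_FD_neg hrel (by exact_mod_cast hpos)).sdiff
    (Set.finite_singleton ((v1 : ℚ) / u1))).nonempty
  simp only [Set.mem_ofPred_eq] at hτ
  have hδ' : (τ.den : ℤ) * v1 - τ.num * u1 ≠ 0 := by
    intro h0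
    by_cases hu : u1 = 0
    · rw [hu, mul_zero, sub_zero] at h0
      exact mul_ne_zero (by exact_mod_cast τ.den_nz) (pow_ne_zero 32 hR0) h0
    · apply hτne
      show τ = (v1 : ℚ) / u1
      have h1 : ((τ.den : ℤ) : ℚ) * v1 = τ.num * u1 := by exact_mod_cast sub_eq_zero.1 h0
      have h2 : τ * τ.den = τ.num := Rat.mul_den_eq_num τ
      rw [eq_div_iff (by exact_mod_cast hu)]
      refine mul_left_cancel₀ (show (τ.den : ℚ) ≠ 0 by exact_mod_cast τ.den_nz) ?_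
      push_cast at h1
      linear_combination (u1 : ℚ) * h2 - h1
  set δ' : ℤ := (τ.den : ℤ) * v1 - τ.num * u1 with hδdef
  set Λ : ℤ := 64 * |R| * |δ'| with hΛ
  have hΛ0 : 0 < Λ := by
    have := abs_pos.2 hR0
    have := abs_pos.2 hδ'
    positivity
  set P : ℤ := Λ * τ.den with hP
  set Q : ℤ := Λ * τ.num with hQ
  have hP0 : 0 < P := mul_pos hΛ0 (by exact_mod_cast τ.den_pos)
  have hQP : (Q : ℚ) / P = τ := by
    rw [hP, hQ]; push_cast
    rw [mul_div_mul_left _ _ (by exact_mod_cast hΛ0.ne')]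
    exact Rat.num_div_den τ
  have hδ : P * v1 - Q * u1 ≠ 0 := by
    rw [hP, hQ, show Λ * τ.den * v1 - Λ * τ.num * u1 = Λ * δ' by rw [hδdef]; ring]
    exact mul_ne_zero hΛ0.ne' hδ'
  -- eventual negativity
  obtain ⟨K₀, hK₀⟩ : ∃ K₀ : ℕ, ∀ k : ℕ, K₀ ≤ k → 0 < u1 + k * P ∧
      (FD (c4 : ℚ) c6).eval (((v1 + k * Q : ℤ) : ℚ) / ((u1 + k * P : ℤ) : ℚ)) < 0 := by
    have hPR : (P : ℝ) ≠ 0 := by exact_mod_cast hP0.ne'
    set F : Polynomial ℝ := (FD (c4 : ℚ) c6).map (algebraMap ℚ ℝ) with hF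
    have h0 : F.eval ((Q : ℝ) / P) < 0 := by
      rw [hF, show (Q : ℝ) / P = algebraMap ℚ ℝ τ by rw [← hQP]; simp, Polynomial.eval_map,
        Polynomial.eval₂_at_apply, eq_ratCast]
      exact_mod_cast hτ
    have hlim : Filter.Tendsto (fun k : ℕ => ((v1 : ℝ) * (1 / (k : ℝ)) + Q) /
        ((u1 : ℝ) * (1 / (k : ℝ)) + P)) Filter.atTop (nhds ((Q : ℝ) / P)) := by
      have h1 := tendsto_one_div_atTop_nhds_zero_nat (𝕜 := ℝ)
      have := ((h1.const_mul (v1 : ℝ)).add_const (Q : ℝ)).div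
        ((h1.const_mul (u1 : ℝ)).add_const (P : ℝ)) (by simpa using hPR)
      simpa [Pi.div_def] using this
    have hev := ((F.continuous.tendsto _).comp hlim).eventually_lt_const h0
    obtain ⟨K, hK⟩ := Filter.eventually_atTop.1 hev
    refine ⟨max K (u1.natAbs + 1), fun k hk => ?_⟩
    have hk1 : (u1.natAbs + 1 : ℕ) ≤ k := le_trans (le_max_right _ _) hk
    have hu : 0 < u1 + k * P := by
      have h1 : (u1.natAbs : ℤ) + 1 ≤ k := by exact_mod_cast hk1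
      have h2 : (k : ℤ) * 1 ≤ k * P := mul_le_mul_of_nonneg_left (by omega) (Int.natCast_nonneg k)
      omega
    refine ⟨hu, ?_⟩
    have := hK k (le_trans (le_max_left _ _) hk)
    simp only [Function.comp] at this
    have hk0 : (k : ℝ) ≠ 0 := by exact_mod_cast (by omega : k ≠ 0)
    rw [show ((v1 : ℝ) * (1 / (k : ℝ)) + Q) / ((u1 : ℝ) * (1 / (k : ℝ)) + P) =
        algebraMap ℚ ℝ (((v1 + k * Q : ℤ) : ℚ) / ((u1 + k * P : ℤ) : ℚ)) by
      rw [eq_ratCast]; push_cast; field_simp, hF, Polynomial.eval_map,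
      Polynomial.eval₂_at_apply, eq_ratCast] at this
    exact_mod_cast this
  -- choice of `k`
  obtain ⟨k, hk, hroot⟩ := exists_cubic_no_int_root hne P Q u1 v1 hP0 hδ
    (by rw [hQP]; exact hτ.ne) K₀
  obtain ⟨hu0, hDneg⟩ := hK₀ k hk
  set u : ℤ := u1 + k * P with hu
  set v : ℤ := v1 + k * Q with hv
  have hu0' : u ≠ 0 := hu0.ne'
  set G4 : ℤ := hom (Z4 c4 c6 Δ) 20 u v with hG4
  set G6 : ℤ := hom (Z6 c4 c6 Δ) 30 u v with hG6
  set g : ℤ := hom (ZD c4 c6 Δ) 12 u v with hg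
  have eG4 : (G4 : ℚ) = (u : ℚ) ^ 20 * (F4 (c4 : ℚ) c6).eval ((v : ℚ) / u) := by
    rw [hG4, cast_hom hP4 (natDegree_F4_le _ _) hu0']; simp
  have eG6 : (G6 : ℚ) = (u : ℚ) ^ 30 * (F6 (c4 : ℚ) c6).eval ((v : ℚ) / u) := by
    rw [hG6, cast_hom hP6 (natDegree_F6_le _ _) hu0']; simp
  have eg : (g : ℚ) = (u : ℚ) ^ 12 * (FD (c4 : ℚ) c6).eval ((v : ℚ) / u) := by
    rw [hg, cast_hom hPD (natDegree_FD_le _ _) hu0']; simp
  have hgneg : g < 0 := by
    have : (g : ℚ) < 0 := by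
      rw [eg]; exact mul_neg_of_pos_of_neg (pow_pos (by exact_mod_cast hu0) 12) hDneg
    exact_mod_cast this
  have hdisc : G4 ^ 3 - G6 ^ 2 = 1728 * Δ * g ^ 5 := by
    have e := congrArg (Polynomial.eval ((v : ℚ) / u)) (F_disc hne)
    simp only [eval_sub, eval_pow, eval_mul, eval_C, hrel] at e
    have : ((G4 ^ 3 - G6 ^ 2 : ℤ) : ℚ) = ((1728 * Δ * g ^ 5 : ℤ) : ℚ) := by
      push_cast
      rw [eG4, eG6, eg]
      linear_combination ((u : ℚ) ^ 60) * e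
    exact_mod_cast this
  -- congruences
  have hdivΛ : ∀ m : ℤ, m ∣ Λ → m ∣ u - u1 ∧ m ∣ v - v1 := fun m hm =>
    ⟨hm.trans (Dvd.intro ((k : ℤ) * τ.den) (by rw [hu, hP]; ring)),
      hm.trans (Dvd.intro ((k : ℤ) * τ.num) (by rw [hv, hQ]; ring))⟩
  obtain ⟨hu64, hv64⟩ := hdivΛ 64 (Dvd.intro (|R| * |δ'|) (by rw [hΛ]; ring))
  obtain ⟨huR, hvR⟩ := hdivΛ R ((dvd_abs R R).2 dvd_rfl |>.trans
    (Dvd.intro (64 * |δ'|) (by rw [hΛ]; ring)))
  have hvR' : R ∣ v := by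
    have := dvd_add hvR (show R ∣ v1 from dvd_pow_self R (by norm_num))
    simpa using this
  have huR' : R ∣ u - 1 := by
    have := dvd_add huR ((show R ∣ v1 from dvd_pow_self R (by norm_num)).mul_left (-sg))
    rwa [show u - u1 + -sg * v1 = u - 1 by rw [hu1]; ring] at this
  have hv1_64 : (v1 : ZMod 64) = 1 := by
    rw [hv1]; push_cast; exact pow_32_of_odd hRodd
  have hvcast : (v : ZMod 64) = 1 := by
    rw [← hv1_64]
    exact ((ZMod.intCast_eq_intCast_iff_dvd_sub v1 v 64).2 hv64).symm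
  have hucast : (u : ZMod 64) = 1 - ((-c6 * c4 ^ 31 : ℤ) : ZMod 64) := by
    rw [(((ZMod.intCast_eq_intCast_iff_dvd_sub u1 u 64).2 hu64).symm : (u : ZMod 64) = u1), hu1,
      hsg]
    push_cast
    rw [hv1_64, mul_one]
  obtain ⟨h64_4, h64_6, hg8⟩ := hom_mod64 h4odd h2 hrelZ hucast hvcast
  rw [← hG4] at h64_4
  rw [← hG6] at h64_6
  rw [← hg] at hg8
  have hR4 : R ∣ G4 - c4 := hom_sub_zero_dvd 20 (k4 c4 c6 Δ) huR' hvR'
  have hR6 : R ∣ G6 - c6 := hom_sub_zero_dvd 30 (k6 c4 c6 Δ) huR' hvR'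
  have hRD : R ∣ g - 1 := hom_sub_zero_dvd 12 (kD c4 c6 Δ) huR' hvR'
  have hcop : IsCoprime (64 : ℤ) R := by
    have : IsCoprime (2 : ℤ) R := (Int.prime_two.coprime_iff_not_dvd).2 hRodd
    rw [show (64 : ℤ) = 2 ^ 6 by norm_num]
    exact this.pow_left
  obtain ⟨x, hx⟩ := hcop.mul_dvd h64_4 hR4
  obtain ⟨y, hy⟩ := hcop.mul_dvd h64_6 hR6
  -- the model
  set W' : WeierstrassCurve ℤ :=
    ⟨W.a₁, W.a₂, W.a₃, W.a₄ - 108 * M' * x, W.a₆ + (-9 * W.b₂ * M' * x - 6 * M' * y)⟩ with hW'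
  have e4 : W'.c₄ = G4 := by
    simp only [hW', hR, hc4def, WeierstrassCurve.c₄, WeierstrassCurve.b₂,
      WeierstrassCurve.b₄] at hx ⊢
    linear_combination -hx
  have e6 : W'.c₆ = G6 := by
    simp only [hW', hR, hc6def, WeierstrassCurve.c₆, WeierstrassCurve.b₂, WeierstrassCurve.b₄,
      WeierstrassCurve.b₆] at hy ⊢
    linear_combination -hy
  have eΔ : W'.Δ = Δ * g ^ 5 := by
    have := W'.c_relation
    rw [e4, e6, hdisc] at this
    linarith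
  have hMg : (M : ℤ) ∣ g - 1 :=
    (show (M : ℤ) ∣ R from Dvd.intro (81 * (R₀ : ℤ)) (by rw [hR, hM']; ring)).trans hRD
  have hgood : ∀ q : ℕ, q.Prime → (q : ℤ) ∣ Δ * Nb * L → q = 2 ∨ (q : ℤ) ∣ R := by
    intro q hq hd
    refine or_iff_not_imp_left.2 fun h2' => ?_
    have := hR₀d q hq h2' (Int.natCast_dvd.1 hd)
    exact (Int.natCast_dvd_natCast.2 this).trans
      (Dvd.intro (81 * (M : ℤ)) (by rw [hR, hM']; ring))
  have hgΔ : ∀ q : ℕ, q.Prime → (q : ℤ) ∣ Δ → ¬(q : ℤ) ∣ g := by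
    intro q hq hqΔ hqg
    rcases hgood q hq ((hqΔ.mul_right Nb).mul_right L) with rfl | hqR
    · push_cast at hqg; omega
    · have := dvd_sub hqg (hqR.trans hRD)
      rw [sub_sub_cancel] at this
      exact (Nat.prime_iff_prime_int.1 hq).not_dvd_one this
  have hΔ'neg : W'.Δ < 0 := by
    rw [eΔ]; exact mul_neg_of_pos_of_neg hpos (Odd.pow_neg (by decide) hgneg)
  have hirr : ∀ x : ℚ, x ^ 3 + (-27 * (W'.c₄ : ℚ)) * x + (-54 * (W'.c₆ : ℚ)) ≠ 0 := by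
    intro x hx0
    have hint : _root_.IsIntegral ℤ x := by
      refine ⟨Polynomial.X ^ 3 + (Polynomial.C (-27 * W'.c₄) * Polynomial.X
        + Polynomial.C (-54 * W'.c₆)), Polynomial.monic_X_pow_add ?_, ?_⟩
      · calc _ ≤ ((1 : ℕ) : WithBot ℕ) := by compute_degree!
          _ < _ := by norm_num
      · rw [← Polynomial.aeval_def]
        simp only [map_add, map_mul, map_pow, Polynomial.aeval_X,
          eq_intCast, map_neg, map_ofNat, map_intCast]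
        linear_combination hx0
    obtain ⟨z, hz⟩ := IsIntegrallyClosed.isIntegral_iff.1 hint
    apply hroot z
    rw [← eG4, ← eG6, ← e4, ← e6]
    rw [algebraMap_int_eq, eq_intCast] at hz
    rw [hz]
    exact hx0
  refine ⟨W', g, eΔ, hgneg, hg8, hMg, hgΔ, hΔ'neg, ?_, ⟨e4 ▸ h64_4, e6 ▸ h64_6⟩,
    ⟨rfl, rfl, rfl, ?_, ?_⟩, ?_, hirr, ?_, ?_⟩
  · -- semistability
    intro q hq hqΔ hqc
    rw [eΔ] at hqΔ
    rw [e4] at hqc
    have hqp : Prime (q : ℤ) := Nat.prime_iff_prime_int.1 hq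
    rcases eq_or_ne q 2 with rfl | hq2
    · refine h4odd ?_
      have := dvd_sub hqc ((show (2 : ℤ) ∣ 64 by norm_num).trans h64_4)
      simpa using this
    by_cases hqR : (q : ℤ) ∣ R
    · have hqg : ¬(q : ℤ) ∣ g := fun hd => hqp.not_dvd_one (by
        have := dvd_sub hd (hqR.trans hRD)
        rwa [sub_sub_cancel] at this)
      refine hW q hq ((hqp.dvd_or_dvd hqΔ).resolve_right fun h => hqg (hqp.dvd_of_dvd_pow h)) ?_
      have := dvd_sub hqc (hqR.trans hR4)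
      simpa using this
    · have hbad : ∀ z : ℤ, (q : ℤ) ∣ z → z ∣ Δ * Nb * L → False := fun z h1 h2 =>
        hqR ((hgood q hq (h1.trans h2)).resolve_left hq2)
      have hqD : (q : ℤ) ∣ g := hqp.dvd_of_dvd_pow
        ((hqp.dvd_or_dvd hqΔ).resolve_left fun h => hbad _ h (Dvd.intro (Nb * L) (by ring)))
      by_cases hqu : (q : ℤ) ∣ u
      · by_cases hqv : (q : ℤ) ∣ v
        · have hqδ : (q : ℤ) ∣ δ' := by
            have e : δ' = (τ.den : ℤ) * v - τ.num * u := by rw [hδdef, hu, hv, hP, hQ]; ring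
            rw [e]; exact dvd_sub (hqv.mul_left _) (hqu.mul_left _)
          obtain ⟨hu', hv'⟩ := hdivΛ q (hqδ.trans (((dvd_abs δ' δ').2 dvd_rfl).trans
            (Dvd.intro_left (64 * |R|) (by rw [hΛ]))))
          have h1 : (q : ℤ) ∣ u1 := by
            have := dvd_sub hqu hu'; rwa [sub_sub_cancel] at this
          have h2' : (q : ℤ) ∣ v1 := by
            have := dvd_sub hqv hv'; rwa [sub_sub_cancel] at this
          exact hqp.not_dvd_one (by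
            have := dvd_add h1 (h2'.mul_left sg)
            rwa [hu1, sub_add_cancel] at this)
        · exact hbad L (hL _ (hom_top_dvd hqp hqu hqv (hG4 ▸ hqc))
            (hom_top_dvd hqp hqu hqv (hg ▸ hqD))) (dvd_mul_left _ _)
      · have := Fact.mk hq
        have hu' : (u : ZMod q) ≠ 0 := fun h => hqu ((ZMod.intCast_zmod_eq_zero_iff_dvd _ _).1 h)
        have z4 := eval_mod (P := Z4 c4 c6 Δ) (natDegree_ofCoeffs 20 _) hu' (hG4 ▸ hqc)
        have zD := eval_mod (P := ZD c4 c6 Δ) (natDegree_ofCoeffs 12 _) hu' (hg ▸ hqD)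
        have := congrArg
          (fun r => (Polynomial.map (Int.castRingHom (ZMod q)) r).eval ((v : ZMod q) / u)) hbezZ
        simp only [Polynomial.map_add, Polynomial.map_mul, Polynomial.map_C, eval_add, eval_mul,
          eval_C, z4, zD, mul_zero, add_zero] at this
        exact hbad Nb ((ZMod.intCast_zmod_eq_zero_iff_dvd _ _).1 (by simpa using this.symm))
          (Dvd.intro (Δ * L) (by ring))
  · exact Dvd.intro (-108 * (R₀ : ℤ) * x) (by simp only [hW', hM']; ring)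
  · exact Dvd.intro (-9 * W.b₂ * (R₀ : ℤ) * x - 6 * (R₀ : ℤ) * y) (by simp only [hW', hM']; ring)
  · refine irreducible_two (W'.map (Int.castRingHom ℚ)) ?_ 1 one_ne_zero
      (A := (W'.c₄ : ℚ)) (B := (W'.c₆ : ℚ)) (by simp) (by simp) hirr
    simp [hΔ'neg.ne]
  · obtain ⟨l, hl, hl8, ho⟩ := exists_prime_odd_mult g.natAbs (by omega)
    have := Fact.mk hl
    have hlg : (l : ℤ) ∣ g := Int.natCast_dvd.2 (dvd_of_one_le_padicValNat ho.pos)
    have hlΔ : ¬(l : ℤ) ∣ Δ := fun h => hgΔ l hl h hlg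
    refine ⟨l, hl, hl8, hlΔ, ?_, ?_⟩
    · rw [eΔ]; exact (dvd_pow hlg (by norm_num)).mul_left _
    · rw [eΔ, padicValInt, Int.natAbs_mul, Int.natAbs_pow,
        padicValNat.mul (Int.natAbs_ne_zero.2 hΔ) (pow_ne_zero _ (Int.natAbs_ne_zero.2 hgneg.ne)),
        padicValNat.pow _ _, padicValNat.eq_zero_of_not_dvd
          (fun h => hlΔ (Int.natCast_dvd.2 h)), zero_add]
      exact Odd.mul (by decide) ho
  · set E := W.map (Int.castRingHom ℚ) with hE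
    set E' := W'.map (Int.castRingHom ℚ) with hE'
    refine exists_equivariant_iso E E' (by simp [hE, ← hΔdef, hΔ]) (by simp [hE', hΔ'neg.ne])
      ((v : ℚ) / u) ((u : ℚ) ^ 5)⁻¹ (inv_ne_zero (pow_ne_zero 5 (by exact_mod_cast hu0'))) ?_ ?_
    · rw [show E.c₄ = (c4 : ℚ) by simp [hE, hc4def], show E.c₆ = (c6 : ℚ) by simp [hE, hc6def],
        hE', WeierstrassCurve.map_c₄, eq_intCast, e4, eG4]
      have : (u : ℚ) ≠ 0 := by exact_mod_cast hu0'
      field_simp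
    · rw [show E.c₄ = (c4 : ℚ) by simp [hE, hc4def], show E.c₆ = (c6 : ℚ) by simp [hE, hc6def],
        hE', WeierstrassCurve.map_c₆, eq_intCast, e6, eG6]
      have : (u : ℚ) ≠ 0 := by exact_mod_cast hu0'
      field_simp

/-- Congruent traces, from an equivariant five-torsion isomorphism. -/
theorem five_dvd_apOfModel_sub (W W' : WeierstrassCurve ℤ)
    (e : Submodule.torsionBy ℤ ((W.map (Int.castRingHom ℚ))⁄Qb).Point ((5 : ℕ) : ℤ) ≃+
      Submodule.torsionBy ℤ ((W'.map (Int.castRingHom ℚ))⁄Qb).Point ((5 : ℕ) : ℤ))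
    (he : ∀ (σ : Qb ≃ₐ[ℚ] Qb) x, e (σ • x) = σ • e x) {ℓ : ℕ} (hℓ : ℓ.Prime) (h5 : ℓ ≠ 5)
    (hg : W.IsGoodPrimeFor ℓ) (hg' : W'.IsGoodPrimeFor ℓ) :
    (5 : ℤ) ∣ W'.apOfModel ℓ - W.apOfModel ℓ := by
  have : Fact ℓ.Prime := ⟨hℓ⟩
  have : Fact (Nat.Prime 5) := ⟨Nat.prime_five⟩
  obtain ⟨A, hA⟩ := Frobenius.exists_liesOverPrime Qb hℓ
  obtain ⟨σ, hσ⟩ := Frobenius.exists_isFrobeniusAt_qbar hℓ hA
  have h1 := EllFrobenius.galoisTrace_eq_apOfModel W ℓ 5 h5 hg A σ hA hσ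
  have h2 := EllFrobenius.galoisTrace_eq_apOfModel W' ℓ 5 h5 hg' A σ hA hσ
  rw [← galoisTrace_eq _ _ 5 e he σ, h1] at h2
  exact_mod_cast (ZMod.intCast_eq_intCast_iff_dvd_sub _ _ _).1 h2

/-- For a square discriminant, `Δ g⁵` is `4ᵏ r` with `r ≡ 5 (mod 8)`. -/
theorem exists_four_pow_mul {Δ g : ℤ} (hsq : IsSquare Δ) (hΔ : Δ ≠ 0) (h2 : (2 : ℤ) ∣ Δ)
    (hg : g % 8 = 5) : ∃ (k : ℕ) (r : ℤ), 0 < k ∧ Δ * g ^ 5 = 4 ^ k * r ∧ r % 8 = 5 := by
  obtain ⟨m, rfl⟩ := hsq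
  have hm : m ≠ 0 := fun h => hΔ (by rw [h, mul_zero])
  obtain ⟨k, n, hn, rfl⟩ : ∃ (k : ℕ) (n : ℤ), ¬(2 : ℤ) ∣ n ∧ m = 2 ^ k * n := by
    obtain ⟨k, n, hn, e⟩ := WfDvdMonoid.max_power_factor hm Int.prime_two.irreducible
    exact ⟨k, n, hn, e⟩
  refine ⟨k, n * n * g ^ 5, ?_, ?_, ?_⟩
  · by_contra hk
    obtain rfl : k = 0 := by omega
    simp only [pow_zero, one_mul] at h2
    exact hn ((Int.prime_two.dvd_or_dvd h2).elim id id)
  · rw [show (4 : ℤ) ^ k = 2 ^ k * 2 ^ k by rw [← mul_pow]; norm_num]; ring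
  · have hn8 : n * n % 8 = 1 := by
      obtain ⟨a, rfl⟩ : ∃ a, n = 2 * a + 1 := ⟨n / 2, by omega⟩
      rcases Int.even_or_odd a with ⟨b, rfl⟩ | ⟨b, rfl⟩ <;> ring_nf <;> omega
    have hg5 : g ^ 5 % 8 = 5 := (Int.ModEq.pow 5 (show g ≡ 5 [ZMOD 8] by simpa [Int.ModEq] using hg))
    rw [Int.mul_emod, hn8, one_mul, Int.emod_emod_of_dvd _ dvd_rfl, hg5]

end Fermat.Agent.ThreeFive
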