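import Mathlib.AlgebraicGeometry.EllipticCurve.Affine.Point
import Mathlib.Algebra.CharZero.Defs
import Mathlib.Tactic.FieldSimp
import Mathlib.Tactic.LinearCombination

/-!
# Short models `y² = x³ - 27 c₄ x - 54 c₆` and the isomorphism to them
-/

namespace Fermat.Agent.ThreeFive

open WeierstrassCurve

variable {K : Type*}

/-- The short Weierstrass model with given invariants (scaled by 6). -/
def SW [CommRing K] (c4 c6 : K) : Affine K :=
  (⟨0, 0, 0, -27 * c4, -54 * c6⟩ : WeierstrassCurve K).toAffine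

section Ring

variable [CommRing K] (c4 c6 : K)

@[simp] lemma SW_a₁ : (SW c4 c6).a₁ = 0 := rfl
@[simp] lemma SW_a₂ : (SW c4 c6).a₂ = 0 := rfl
@[simp] lemma SW_a₃ : (SW c4 c6).a₃ = 0 := rfl
@[simp] lemma SW_a₄ : (SW c4 c6).a₄ = -27 * c4 := rfl
@[simp] lemma SW_a₆ : (SW c4 c6).a₆ = -54 * c6 := rfl

lemma SW_equation_iff (x y : K) :
    (SW c4 c6).Equation x y ↔ y ^ 2 = x ^ 3 - 27 * c4 * x - 54 * c6 := by
  rw [Affine.equation_iff]
  simp only [SW_a₁, SW_a₂, SW_a₃, SW_a₄, SW_a₆]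
  constructor <;> intro h <;> linear_combination h

@[simp] lemma SW_negY (x y : K) : (SW c4 c6).negY x y = -y := by simp [Affine.negY]

end Ring

section Field

variable [Field K] [CharZero K] {c4 c6 : K}

lemma SW_nonsingular_iff (h : c4 ^ 3 ≠ c6 ^ 2) (x y : K) :
    (SW c4 c6).Nonsingular x y ↔ (SW c4 c6).Equation x y := by
  refine ⟨fun h' => h'.1, fun h' => ?_⟩
  rw [Affine.nonsingular_iff]
  refine ⟨h', ?_⟩
  simp only [SW_a₁, SW_a₂, SW_a₃, SW_a₄]
  by_contra hc
  push Not at hc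
  obtain ⟨h1, h2⟩ := hc
  have hy : y = 0 := by
    have : (2 : K) * y = 0 := by linear_combination h2
    simpa using this
  rw [SW_equation_iff, hy] at h'
  subst hy
  have h3 : x ^ 2 = 9 * c4 := by
    have : (3 : K) * (x ^ 2 - 9 * c4) = 0 := by linear_combination -h1
    exact sub_eq_zero.mp (by simpa using this)
  have h4 : x * c4 = -3 * c6 := by
    have : (18 : K) * (x * c4 + 3 * c6) = 0 := by linear_combination h' + x * h3
    linear_combination (by simpa using this : x * c4 + 3 * c6 = 0)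
  apply h
  have : (9 : K) * (c4 ^ 3 - c6 ^ 2) = 0 := by
    linear_combination (x * c4 - 3 * c6) * h4 - c4 ^ 2 * h3
  exact sub_eq_zero.mp (by simpa using this)

/-- A point of a short model from its equation. -/
def SW.mk (h : c4 ^ 3 ≠ c6 ^ 2) {x y : K} (e : y ^ 2 = x ^ 3 - 27 * c4 * x - 54 * c6) :
    (SW c4 c6).Point :=
  .some x y ((SW_nonsingular_iff h x y).2 ((SW_equation_iff c4 c6 x y).2 e))

lemma SW.y_ne_zero (h : c4 ^ 3 ≠ c6 ^ 2) {x y L : K}
    (e : y ^ 2 = x ^ 3 - 27 * c4 * x - 54 * c6) (hL : 2 * L * y = 3 * x ^ 2 - 27 * c4) :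
    y ≠ 0 := by
  intro hy
  subst hy
  obtain ⟨-, h1 | h1⟩ := (Affine.nonsingular_iff _ _).1
    ((SW_nonsingular_iff h x 0).2 ((SW_equation_iff c4 c6 x 0).2 e))
  · apply h1; simp only [SW_a₁, SW_a₂, SW_a₄]; linear_combination hL
  · simp at h1

/-- Doubling on a short model through a given slope. -/
lemma SW.double [DecidableEq K] (h : c4 ^ 3 ≠ c6 ^ 2) {x y L x' y' : K}
    (e : y ^ 2 = x ^ 3 - 27 * c4 * x - 54 * c6) (hL : 2 * L * y = 3 * x ^ 2 - 27 * c4)
    (hx : x' = L ^ 2 - 2 * x) (hy : y' = -(L * (x' - x) + y))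
    (e' : y' ^ 2 = x' ^ 3 - 27 * c4 * x' - 54 * c6) :
    SW.mk h e + SW.mk h e = SW.mk h e' := by
  have hy0 := SW.y_ne_zero h e hL
  have hne : y ≠ (SW c4 c6).negY x y := by
    rw [SW_negY]; intro h'
    exact hy0 (by simpa using (show (2 : K) * y = 0 by linear_combination h'))
  have hs : (SW c4 c6).slope x x y y = L := by
    rw [Affine.slope_of_Y_ne rfl hne, div_eq_iff (sub_ne_zero.2 hne)]
    simp only [SW_a₁, SW_a₂, SW_a₄, SW_negY]
    linear_combination -hL
  simp only [SW.mk, Affine.Point.add_self_of_Y_ne hne, hs, Affine.Point.some.injEq]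
  have hX : (SW c4 c6).addX x x L = x' := by
    simp [Affine.addX]; linear_combination -hx
  refine ⟨hX, ?_⟩
  rw [Affine.addY, Affine.negAddY, hX, SW_negY]
  exact hy.symm

end Field

section ToShort

variable [Field K] [CharZero K]

variable (W : Affine K) (s : K)

/-- The `x`-coordinate change to the short model. -/
def toShortX (x : K) : K := 36 * s ^ 2 * x + 3 * s ^ 2 * W.b₂

/-- The `y`-coordinate change to the short model. -/
def toShortY (x y : K) : K := 216 * s ^ 3 * y + 108 * s ^ 3 * (W.a₁ * x + W.a₃)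

omit [CharZero K] in
lemma toShort_equation {x y : K} (h : W.Equation x y) :
    (SW (s ^ 4 * W.c₄) (s ^ 6 * W.c₆)).Equation (toShortX W s x) (toShortY W s x y) := by
  rw [SW_equation_iff]
  rw [Affine.equation_iff] at h
  simp only [toShortX, toShortY, WeierstrassCurve.c₄, WeierstrassCurve.c₆, WeierstrassCurve.b₂,
    WeierstrassCurve.b₄, WeierstrassCurve.b₆]
  linear_combination (46656 * s ^ 6) * h

lemma toShort_ne (hW : W.Δ ≠ 0) (hs : s ≠ 0) :
    (s ^ 4 * W.c₄) ^ 3 ≠ (s ^ 6 * W.c₆) ^ 2 := by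
  intro h
  have : s ^ 12 * (1728 * W.Δ) = 0 := by
    rw [W.c_relation]; linear_combination h
  simp [hs, hW] at this

variable {W s}

/-- The isomorphism onto the short model, on points. -/
def toShortFun (hW : W.Δ ≠ 0) (hs : s ≠ 0) :
    W.Point → (SW (s ^ 4 * W.c₄) (s ^ 6 * W.c₆)).Point
  | .zero => .zero
  | .some x y h =>
    .some (toShortX W s x) (toShortY W s x y)
      ((SW_nonsingular_iff (toShort_ne W s hW hs) _ _).2 (toShort_equation W s h.1))

@[simp] lemma toShortFun_zero (hW : W.Δ ≠ 0) (hs : s ≠ 0) : toShortFun hW hs 0 = 0 := rfl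

lemma toShortFun_some (hW : W.Δ ≠ 0) (hs : s ≠ 0) {x y : K} (h : W.Nonsingular x y) :
    ∃ h', toShortFun hW hs (.some x y h) = .some (toShortX W s x) (toShortY W s x y) h' :=
  ⟨_, rfl⟩

lemma toShortFun_bijective (hW : W.Δ ≠ 0) (hs : s ≠ 0) :
    Function.Bijective (toShortFun hW hs) := by
  constructor
  · rintro (_ | ⟨x, y, h⟩) (_ | ⟨x', y', h'⟩) e <;> simp only [toShortFun] at e
    · rfl
    · exact absurd e.symm (by simp)
    · exact absurd e (by simp)
    · simp only [Affine.Point.some.injEq, toShortX, toShortY] at e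
      have hx : x = x' := by
        have : (36 : K) * s ^ 2 * (x - x') = 0 := by linear_combination e.1
        simpa [sub_eq_zero, hs] using this
      subst hx
      have hy : y = y' := by
        have : (216 : K) * s ^ 3 * (y - y') = 0 := by linear_combination e.2
        simpa [sub_eq_zero, hs] using this
      subst hy; rfl
  · rintro (_ | ⟨X, Y, h⟩)
    · exact ⟨.zero, rfl⟩
    · set x := (X - 3 * s ^ 2 * W.b₂) / (36 * s ^ 2) with hx
      set y := (Y - 108 * s ^ 3 * (W.a₁ * x + W.a₃)) / (216 * s ^ 3) with hy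
      have hX : toShortX W s x = X := by
        rw [toShortX, hx]; field_simp; ring
      have hY : toShortY W s x y = Y := by
        rw [toShortY, hy]; field_simp; ring
      have he : W.Equation x y := by
        have e := (SW_equation_iff _ _ _ _).1 h.1
        rw [← hX, ← hY] at e
        simp only [toShortX, toShortY, WeierstrassCurve.c₄, WeierstrassCurve.c₆,
          WeierstrassCurve.b₂, WeierstrassCurve.b₄, WeierstrassCurve.b₆] at e
        rw [Affine.equation_iff]
        have : (46656 : K) * s ^ 6 * ((y ^ 2 + W.a₁ * x * y + W.a₃ * y)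
            - (x ^ 3 + W.a₂ * x ^ 2 + W.a₄ * x + W.a₆)) = 0 := by linear_combination e
        simpa [sub_eq_zero, hs] using this
      refine ⟨.some x y (Affine.equation_iff_nonsingular_of_Δ_ne_zero hW |>.1 he), ?_⟩
      simp [toShortFun, hX, hY]

variable [DecidableEq K]

lemma toShortFun_add (hW : W.Δ ≠ 0) (hs : s ≠ 0) (P Q : W.Point) :
    toShortFun hW hs (P + Q) = toShortFun hW hs P + toShortFun hW hs Q := by
  rcases P with _ | ⟨x₁, y₁, h₁⟩
  · simp [← Affine.Point.zero_def]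
  rcases Q with _ | ⟨x₂, y₂, h₂⟩
  · simp [← Affine.Point.zero_def]
  have hX : toShortX W s x₁ = toShortX W s x₂ ↔ x₁ = x₂ := by
    refine ⟨fun e => ?_, fun e => by rw [e]⟩
    have : (36 : K) * s ^ 2 * (x₁ - x₂) = 0 := by rw [toShortX, toShortX] at e; linear_combination e
    simpa [sub_eq_zero, hs] using this
  have hN : toShortY W s x₁ y₁ = -toShortY W s x₂ y₂ ∧ x₁ = x₂ ↔
      y₁ = W.negY x₂ y₂ ∧ x₁ = x₂ := by
    refine ⟨fun ⟨e, hx⟩ => ⟨?_, hx⟩, fun ⟨e, hx⟩ => ⟨?_, hx⟩⟩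
    · subst hx
      rw [toShortY, toShortY] at e
      have : (216 : K) * s ^ 3 * (y₁ - W.negY x₁ y₂) = 0 := by
        rw [Affine.negY]; linear_combination e
      simpa [sub_eq_zero, hs] using this
    · subst hx; subst e
      simp only [toShortY, Affine.negY]; ring
  by_cases hc : x₁ = x₂ ∧ y₁ = W.negY x₂ y₂
  · obtain ⟨h', e₁⟩ := toShortFun_some hW hs h₁
    obtain ⟨h'', e₂⟩ := toShortFun_some hW hs h₂
    rw [Affine.Point.add_of_Y_eq hc.1 hc.2, e₁, e₂, Affine.Point.add_of_Y_eq (hX.2 hc.1)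
      (by rw [SW_negY]; exact (hN.2 ⟨hc.2, hc.1⟩).1)]
    rfl
  · have hc' : ¬(toShortX W s x₁ = toShortX W s x₂ ∧ toShortY W s x₁ y₁ =
        (SW (s ^ 4 * W.c₄) (s ^ 6 * W.c₆)).negY (toShortX W s x₂) (toShortY W s x₂ y₂)) := by
      rw [SW_negY]; rintro ⟨a, b⟩
      exact hc ⟨hX.1 a, (hN.1 ⟨b, hX.1 a⟩).1⟩
    obtain ⟨h', e₁⟩ := toShortFun_some hW hs h₁
    obtain ⟨h'', e₂⟩ := toShortFun_some hW hs h₂
    rw [e₁, e₂, Affine.Point.add_some hc, Affine.Point.add_some hc']
    simp only [toShortFun, Affine.Point.some.injEq]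
    set L := W.slope x₁ x₂ y₁ y₂ with hLdef
    have hL : (SW (s ^ 4 * W.c₄) (s ^ 6 * W.c₆)).slope (toShortX W s x₁) (toShortX W s x₂)
        (toShortY W s x₁ y₁) (toShortY W s x₂ y₂) = s * (6 * L + 3 * W.a₁) := by
      by_cases hx : x₁ = x₂
      · subst hx
        have hy : y₁ ≠ W.negY x₁ y₂ := fun e => hc ⟨rfl, e⟩
        obtain rfl : y₁ = y₂ := Affine.Y_eq_of_Y_ne h₁.1 h₂.1 rfl hy
        have hd : toShortY W s x₁ y₁ ≠
            (SW (s ^ 4 * W.c₄) (s ^ 6 * W.c₆)).negY (toShortX W s x₁) (toShortY W s x₁ y₁) :=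
          fun e => hc' ⟨rfl, e⟩
        rw [Affine.slope_of_Y_ne rfl hd, div_eq_iff (sub_ne_zero.2 hd)]
        have hl : L * (y₁ - W.negY x₁ y₁) =
            3 * x₁ ^ 2 + 2 * W.a₂ * x₁ + W.a₄ - W.a₁ * y₁ := by
          rw [hLdef, Affine.slope_of_Y_ne rfl hy, div_mul_cancel₀ _ (sub_ne_zero.2 hy)]
        simp only [SW_a₁, SW_a₂, SW_a₃, SW_a₄, toShortX, toShortY, Affine.negY,
          WeierstrassCurve.c₄, WeierstrassCurve.b₂, WeierstrassCurve.b₄] at hl ⊢
        linear_combination (-1296 * s ^ 4) * hl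
      · rw [Affine.slope_of_X_ne (fun e => hx (hX.1 e)),
          div_eq_iff (sub_ne_zero.2 fun e => hx (hX.1 e))]
        have hl : L * (x₁ - x₂) = y₁ - y₂ := by
          rw [hLdef, Affine.slope_of_X_ne hx, div_mul_cancel₀ _ (sub_ne_zero.2 hx)]
        simp only [toShortX, toShortY]
        linear_combination (-216 * s ^ 3) * hl
    rw [hL]
    simp only [toShortX, toShortY, Affine.addX, Affine.addY, Affine.negAddY, Affine.negY, SW_a₁,
      SW_a₂, SW_a₃, WeierstrassCurve.b₂]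
    constructor <;> ring

/-- The isomorphism with the short model `SW (s⁴c₄) (s⁶c₆)`. -/
noncomputable def toShort (hW : W.Δ ≠ 0) (hs : s ≠ 0) :
    W.Point ≃+ (SW (s ^ 4 * W.c₄) (s ^ 6 * W.c₆)).Point :=
  AddEquiv.ofBijective
    ({ toFun := toShortFun hW hs, map_zero' := rfl, map_add' := toShortFun_add hW hs } :
      W.Point →+ (SW (s ^ 4 * W.c₄) (s ^ 6 * W.c₆)).Point)
    (toShortFun_bijective hW hs)

lemma toShort_apply (hW : W.Δ ≠ 0) (hs : s ≠ 0) (P : W.Point) :
    toShort hW hs P = toShortFun hW hs P := rfl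

end ToShort

end Fermat.Agent.ThreeFive
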