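import Mathlib.Analysis.Calculus.InverseFunctionTheorem.FDeriv
import Mathlib.Analysis.Calculus.InverseFunctionTheorem.Analytic
import Mathlib.Analysis.Analytic.Polynomial
import Mathlib.Analysis.Analytic.IsolatedZeros
import Mathlib.Analysis.Calculus.MeanValue
import Mathlib.Analysis.Calculus.Deriv.MeanValue
import Mathlib.Analysis.Calculus.IteratedDeriv.Lemmas
import Mathlib.Analysis.Calculus.Deriv.Polynomial
import Mathlib.Combinatorics.HalesJewett
import Mathlib.Algebra.Group.ForwardDiff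
import Mathlib.Tactic.LinearCombination
import Mathlib.Tactic.FieldSimp
import Mathlib.Topology.Algebra.Polynomial
import Mathlib.Analysis.Calculus.Deriv.Inv
import Mathlib.Analysis.Calculus.Deriv.Comp
import Mathlib.Analysis.Calculus.Deriv.Pow

/-!
# Elementary irreducibility specialisation

If a monic-like quartic `3x⁴ + 6A(t)x² + 12B(t)x - A(t)²` has, for all large `k`, a root at
`t = M/(1+Nk)` which becomes integral after multiplication by `3(1+Nk)¹⁰`, then it has a
polynomial root of degree at most ten.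
-/

namespace Fermat.Agent.ThreeFive.Hilbert

open Filter Topology

open scoped fwdDiff

/-- The quartic. -/
def quartic (A B : Polynomial ℝ) (t x : ℝ) : ℝ :=
  3 * x ^ 4 + 6 * A.eval t * x ^ 2 + 12 * B.eval t * x - A.eval t ^ 2

lemma continuous_quartic (A B : Polynomial ℝ) :
    Continuous fun z : ℝ × ℝ => quartic A B z.1 z.2 := by
  simp only [quartic]; fun_prop

/-- An analytic branch through a simple root. -/
lemma exists_branch (A B : Polynomial ℝ) (α : ℝ) (h0 : quartic A B 0 α = 0)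
    (h1 : α ^ 3 + A.eval 0 * α + B.eval 0 ≠ 0) :
    ∃ φ : ℝ → ℝ, AnalyticAt ℝ φ 0 ∧ φ 0 = α ∧ (∀ᶠ t in 𝓝 (0 : ℝ), quartic A B t (φ t) = 0) ∧
      ∀ᶠ z in 𝓝 ((0 : ℝ), α), quartic A B z.1 z.2 = 0 → z.2 = φ z.1 := by
  set Φ : ℝ × ℝ → ℝ × ℝ := fun z => (z.1, quartic A B z.1 z.2) with hΦ
  have hA : ∀ (P : Polynomial ℝ) (z : ℝ × ℝ), AnalyticAt ℝ (fun z : ℝ × ℝ => P.eval z.1) z := by
    intro P z
    have := (analyticAt_fst (𝕜 := ℝ) (p := z)).aeval_polynomial P
    simpa [Polynomial.coe_aeval_eq_eval] using this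
  have hq : ∀ z, AnalyticAt ℝ (fun z : ℝ × ℝ => quartic A B z.1 z.2) z := by
    intro z
    simp only [quartic]
    have hs := analyticAt_snd (𝕜 := ℝ) (p := z)
    exact (((analyticAt_const.mul (hs.pow 4)).add ((analyticAt_const.mul (hA A z)).mul (hs.pow 2))).add
      ((analyticAt_const.mul (hA B z)).mul hs)).sub ((hA A z).pow 2)
  have hΦa : AnalyticAt ℝ Φ (0, α) := analyticAt_fst.prod (hq _)
  set L : ℝ × ℝ →L[ℝ] ℝ := fderiv ℝ (fun z : ℝ × ℝ => quartic A B z.1 z.2) (0, α) with hL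
  have hLq : HasStrictFDerivAt (fun z : ℝ × ℝ => quartic A B z.1 z.2) L (0, α) :=
    (hq _).hasStrictFDerivAt
  have hb : L (0, 1) = 12 * (α ^ 3 + A.eval 0 * α + B.eval 0) := by
    have hd1 : HasDerivAt (fun s : ℝ => ((0 : ℝ), s)) ((0 : ℝ), (1 : ℝ)) α :=
      (hasDerivAt_const α (0 : ℝ)).prodMk (hasDerivAt_id' α)
    have h2 := hLq.hasFDerivAt.comp_hasDerivAt α hd1
    have h3 : HasDerivAt (fun s : ℝ => quartic A B 0 s)
        (12 * (α ^ 3 + A.eval 0 * α + B.eval 0)) α := by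
      simp only [quartic]
      refine (((((hasDerivAt_pow 4 α).const_mul 3).add ((hasDerivAt_pow 2 α).const_mul
        (6 * A.eval 0))).add ((hasDerivAt_id' α).const_mul (12 * B.eval 0))).sub_const
        (A.eval 0 ^ 2)).congr_deriv ?_
      push_cast; ring
    exact h2.unique h3
  set b := L (0, 1) with hbdef
  have hb0 : b ≠ 0 := by rw [hb]; exact mul_ne_zero (by norm_num) h1
  set a := L (1, 0) with hadef
  have hLz : ∀ z : ℝ × ℝ, L z = a * z.1 + b * z.2 := by
    intro z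
    have : z = z.1 • ((1 : ℝ), (0 : ℝ)) + z.2 • ((0 : ℝ), (1 : ℝ)) := by simp
    conv_lhs => rw [this]
    rw [map_add, map_smul, map_smul, smul_eq_mul, smul_eq_mul, hadef, hbdef]
    ring
  let e : (ℝ × ℝ) ≃L[ℝ] ℝ × ℝ :=
    ContinuousLinearEquiv.equivOfInverse ((ContinuousLinearMap.fst ℝ ℝ ℝ).prod L)
      ((ContinuousLinearMap.fst ℝ ℝ ℝ).prod
        ((1 / b) • ContinuousLinearMap.snd ℝ ℝ ℝ - (a / b) • ContinuousLinearMap.fst ℝ ℝ ℝ))
      (fun z => by
        refine Prod.ext (by simp) ?_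
        simp [hLz]; field_simp; ring)
      (fun z => by
        refine Prod.ext (by simp) ?_
        simp [hLz]; field_simp; ring)
  have hΦd : HasStrictFDerivAt Φ (e : ℝ × ℝ →L[ℝ] ℝ × ℝ) (0, α) :=
    hasStrictFDerivAt_fst.prodMk hLq
  set R := hΦd.toOpenPartialHomeomorph Φ with hR
  have hsrc : ((0 : ℝ), α) ∈ R.source := hΦd.mem_toOpenPartialHomeomorph_source
  have hcoe : (R : ℝ × ℝ → ℝ × ℝ) = Φ := hΦd.toOpenPartialHomeomorph_coe
  have hΦ0 : Φ (0, α) = (0, 0) := by simp [hΦ, h0]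
  have hRs : AnalyticAt ℝ R.symm (0, 0) := by
    have := R.analyticAt_symm' (i := e) hsrc (by rw [hcoe]; exact hΦa)
      (by rw [hcoe]; exact hΦd.hasFDerivAt.fderiv)
    rwa [hcoe, hΦ0] at this
  set g : ℝ → ℝ × ℝ := fun t => (t, 0) with hg
  have hga : AnalyticAt ℝ g 0 := analyticAt_id.prod analyticAt_const
  refine ⟨fun t => (R.symm (g t)).2, ?_, ?_, ?_, ?_⟩
  · exact (analyticAt_snd).comp (AnalyticAt.comp hRs hga)
  · show (R.symm (0, 0)).2 = α
    rw [← hΦ0, ← hcoe, R.left_inv hsrc]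
  · have hmem : ∀ᶠ t in 𝓝 (0 : ℝ), g t ∈ R.target := by
      refine hga.continuousAt.eventually_mem (R.open_target.mem_nhds ?_)
      have := R.map_source hsrc
      rwa [hcoe, hΦ0] at this
    filter_upwards [hmem] with t ht
    have h2 := R.right_inv ht
    rw [hcoe] at h2
    have e1 : (R.symm (g t)).1 = t := congrArg Prod.fst h2
    have e2 : quartic A B (R.symm (g t)).1 (R.symm (g t)).2 = 0 := congrArg Prod.snd h2
    rwa [e1] at e2
  · filter_upwards [R.open_source.mem_nhds hsrc] with z hz hz0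
    show z.2 = (R.symm (z.1, 0)).2
    have : Φ z = (z.1, 0) := by simp [hΦ, hz0]
    rw [← this, ← hcoe, R.left_inv hz]

/-- All roots for small parameters lie on finitely many analytic branches. -/
lemma exists_branches (A B : Polynomial ℝ)
    (hsimple : ∀ α : ℝ, quartic A B 0 α = 0 → α ^ 3 + A.eval 0 * α + B.eval 0 ≠ 0) :
    ∃ (ι : Type) (_ : Finite ι) (φ : ι → ℝ → ℝ), (∀ i, AnalyticAt ℝ (φ i) 0) ∧
      (∀ i, ∀ᶠ t in 𝓝 (0 : ℝ), quartic A B t (φ i t) = 0) ∧
      ∀ᶠ t in 𝓝 (0 : ℝ), ∀ x, quartic A B t x = 0 → ∃ i, x = φ i t := by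
  classical
  set Z : Set ℝ := {α | quartic A B 0 α = 0} with hZ
  have hfin : Z.Finite := by
    set q : Polynomial ℝ := Polynomial.C 3 * Polynomial.X ^ 4
      + Polynomial.C (6 * A.eval 0) * Polynomial.X ^ 2
      + Polynomial.C (12 * B.eval 0) * Polynomial.X - Polynomial.C (A.eval 0 ^ 2) with hq
    have hq0 : q ≠ 0 := by
      intro e
      have := congrArg (fun p => Polynomial.coeff p 4) e
      simp only [hq, Polynomial.coeff_add, Polynomial.coeff_sub, Polynomial.coeff_C_mul, Polynomial.coeff_X_pow, Polynomial.coeff_X, Polynomial.coeff_C, Polynomial.coeff_zero] at this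
      norm_num at this
    refine Set.Finite.subset q.roots.toFinset.finite_toSet fun α hα => ?_
    rw [Finset.mem_coe, Multiset.mem_toFinset, Polynomial.mem_roots hq0]
    simpa [Polynomial.IsRoot, hq, quartic] using (show quartic A B 0 α = 0 from hα)
  choose φ hφ using fun i : Z => exists_branch A B i.1 i.2 (hsimple _ i.2)
  refine ⟨Z, hfin.to_subtype, φ, fun i => (hφ i).1, fun i => (hφ i).2.2.1, ?_⟩
  -- a bound for the roots
  obtain ⟨C, hC0, hC⟩ : ∃ C : ℝ, 0 < C ∧ ∀ᶠ t in 𝓝 (0 : ℝ),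
      |A.eval t| < C ∧ |B.eval t| < C := by
    refine ⟨|A.eval 0| + |B.eval 0| + 1, by positivity, ?_⟩
    refine Filter.Eventually.and ?_ ?_
    · exact A.continuous.abs.continuousAt.eventually_lt continuousAt_const
        (by linarith [abs_nonneg (B.eval 0)])
    · exact B.continuous.abs.continuousAt.eventually_lt continuousAt_const
        (by linarith [abs_nonneg (A.eval 0)])
  set R := 30 * C + 2 with hR
  have hbound : ∀ᶠ t in 𝓝 (0 : ℝ), ∀ x, quartic A B t x = 0 → x ∈ Set.Icc (-R) R := by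
    filter_upwards [hC] with t ⟨ha, hb⟩ x hx
    rw [Set.mem_Icc, ← abs_le]
    by_contra hlt
    push Not at hlt
    have h4 : 3 * |x| ^ 4 ≤ 6 * C * |x| ^ 2 + 12 * C * |x| + C ^ 2 := by
      have e : 3 * x ^ 4 = -(6 * A.eval t * x ^ 2) - 12 * B.eval t * x + A.eval t ^ 2 := by
        simp only [quartic] at hx; linarith
      have h5 : |3 * x ^ 4| ≤ 6 * |A.eval t| * |x| ^ 2 + 12 * |B.eval t| * |x| + |A.eval t| ^ 2 := by
        rw [e]
        refine (abs_add_le _ _).trans (add_le_add ((abs_sub _ _).trans (add_le_add ?_ ?_)) ?_)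
        · simp [abs_mul, abs_pow]
        · simp [abs_mul]
        · simp [abs_pow]
      rw [abs_mul, abs_pow, abs_of_pos (by norm_num : (0 : ℝ) < 3)] at h5
      refine h5.trans ?_
      gcongr
    have hx1 : R < |x| := hlt
    nlinarith [mul_le_mul_of_nonneg_left hx1.le (pow_nonneg (abs_nonneg x) 3),
      mul_le_mul_of_nonneg_left (show (1 : ℝ) ≤ |x| by nlinarith) (sq_nonneg |x|),
      pow_le_pow_left₀ hC0.le (show C ≤ |x| by nlinarith) 2,
      mul_le_mul_of_nonneg_left (show (1 : ℝ) ≤ |x| by nlinarith) (abs_nonneg x),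
      pow_pos (show (0 : ℝ) < |x| by nlinarith) 3]
  have hloc : ∀ᶠ t in 𝓝 (0 : ℝ), ∀ x ∈ Set.Icc (-R) R, quartic A B t x = 0 →
      ∃ i, x = φ i t := by
    refine IsCompact.eventually_forall_of_forall_eventually isCompact_Icc fun x _ => ?_
    by_cases hx : quartic A B 0 x = 0
    · filter_upwards [(hφ ⟨x, hx⟩).2.2.2] with z hz h0
      exact ⟨_, hz h0⟩
    · filter_upwards [(continuous_quartic A B).continuousAt.eventually_ne hx] with z hz h0
      exact absurd h0 hz
  filter_upwards [hbound, hloc] with t h h' x hx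
  exact h' x (h x hx) hx

/-- Differentiating `z · f`. -/
lemma iteratedDeriv_id_mul {f : ℝ → ℝ} {U : Set ℝ} (hU : IsOpen U)
    (hf : ∀ m : ℕ, DifferentiableOn ℝ (iteratedDeriv m f) U) (n : ℕ) :
    Set.EqOn (iteratedDeriv (n + 1) fun z => z * f z)
      (fun z => z * iteratedDeriv (n + 1) f z + (n + 1) * iteratedDeriv n f z) U := by
  induction n with
  | zero =>
    intro z hz
    have h := (hf 0).differentiableAt (hU.mem_nhds hz)
    rw [iteratedDeriv_zero] at h
    simp only [zero_add, iteratedDeriv_one, iteratedDeriv_zero, Nat.cast_zero, one_mul]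
    rw [((hasDerivAt_id' z).fun_mul h.hasDerivAt).deriv]
    ring
  | succ n ih =>
    intro z hz
    rw [iteratedDeriv_succ]
    rw [(Filter.eventuallyEq_of_mem (hU.mem_nhds hz) ih).deriv_eq]
    have h1 := ((hf (n + 1)).differentiableAt (hU.mem_nhds hz)).hasDerivAt
    have h0 := ((hf n).differentiableAt (hU.mem_nhds hz)).hasDerivAt
    rw [← iteratedDeriv_succ] at h0 h1
    rw [(((hasDerivAt_id' z).fun_mul h1).fun_add (h0.const_mul ((n : ℝ) + 1))).deriv]
    push_cast
    ring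

/-- Bol's identity. -/
lemma iteratedDeriv_bol {φ : ℝ → ℝ} {V U : Set ℝ} (hV : IsOpen V) (hU : IsOpen U)
    (hφ : AnalyticOnNhd ℝ φ V) (c : ℝ) (hUV : ∀ z ∈ U, z ≠ 0 ∧ c / z ∈ V) (n : ℕ) :
    Set.EqOn (iteratedDeriv (n + 1) fun z => z ^ n * φ (c / z))
      (fun z => (-c) ^ (n + 1) * iteratedDeriv (n + 1) φ (c / z) / z ^ (n + 2)) U := by
  have hq : ∀ z ∈ U, AnalyticAt ℝ (fun z : ℝ => c / z) z := fun z hz =>
    analyticAt_const.div analyticAt_id (hUV z hz).1
  induction n with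
  | zero =>
    intro z hz
    have h1 : HasDerivAt (fun z : ℝ => φ (c / z)) (deriv φ (c / z) * (-c / z ^ 2)) z := by
      refine ((hφ _ (hUV z hz).2).differentiableAt.hasDerivAt).comp z ?_
      have := (hasDerivAt_inv (hUV z hz).1).const_mul c
      simp only [← div_eq_mul_inv] at this
      exact this.congr_deriv (by rw [mul_neg, ← div_eq_mul_inv, neg_div])
    simp only [zero_add, iteratedDeriv_one, pow_zero, one_mul, pow_one]
    rw [h1.deriv]; ring
  | succ n ih =>
    intro z hz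
    have hF : AnalyticOnNhd ℝ (fun z => z ^ n * φ (c / z)) U := fun y hy =>
      (analyticAt_id.pow n).mul (AnalyticAt.comp (g := φ) (hφ _ (hUV y hy).2) (hq y hy))
    have e : (fun y : ℝ => y ^ (n + 1) * φ (c / y)) = fun y => y * (y ^ n * φ (c / y)) := by
      funext y; ring
    rw [e, iteratedDeriv_id_mul hU
      (fun m => by rw [iteratedDeriv_eq_iterate]; exact (hF.iterated_deriv m).differentiableOn)
      (n + 1) hz]
    have hz0 := (hUV z hz).1
    have hev : iteratedDeriv (n + 1) (fun z => z ^ n * φ (c / z)) =ᶠ[𝓝 z]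
        (fun z => (-c) ^ (n + 1) * iteratedDeriv (n + 1) φ (c / z) / z ^ (n + 2)) :=
      Filter.eventuallyEq_of_mem (hU.mem_nhds hz) ih
    show z * iteratedDeriv (n + 1 + 1) _ z + ((n + 1 : ℕ) + 1) * iteratedDeriv (n + 1) _ z = _
    rw [iteratedDeriv_succ, hev.deriv_eq, hev.eq_of_nhds]
    have hd : HasDerivAt (iteratedDeriv (n + 1) φ) (iteratedDeriv (n + 1 + 1) φ (c / z)) (c / z) := by
      rw [iteratedDeriv_succ (n := n + 1)]
      refine DifferentiableAt.hasDerivAt ?_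
      rw [iteratedDeriv_eq_iterate]
      exact ((hφ.iterated_deriv (n + 1)) _ (hUV z hz).2).differentiableAt
    have h1 : HasDerivAt (fun z : ℝ => c / z) (-c / z ^ 2) z := by
      have := (hasDerivAt_inv hz0).const_mul c
      simp only [← div_eq_mul_inv] at this
      exact this.congr_deriv (by rw [mul_neg, ← div_eq_mul_inv, neg_div])
    have h2 := (((hd.comp z h1).const_mul ((-c) ^ (n + 1))).fun_div (hasDerivAt_pow (n + 2) z)
      (pow_ne_zero _ hz0))
    simp only [Function.comp_apply] at h2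
    rw [h2.deriv]
    push_cast
    field_simp
    ring

/-- The mean value theorem for iterated forward differences. -/
lemma exists_fwdDiff_iter_eq (n : ℕ) (f : ℝ → ℝ) (R h x : ℝ)
    (hf : AnalyticOnNhd ℝ f (Set.Ioi R)) (hh : 0 < h) (hx : R < x) :
    ∃ ξ, x ≤ ξ ∧ Δ_[h] ^[n] f x = h ^ n * iteratedDeriv n f ξ := by
  induction n generalizing f x with
  | zero => exact ⟨x, le_rfl, by simp⟩
  | succ n ih =>
    have hfs : AnalyticOnNhd ℝ (fun z => f (z + h)) (Set.Ioi R) := fun z hz =>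
      AnalyticAt.comp (g := f) (hf _ (by simp only [Set.mem_Ioi] at hz ⊢; linarith))
        (analyticAt_id.add analyticAt_const)
    obtain ⟨η, hη, e⟩ := ih (Δ_[h] f) x (fun z hz => (hfs z hz).sub (hf z hz)) hx
    rw [Function.iterate_succ_apply, e]
    have hηR : R < η := lt_of_lt_of_le hx hη
    have e2 : iteratedDeriv n (Δ_[h] f) η = iteratedDeriv n f (η + h) - iteratedDeriv n f η := by
      show iteratedDeriv n (fun z => f (z + h) - f z) η = _
      rw [iteratedDeriv_fun_sub ((hfs η hηR).contDiffAt) ((hf η hηR).contDiffAt),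
        iteratedDeriv_comp_add_const]
    have hA := hf.iterated_deriv n
    rw [← iteratedDeriv_eq_iterate] at hA
    obtain ⟨ξ, ⟨hξ1, -⟩, hξ⟩ := exists_deriv_eq_slope (iteratedDeriv n f)
      (show η < η + h by linarith)
      (fun z hz => (hA z (by simp only [Set.mem_Icc, Set.mem_Ioi] at hz ⊢; linarith)).continuousAt.continuousWithinAt)
      (fun z hz => (hA z (by simp only [Set.mem_Ioo, Set.mem_Ioi] at hz ⊢; linarith)).differentiableAt.differentiableWithinAt)
    refine ⟨ξ, le_trans hη hξ1.le, ?_⟩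
    rw [e2, iteratedDeriv_succ, hξ, add_sub_cancel_left]
    field_simp
    ring

/-- A function with vanishing `n`-th derivative on an interval is a polynomial there. -/
lemma exists_poly_of_iteratedDeriv_eq_zero (n : ℕ) (f : ℝ → ℝ) (δ : ℝ) (hδ : 0 < δ)
    (hf : AnalyticOnNhd ℝ f (Set.Ioo (-δ) δ))
    (h : ∀ t ∈ Set.Ioo (-δ) δ, iteratedDeriv (n + 1) f t = 0) :
    ∃ p : Polynomial ℝ, p.natDegree ≤ n ∧ ∀ t ∈ Set.Ioo (-δ) δ, f t = p.eval t := by
  induction n generalizing f with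
  | zero =>
    refine ⟨Polynomial.C (f 0), by simp, fun t ht => ?_⟩
    rw [Polynomial.eval_C]
    refine isOpen_Ioo.is_const_of_deriv_eq_zero isPreconnected_Ioo hf.differentiableOn
      (fun s hs => ?_) ht ⟨by linarith, hδ⟩
    simpa using h s hs
  | succ n ih =>
    obtain ⟨q, hq, hq'⟩ := ih (deriv f) hf.deriv (fun t ht => by
      rw [← h t ht, iteratedDeriv_succ' (n := n + 1)])
    set P : Polynomial ℝ := ∑ i ∈ Finset.range (n + 1),
      Polynomial.C (q.coeff i / (i + 1)) * Polynomial.X ^ (i + 1) with hP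
    have hPd : ∀ t, P.derivative.eval t = q.eval t := by
      intro t
      conv_rhs => rw [Polynomial.eval_eq_sum_range' (show q.natDegree < n + 1 by omega)]
      rw [hP, map_sum, Polynomial.eval_finsetSum]
      refine Finset.sum_congr rfl fun i _ => ?_
      simp only [Polynomial.derivative_C_mul, Polynomial.derivative_X_pow, Polynomial.eval_mul,
        Polynomial.eval_C, Polynomial.eval_pow, Polynomial.eval_X]
      push_cast
      field_simp
    refine ⟨P + Polynomial.C (f 0 - P.eval 0), ?_, fun t ht => ?_⟩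
    · rw [Polynomial.natDegree_add_C, hP]
      refine Polynomial.natDegree_sum_le_of_forall_le _ _ fun i hi => ?_
      refine (Polynomial.natDegree_C_mul_le _ _).trans ?_
      rw [Polynomial.natDegree_X_pow]
      simp only [Finset.mem_range] at hi; omega
    · have hd : ∀ s ∈ Set.Ioo (-δ) δ, HasDerivAt (fun s => f s - P.eval s) 0 s := fun s hs => by
        refine ((hf s hs).differentiableAt.hasDerivAt.sub (P.hasDerivAt s)).congr_deriv ?_
        rw [hq' s hs, hPd, sub_self]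
      have := isOpen_Ioo.is_const_of_deriv_eq_zero isPreconnected_Ioo
        (fun s hs => (hd s hs).differentiableAt.differentiableWithinAt)
        (fun s hs => (hd s hs).deriv) ht (show (0 : ℝ) ∈ _ from ⟨by linarith, hδ⟩)
      rw [Polynomial.eval_add, Polynomial.eval_C]
      linarith

/-- A branch with non-vanishing eleventh derivative on a punctured neighbourhood. -/
lemma eventually_iteratedDeriv_ne_zero (A B : Polynomial ℝ)
    (hno : ∀ p : Polynomial ℝ, p.natDegree ≤ 10 →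
      3 * p ^ 4 + 6 * A * p ^ 2 + 12 * B * p - A ^ 2 ≠ 0)
    {φ : ℝ → ℝ} (hφ : AnalyticAt ℝ φ 0) (hroot : ∀ᶠ t in 𝓝 (0 : ℝ), quartic A B t (φ t) = 0) :
    ∀ᶠ t in 𝓝[≠] (0 : ℝ), iteratedDeriv 11 φ t ≠ 0 := by
  rcases (hφ.iterated_deriv 11).eventually_eq_zero_or_eventually_ne_zero with h | h
  · exfalso
    obtain ⟨δ, hδ, hball⟩ := Metric.eventually_nhds_iff.1
      (h.and (hφ.eventually_analyticAt.and hroot))
    have hmem : ∀ t ∈ Set.Ioo (-δ) δ, dist t 0 < δ := fun t ht => by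
      rw [Real.dist_eq, sub_zero, abs_lt]; exact ht
    obtain ⟨p, hp, hpe⟩ := exists_poly_of_iteratedDeriv_eq_zero 10 φ δ hδ
      (fun t ht => (hball (hmem t ht)).2.1)
      (fun t ht => by rw [iteratedDeriv_eq_iterate]; exact (hball (hmem t ht)).1)
    refine hno p hp (Polynomial.eq_zero_of_infinite_isRoot _
      ((Set.Ioo_infinite (show -δ < δ by linarith)).mono fun t ht => ?_))
    have := (hball (hmem t ht)).2.2
    rw [hpe t ht, quartic] at this
    simpa [Polynomial.IsRoot] using this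
  · rw [iteratedDeriv_eq_iterate]; exact h

/-- Main statement. -/
theorem exists_no_root (A B : Polynomial ℝ)
    (hsimple : ∀ α : ℝ, quartic A B 0 α = 0 → α ^ 3 + A.eval 0 * α + B.eval 0 ≠ 0)
    (hno : ∀ p : Polynomial ℝ, p.natDegree ≤ 10 →
      3 * p ^ 4 + 6 * A * p ^ 2 + 12 * B * p - A ^ 2 ≠ 0)
    (M N : ℝ) (hM : 0 < M) (hN : 0 < N) :
    ∃ k : ℕ, ∀ x : ℝ, quartic A B (M / (1 + N * k)) x = 0 →
      ∀ z : ℤ, 3 * (1 + N * (k : ℝ)) ^ 10 * x ≠ z := by
  by_contra hcon
  push Not at hcon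
  choose X hX Z hZ using hcon
  obtain ⟨ι, hι, φ, hφ, hroot, hcover⟩ := exists_branches A B hsimple
  -- a common neighbourhood
  have hall : ∀ᶠ t in 𝓝[>] (0 : ℝ),
      (∀ x, quartic A B t x = 0 → ∃ i, x = φ i t) ∧
      ∀ i, AnalyticAt ℝ (φ i) t ∧ iteratedDeriv 11 (φ i) t ≠ 0 ∧
        |iteratedDeriv 11 (φ i) t| ≤ |iteratedDeriv 11 (φ i) 0| + 1 := by
    refine (hcover.filter_mono nhdsWithin_le_nhds).and (eventually_all.2 fun i => ?_)
    refine ((hφ i).eventually_analyticAt.filter_mono nhdsWithin_le_nhds).and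
      (((eventually_iteratedDeriv_ne_zero A B hno (hφ i) (hroot i)).filter_mono
        (nhdsWithin_mono 0 fun t ht => ne_of_gt ht)).and ?_)
    have hc : ContinuousAt (fun t => |iteratedDeriv 11 (φ i) t|) 0 := by
      rw [iteratedDeriv_eq_iterate]
      exact ((hφ i).iterated_deriv 11).continuousAt.abs
    exact (hc.eventually_le_const (lt_add_one _)).filter_mono nhdsWithin_le_nhds
  obtain ⟨δ, hδ, hball⟩ := Metric.eventually_nhds_iff.1 (eventually_nhdsWithin_iff.1 hall)
  set R := M / δ with hR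
  have hR0 : 0 < R := div_pos hM hδ
  have hsmall : ∀ u : ℝ, R < u → 0 < M / u ∧ dist (M / u) 0 < δ := by
    intro u hu
    have hu0 : 0 < u := hR0.trans hu
    refine ⟨div_pos hM hu0, ?_⟩
    rw [Real.dist_eq, sub_zero, abs_of_pos (div_pos hM hu0), div_lt_iff₀ hu0]
    rw [hR, div_lt_iff₀ hδ] at hu
    linarith
  obtain ⟨C, hC⟩ : ∃ C, ∀ i, |iteratedDeriv 11 (φ i) 0| + 1 ≤ C :=
    ⟨_, fun i => le_ciSup (f := fun i => |iteratedDeriv 11 (φ i) 0| + 1)
      (Set.finite_range _).bddAbove i⟩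
  obtain ⟨κ, hκ, hHJ⟩ := Combinatorics.Line.exists_mono_in_high_dimension (Fin 12) ι
  set Bnd : ℝ := (N * Fintype.card κ) ^ 11 * 3 * M ^ 11 * C + 1 with hBnd
  obtain ⟨K, hK⟩ : ∃ K : ℕ, R < 1 + N * K ∧ Bnd < 1 + N * K ∧ 1 ≤ 1 + N * (K : ℝ) := by
    obtain ⟨K, hK⟩ := exists_nat_gt ((max R Bnd) / N)
    refine ⟨K, ?_, ?_, by nlinarith [K.cast_nonneg (α := ℝ)]⟩ <;>
    · rw [div_lt_iff₀ hN] at hK
      nlinarith [le_max_left R Bnd, le_max_right R Bnd]
  have hu : ∀ k : ℕ, K ≤ k → R < 1 + N * (k : ℝ) := fun k hk => by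
    have : (K : ℝ) ≤ k := by exact_mod_cast hk
    nlinarith [hK.1]
  have hcol : ∀ k : ℕ, K ≤ k → ∃ i, X k = φ i (M / (1 + N * k)) := fun k hk =>
    (hball (hsmall _ (hu k hk)).2 (hsmall _ (hu k hk)).1).1 _ (hX k)
  obtain ⟨i0, -⟩ := hcol K le_rfl
  obtain ⟨l, i, hl⟩ := hHJ fun v =>
    if hk : K ≤ K + ∑ j, (v j : ℕ) then (hcol _ hk).choose else i0
  classical
  set s : Finset κ := {j | l.idxFun j = none} with hs
  set b : ℕ := ∑ j ∈ sᶜ, (((l.idxFun j).getD 0 : Fin 12) : ℕ) with hb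
  set d : ℕ := s.card with hd
  have hdpos : 0 < d := Finset.card_pos.2 ⟨l.proper.choose, by simp [hs, l.proper.choose_spec]⟩
  have hsum : ∀ m : Fin 12, ∑ j, (l m j : ℕ) = b + d * m := by
    intro m
    rw [← Finset.sum_compl_add_sum s, hb, hd]
    congr 1
    · refine Finset.sum_congr rfl fun j hj => ?_
      simp only [hs, Finset.mem_compl, Finset.mem_filter, Finset.mem_univ, true_and] at hj
      obtain ⟨v, hv⟩ := Option.ne_none_iff_exists'.1 hj
      simp [hv]
    · rw [Finset.sum_congr rfl fun j hj => ?_, Finset.sum_const, smul_eq_mul]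
      simp only [hs, Finset.mem_filter] at hj
      simp [hj.2]
  set G : ℝ → ℝ := fun u => 3 * (u ^ 10 * φ i (M / u)) with hG
  set x0 : ℝ := 1 + N * ((K + b : ℕ) : ℝ) with hx0
  set h : ℝ := N * d with hh
  have hint : ∀ m : Fin 12, ∃ n : ℤ, G (x0 + (m : ℕ) • h) = n := by
    intro m
    have e := hl m
    simp only [dif_pos (Nat.le_add_right K _)] at e
    have hsp := (hcol (K + ∑ j, (l m j : ℕ)) (Nat.le_add_right _ _)).choose_spec
    rw [e, hsum] at hsp
    refine ⟨Z (K + (b + d * m)), ?_⟩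
    have hu' : x0 + (m : ℕ) • h = 1 + N * ((K + (b + d * m) : ℕ) : ℝ) := by
      rw [hx0, hh, nsmul_eq_mul]; push_cast; ring
    rw [hu', hG]
    simp only
    rw [← hsp, ← hZ]
    ring
  set U : Set ℝ := Set.Ioi R with hU
  set V : Set ℝ := {t | AnalyticAt ℝ (φ i) t} with hV
  have hVo : IsOpen V := isOpen_analyticAt ℝ (φ i)
  have hUV : ∀ z ∈ U, z ≠ 0 ∧ M / z ∈ V := fun z hz =>
    ⟨(hR0.trans hz).ne', ((hball (hsmall z hz).2 (hsmall z hz).1).2 i).1⟩
  have hGa : AnalyticOnNhd ℝ G U := fun z hz =>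
    analyticAt_const.mul ((analyticAt_id.pow 10).mul
      (AnalyticAt.comp (g := φ i) (hUV z hz).2 (analyticAt_const.div analyticAt_id (hUV z hz).1)))
  have hxR : R < x0 := hu _ (Nat.le_add_right _ _)
  have hhpos : 0 < h := mul_pos hN (by exact_mod_cast hdpos)
  obtain ⟨ξ, hξ, hdiff⟩ := exists_fwdDiff_iter_eq 11 G R h x0 hGa hhpos hxR
  have hξR : R < ξ := hxR.trans_le hξ
  have hval : iteratedDeriv 11 G ξ =
      3 * ((-M) ^ 11 * iteratedDeriv 11 (φ i) (M / ξ) / ξ ^ 12) := by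
    have hbol := iteratedDeriv_bol (φ := φ i) hVo isOpen_Ioi (fun t ht => ht) M hUV 10 hξR
    rw [hG, iteratedDeriv_const_mul_field]
    exact congrArg (3 * ·) hbol
  have hsumint : ∃ n : ℤ, Δ_[h] ^[11] G x0 = n := by
    choose n hn using hint
    refine ⟨∑ k : Fin 12, ((-1) ^ (11 - (k : ℕ)) * (11 : ℕ).choose k) * n k, ?_⟩
    rw [fwdDiff_iter_eq_sum_shift, Finset.sum_range (f := fun k => _ • G (x0 + k • h))]
    push_cast
    refine Finset.sum_congr rfl fun k _ => ?_
    rw [hn k, zsmul_eq_mul]; push_cast; ring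
  obtain ⟨n, hn⟩ := hsumint
  obtain ⟨hne, hle⟩ := ((hball (hsmall ξ hξR).2 (hsmall ξ hξR).1).2 i).2
  have hξ0 : 0 < ξ := hR0.trans hξR
  have hn0 : n ≠ 0 := by
    intro e
    rw [hdiff, hval, e] at hn
    simp [hne, hM.ne', hξ0.ne', hhpos.ne'] at hn
  have hn1 : (1 : ℝ) ≤ |(n : ℝ)| := by exact_mod_cast Int.one_le_abs hn0
  have hdle : (d : ℝ) ≤ Fintype.card κ := by exact_mod_cast s.card_le_univ
  have hxK : (1 : ℝ) + N * K ≤ x0 := by
    rw [hx0]; push_cast; nlinarith [b.cast_nonneg (α := ℝ)]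
  have hξK : 1 + N * (K : ℝ) ≤ ξ := hxK.trans hξ
  have hbound : |(n : ℝ)| ≤ (N * Fintype.card κ) ^ 11 * 3 * M ^ 11 * C / ξ ^ 12 := by
    rw [← hn, hdiff, hval, abs_mul, abs_mul, abs_div, abs_mul, abs_pow, abs_pow, abs_pow,
      abs_neg, abs_of_pos hM, abs_of_pos hξ0, abs_of_pos hhpos, abs_of_pos (by norm_num : (0:ℝ) < 3),
      ← mul_div_assoc, ← mul_div_assoc, hh]
    have hC' := hle.trans (hC i)
    have hC0 : (0 : ℝ) ≤ C := (abs_nonneg _).trans hC'
    refine div_le_div_of_nonneg_right ?_ (by positivity)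
    calc (N * d) ^ 11 * (3 * (M ^ 11 * |iteratedDeriv 11 (φ i) (M / ξ)|))
        ≤ (N * Fintype.card κ) ^ 11 * (3 * (M ^ 11 * C)) := by gcongr
      _ = _ := by ring
  have hξ12 : Bnd < ξ ^ 12 := lt_of_lt_of_le hK.2.1
    (hξK.trans (le_self_pow₀ (hK.2.2.trans hξK) (by norm_num)))
  have hlt : (N * Fintype.card κ) ^ 11 * 3 * M ^ 11 * C / ξ ^ 12 < 1 := by
    rw [div_lt_one (by positivity)]
    rw [hBnd] at hξ12
    linarith
  linarith

end Fermat.Agent.ThreeFive.Hilbert
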