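import Fermat.Agent.ThreeFive.Forms
import Mathlib.Analysis.Complex.Polynomial.Basic
import Mathlib.FieldTheory.IsAlgClosed.Basic
import Mathlib.Algebra.Polynomial.Reverse
import Mathlib.Tactic.FieldSimp
import Mathlib.Tactic.LinearCombination

/-!
# The family of curves with a given mod five representation (invariants)

For rational `c₄, c₆` this defines polynomials `F4, F6, FD` with
`F4³ - F6² = (c₄³ - c₆²) FD⁵` and their basic properties.
-/

namespace Fermat.Agent.ThreeFive

open Polynomial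

section Field

variable {K : Type*} [Field K] [CharZero K]

lemma eq_zero_of_Hf_ff {a b : K} (h : Hf a b = 0) (h' : ff a b = 0) : a = 0 ∧ b = 0 := by
  simp only [ff, mul_eq_zero] at h'
  rcases h' with (rfl | rfl) | hg
  · simpa [Hf] using h
  · simpa [Hf] using h
  · have h1 : (3125 : K) * ((b ^ 5) ^ 3 * (11 * a ^ 5 + b ^ 5)) = 0 := by
      have e : Hf a b - (a ^ 10 + 239 * a ^ 5 * b ^ 5 + 3124 * b ^ 10) * (a ^ 10 - 11 * a ^ 5 * b ^ 5 - b ^ 10)
          = 34375 * a ^ 5 * b ^ 15 + 3125 * b ^ 20 := by simp only [Hf]; ring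
      rw [h, hg] at e
      linear_combination -e
    simp only [mul_eq_zero, pow_eq_zero_iff, ne_eq, OfNat.ofNat_ne_zero, not_false_eq_true,
      false_or] at h1
    have hb : b = 0 := by
      rcases h1 with rfl | h1
      · rfl
      · have : (121 : K) * (a ^ 10 - 11 * a ^ 5 * b ^ 5 - b ^ 10) = (b ^ 5) ^ 2 := by
          linear_combination (11 * a ^ 5 - 122 * b ^ 5) * h1
        rw [hg, mul_zero] at this
        simpa using this.symm
    subst hb
    simp at hg
    exact ⟨hg, rfl⟩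

omit [CharZero K] in
lemma ff_ne_zero_of_ne {a b c4 c6 : K} (hH : Hf a b = c4) (hT : Tf a b = c6)
    (h : c4 ^ 3 ≠ c6 ^ 2) : ff a b ≠ 0 := by
  intro hf
  apply h
  have := Hf_cube_sub_Tf_sq a b
  rw [hH, hT, hf] at this
  linear_combination this

lemma lineA_lineB_not_both {a b t : K} (hf : ff a b ≠ 0)
    (ha : a + t * w0 a b = 0) (hb : b + t * w1 a b = 0) : False := by
  apply hf
  have : (-12 : K) * ff a b = 0 := by
    rw [← det_w]; linear_combination w1 a b * ha - w0 a b * hb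
  simpa using this

variable [IsAlgClosed K]

/-- Every nonsingular pair of invariants is attained by Klein's forms. -/
theorem exists_point {c4 c6 : K} (h : c4 ^ 3 ≠ c6 ^ 2) :
    ∃ a b : K, Hf a b = c4 ∧ Tf a b = c6 := by
  have hd : c4 ^ 3 - c6 ^ 2 ≠ 0 := sub_ne_zero.2 h
  obtain ⟨z, hz⟩ : ∃ z : K, (c4 ^ 3 - c6 ^ 2) * Hf z 1 ^ 3 - 1728 * c4 ^ 3 * ff z 1 ^ 5 = 0 := by
    set p : K[X] := C (c4 ^ 3 - c6 ^ 2) * Hf X 1 ^ 3 - C (1728 * c4 ^ 3) * ff X 1 ^ 5 with hp
    have h60 : p.natDegree = 60 := by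
      have h1 : (Hf (X : K[X]) 1).natDegree = 20 := by
        simp only [Hf]; simp; compute_degree!
      have h2 : (ff (X : K[X]) 1).natDegree ≤ 11 := by
        simp only [ff]; simp; compute_degree!
      have h1' : (Hf (X : K[X]) 1 ^ 3).natDegree = 60 := by rw [natDegree_pow, h1]
      have h3 : (C (1728 * c4 ^ 3) * ff (X : K[X]) 1 ^ 5).natDegree ≤ 55 :=
        (natDegree_C_mul_le _ _).trans (natDegree_pow_le.trans (by omega))
      have h4 : (C (c4 ^ 3 - c6 ^ 2) * Hf (X : K[X]) 1 ^ 3).natDegree = 60 := by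
        rw [natDegree_C_mul hd, h1']
      rw [hp, natDegree_sub_eq_left_of_natDegree_lt (by omega), h4]
    obtain ⟨z, hz⟩ := IsAlgClosed.exists_root p (by
      intro h0; have := natDegree_eq_zero_iff_degree_le_zero.2 h0.le; omega)
    refine ⟨z, ?_⟩
    have := hz
    simpa [hp, IsRoot, Hf, ff] using this
  have hf : ff z 1 ≠ 0 := fun hf => by
    rw [hf] at hz
    have : Hf z 1 = 0 := by simpa [hd] using hz
    simpa using (eq_zero_of_Hf_ff this hf).2
  have hT := Hf_cube_sub_Tf_sq z 1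
  have eH : (c4 ^ 3 - c6 ^ 2) * Hf z 1 ^ 3 = 1728 * c4 ^ 3 * ff z 1 ^ 5 := sub_eq_zero.1 hz
  have eT : (c4 ^ 3 - c6 ^ 2) * Tf z 1 ^ 2 = 1728 * c6 ^ 2 * ff z 1 ^ 5 := by
    linear_combination eH - (c4 ^ 3 - c6 ^ 2) * hT
  obtain ⟨ν, hν4, hν6⟩ : ∃ ν : K, ν ^ 2 * Hf z 1 = c4 ∧ ν ^ 3 * Tf z 1 = c6 := by
    by_cases h4 : c4 = 0
    · have h6 : c6 ≠ 0 := by rintro rfl; simp [h4] at h
      have hH : Hf z 1 = 0 := by simpa [h4, h6] using eH
      have hT0 : Tf z 1 ≠ 0 := by intro e; simp [e, h6, hf] at eT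
      obtain ⟨ν, hν⟩ := IsAlgClosed.exists_pow_nat_eq (c6 / Tf z 1) (show 0 < 3 by norm_num)
      exact ⟨ν, by simp [hH, h4], by rw [hν, div_mul_cancel₀ _ hT0]⟩
    · have hH : Hf z 1 ≠ 0 := by intro e; simp [e, h4, hf] at eH
      by_cases h6 : c6 = 0
      · have hT0 : Tf z 1 = 0 := by simpa [h6, h4] using eT
        obtain ⟨ν, hν⟩ := IsAlgClosed.exists_pow_nat_eq (c4 / Hf z 1) (show 0 < 2 by norm_num)
        exact ⟨ν, by rw [hν, div_mul_cancel₀ _ hH], by simp [hT0, h6]⟩
      · have hT0 : Tf z 1 ≠ 0 := by intro e; simp [e, h6, hf] at eT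
        refine ⟨c6 * Hf z 1 / (c4 * Tf z 1), ?_, ?_⟩
        · field_simp
          refine mul_left_cancel₀ hd ?_
          linear_combination c6 ^ 2 * eH - c4 ^ 3 * eT
        · field_simp
          refine mul_left_cancel₀ hd ?_
          linear_combination c6 ^ 2 * eH - c4 ^ 3 * eT
  obtain ⟨μ, hμ⟩ := IsAlgClosed.exists_pow_nat_eq ν (show 0 < 10 by norm_num)
  refine ⟨μ * z, μ, ?_, ?_⟩
  · rw [← hν4, ← hμ]; simp only [Hf]; ring
  · rw [← hν6, ← hμ]; simp only [Tf]; ring

end Field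

section Family

/-- Universal pencil polynomials. -/
noncomputable def pencilPolys : Polynomial (MvPolynomial (Fin 2) ℚ) ×
    Polynomial (MvPolynomial (Fin 2) ℚ) × Polynomial (MvPolynomial (Fin 2) ℚ) :=
  (exists_pencil.choose, exists_pencil.choose_spec.choose,
    exists_pencil.choose_spec.choose_spec.choose)

variable (c4 c6 : ℚ)

/-- `c₄` of the family. -/
noncomputable def F4 : ℚ[X] :=
  pencilPolys.1.map (MvPolynomial.aeval (R := ℚ) ![c4, c6]).toRingHom

/-- `c₆` of the family. -/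
noncomputable def F6 : ℚ[X] :=
  pencilPolys.2.1.map (MvPolynomial.aeval (R := ℚ) ![c4, c6]).toRingHom

/-- The cuspidal polynomial of the family (a fifth root of the discriminant ratio). -/
noncomputable def FD : ℚ[X] :=
  pencilPolys.2.2.map (MvPolynomial.aeval (R := ℚ) ![c4, c6]).toRingHom

lemma natDegree_F4_le : (F4 c4 c6).natDegree ≤ 20 :=
  natDegree_map_le.trans exists_pencil.choose_spec.choose_spec.choose_spec.1

lemma natDegree_F6_le : (F6 c4 c6).natDegree ≤ 30 :=
  natDegree_map_le.trans exists_pencil.choose_spec.choose_spec.choose_spec.2.1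

lemma natDegree_FD_le : (FD c4 c6).natDegree ≤ 12 :=
  natDegree_map_le.trans exists_pencil.choose_spec.choose_spec.choose_spec.2.2.1

variable {c4 c6} {K : Type} [CommRing K] [Algebra ℚ K]

/-- The family along the pencil. -/
lemma pencil_spec {a b : K} (hH : Hf a b = algebraMap ℚ K c4) (hT : Tf a b = algebraMap ℚ K c6) :
    Hf (lineA a b) (lineB a b) = (F4 c4 c6).map (algebraMap ℚ K) ∧
    Tf (lineA a b) (lineB a b) = (F6 c4 c6).map (algebraMap ℚ K) ∧
    ff (lineA a b) (lineB a b) = C (ff a b) * (FD c4 c6).map (algebraMap ℚ K) := by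
  have hc : (algebraMap ℚ K).comp (MvPolynomial.aeval (R := ℚ) ![c4, c6]).toRingHom =
      (MvPolynomial.aeval (R := ℚ) ![Hf a b, Tf a b]).toRingHom := by
    refine MvPolynomial.ringHom_ext (fun r => by simp) (fun i => ?_)
    fin_cases i <;> simp [hH, hT]
  simp only [F4, F6, FD, Polynomial.map_map, hc]
  exact exists_pencil.choose_spec.choose_spec.choose_spec.2.2.2 K a b

end Family

section Properties

variable {c4 c6 : ℚ} (h : c4 ^ 3 ≠ c6 ^ 2)

include h in
lemma exists_complex_point : ∃ a b : ℂ,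
    Hf a b = algebraMap ℚ ℂ c4 ∧ Tf a b = algebraMap ℚ ℂ c6 ∧ ff a b ≠ 0 := by
  have h' : (algebraMap ℚ ℂ c4) ^ 3 ≠ (algebraMap ℚ ℂ c6) ^ 2 := by
    rw [← map_pow, ← map_pow]; exact fun e => h ((algebraMap ℚ ℂ).injective e)
  obtain ⟨a, b, hH, hT⟩ := exists_point h'
  exact ⟨a, b, hH, hT, ff_ne_zero_of_ne hH hT h'⟩

include h

lemma F4_eval_zero : (F4 c4 c6).eval 0 = c4 := by
  obtain ⟨a, b, hH, hT, -⟩ := exists_complex_point h
  have := congrArg (Polynomial.eval 0) (pencil_spec hH hT).1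
  rw [← coe_evalRingHom, map_Hf, coe_evalRingHom, eval_lineA, eval_lineB] at this
  simp only [zero_mul, add_zero, hH, eval_map, eval₂_at_zero] at this
  rw [← coeff_zero_eq_eval_zero]
  exact (algebraMap ℚ ℂ).injective this.symm

lemma F6_eval_zero : (F6 c4 c6).eval 0 = c6 := by
  obtain ⟨a, b, hH, hT, -⟩ := exists_complex_point h
  have := congrArg (Polynomial.eval 0) (pencil_spec hH hT).2.1
  rw [← coe_evalRingHom, map_Tf, coe_evalRingHom, eval_lineA, eval_lineB] at this
  simp only [zero_mul, add_zero, hT, eval_map, eval₂_at_zero] at this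
  rw [← coeff_zero_eq_eval_zero]
  exact (algebraMap ℚ ℂ).injective this.symm

lemma FD_eval_zero : (FD c4 c6).eval 0 = 1 := by
  obtain ⟨a, b, hH, hT, hf⟩ := exists_complex_point h
  have := congrArg (Polynomial.eval 0) (pencil_spec hH hT).2.2
  rw [← coe_evalRingHom, map_ff, coe_evalRingHom, eval_lineA, eval_lineB] at this
  simp only [zero_mul, add_zero, eval_mul, eval_C, eval_map, eval₂_at_zero] at this
  rw [← coeff_zero_eq_eval_zero]
  refine (algebraMap ℚ ℂ).injective ?_
  rw [map_one]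
  exact mul_left_cancel₀ hf (by rw [mul_one]; exact this.symm)

lemma F_disc : F4 c4 c6 ^ 3 - F6 c4 c6 ^ 2 = C (c4 ^ 3 - c6 ^ 2) * FD c4 c6 ^ 5 := by
  obtain ⟨a, b, hH, hT, hf⟩ := exists_complex_point h
  obtain ⟨e4, e6, eD⟩ := pencil_spec hH hT
  apply Polynomial.map_injective (algebraMap ℚ ℂ) (algebraMap ℚ ℂ).injective
  simp only [Polynomial.map_sub, Polynomial.map_mul, Polynomial.map_pow, Polynomial.map_C, ← e4,
    ← e6, Hf_cube_sub_Tf_sq, eD, map_sub, map_pow, ← hH, ← hT]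
  have : (1728 : ℂ) * ff a b ^ 5 = Hf a b ^ 3 - Tf a b ^ 2 := (Hf_cube_sub_Tf_sq a b).symm
  rw [← C_pow, ← C_pow, ← C_sub, ← this, C_mul, C_pow, map_ofNat]
  ring

/-- `F4` and `FD` have no common root. -/
lemma F4_FD_coprime : IsCoprime (F4 c4 c6) (FD c4 c6) := by
  obtain ⟨a, b, hH, hT, hf⟩ := exists_complex_point h
  obtain ⟨e4, -, eD⟩ := pencil_spec hH hT
  refine (Polynomial.isCoprime_iff_aeval_ne_zero_of_isAlgClosed ℚ ℂ _ _).2 fun t => ?_
  by_contra hc
  simp only [not_or, not_not, aeval_def, ← eval_map, ← e4] at hc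
  obtain ⟨h4, hD⟩ := hc
  have hD' : ff (a + t * w0 a b) (b + t * w1 a b) = 0 := by
    have := congrArg (Polynomial.eval t) eD
    rw [← coe_evalRingHom, map_ff, coe_evalRingHom, eval_lineA, eval_lineB] at this
    simpa [hD] using this
  rw [← coe_evalRingHom, map_Hf, coe_evalRingHom, eval_lineA, eval_lineB] at h4
  obtain ⟨ha, hb⟩ := eq_zero_of_Hf_ff h4 hD'
  exact lineA_lineB_not_both hf ha hb

/-- The family has no common zero at infinity. -/
lemma leading_not_both_zero : (F4 c4 c6).coeff 20 ≠ 0 ∨ (FD c4 c6).coeff 12 ≠ 0 := by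
  obtain ⟨a, b, hH, hT, hf⟩ := exists_complex_point h
  obtain ⟨e4, -, eD⟩ := pencil_spec hH hT
  have key : ∀ (p : ℂ[X]) (N : ℕ) (g : ℂ[X]), p.natDegree ≤ N →
      (∀ x : ℂ, x ≠ 0 → g.eval x = x ^ N * p.eval x⁻¹) → g.eval 0 = p.coeff N := by
    intro p N g hp hg
    have he : g = p.reflect N := by
      apply Polynomial.eq_of_infinite_eval_eq
      refine Set.Infinite.mono ?_ (Set.Finite.infinite_compl (Set.finite_singleton (0 : ℂ)))
      intro x hx
      simp only [Set.mem_compl_iff, Set.mem_singleton_iff] at hx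
      let := invertibleOfNonzero (inv_ne_zero hx)
      have := Polynomial.eval₂_reflect_mul_pow (RingHom.id ℂ) (x⁻¹) N p hp
      simp only [eval₂_id, invOf_eq_inv, inv_inv] at this
      simp only [Set.mem_ofPred_eq, hg x hx, ← this]
      rw [mul_comm, mul_assoc, ← mul_pow, inv_mul_cancel₀ hx, one_pow, mul_one]
    rw [he, ← coeff_zero_eq_eval_zero, coeff_reflect, Polynomial.revAt_le (Nat.zero_le N),
      Nat.sub_zero]
  by_contra hc
  push Not at hc
  have hH0 : Hf (w0 a b) (w1 a b) = 0 := by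
    have h1 := key ((F4 c4 c6).map (algebraMap ℚ ℂ)) 20
      (Hf (C (w0 a b) + X * C a) (C (w1 a b) + X * C b))
      (natDegree_map_le.trans (natDegree_F4_le c4 c6)) (fun x hx => ?_)
    · rw [coeff_map, hc.1, map_zero, ← coe_evalRingHom, map_Hf] at h1
      simpa using h1
    · rw [← e4, ← coe_evalRingHom, map_Hf, ← coe_evalRingHom, map_Hf]
      simp only [coe_evalRingHom, eval_add, eval_C, eval_mul, eval_X, lineA, lineB, Hf]
      field_simp
      ring
  have hF0 : ff (w0 a b) (w1 a b) = 0 := by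
    have h1 := key ((C (ff a b) * (FD c4 c6).map (algebraMap ℚ ℂ))) 12
      (ff (C (w0 a b) + X * C a) (C (w1 a b) + X * C b))
      ((natDegree_C_mul_le _ _).trans (natDegree_map_le.trans (natDegree_FD_le c4 c6)))
      (fun x hx => ?_)
    · rw [coeff_C_mul, coeff_map, hc.2, map_zero, mul_zero, ← coe_evalRingHom, map_ff] at h1
      simpa using h1
    · rw [← eD, ← coe_evalRingHom, map_ff, ← coe_evalRingHom, map_ff]
      simp only [coe_evalRingHom, eval_add, eval_C, eval_mul, eval_X, lineA, lineB, ff]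
      field_simp
      ring
  obtain ⟨h0, h1⟩ := eq_zero_of_Hf_ff hH0 hF0
  have := det_w a b
  rw [h0, h1] at this
  exact hf (by linear_combination (1 / 12 : ℂ) * this)

end Properties

end Fermat.Agent.ThreeFive
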