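import Fermat.Prelude.Def_FLTPrelim_Modularity
import Fermat.Agent.ThreeFive.Family
import Mathlib.RingTheory.Localization.Integral
import Mathlib.Algebra.Field.ZMod
import Mathlib.Tactic.Ring

/-!
# Semistable integral models in the family
-/

namespace Fermat.Agent.ThreeFive

open Polynomial

/-- Clearing the denominators of a rational polynomial. -/
lemma exists_int_poly (p : ℚ[X]) :
    ∃ (d : ℤ) (P : ℤ[X]), 0 < d ∧ P.map (Int.castRingHom ℚ) = C (d : ℚ) * p := by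
  obtain ⟨b, hb⟩ := IsLocalization.integerNormalization_map_to_map (nonZeroDivisors ℤ) p
  have hb0 : (b : ℤ) ≠ 0 := nonZeroDivisors.coe_ne_zero b
  refine ⟨(b : ℤ) * (b : ℤ), C (b : ℤ) * IsLocalization.integerNormalization (nonZeroDivisors ℤ) p,
    mul_self_pos.2 hb0, ?_⟩
  rw [algebraMap_int_eq] at hb
  rw [Polynomial.map_mul, hb, map_C, eq_intCast, Int.cast_mul, map_mul, mul_assoc]
  simp only [← Polynomial.smul_eq_C_mul]
  rw [← Int.cast_smul_eq_zsmul ℚ]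

/-- The value of the homogenisation of degree `n` at `(u, v)`. -/
noncomputable def hom (P : ℤ[X]) (n : ℕ) (u v : ℤ) : ℤ :=
  ∑ i ∈ Finset.range (n + 1), P.coeff i * v ^ i * u ^ (n - i)

/-- The homogenisation evaluates to the scaled polynomial value. -/
lemma cast_hom {P : ℤ[X]} {p : ℚ[X]} {d : ℤ} (hP : P.map (Int.castRingHom ℚ) = C (d : ℚ) * p)
    {n : ℕ} (hn : p.natDegree ≤ n) {u v : ℤ} (hu : u ≠ 0) :
    (hom P n u v : ℚ) = d * ((u : ℚ) ^ n * p.eval ((v : ℚ) / u)) := by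
  have hc : ∀ i, (P.coeff i : ℚ) = d * p.coeff i := fun i => by
    simpa [coeff_map] using congrArg (fun q => Polynomial.coeff q i) hP
  rw [hom, Polynomial.eval_eq_sum_range' (show p.natDegree < n + 1 by omega)]
  push_cast
  rw [Finset.mul_sum, Finset.mul_sum]
  refine Finset.sum_congr rfl fun i hi => ?_
  have hi' : i ≤ n := by simp at hi; omega
  have hu' : (u : ℚ) ≠ 0 := by exact_mod_cast hu
  rw [hc, div_pow, show (u : ℚ) ^ n = (u : ℚ) ^ (n - i) * (u : ℚ) ^ i by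
    rw [← pow_add, Nat.sub_add_cancel hi']]
  field_simp

lemma hom_sub_dvd (P : ℤ[X]) (n : ℕ) (u v : ℤ) : v ∣ hom P n u v - P.coeff 0 * u ^ n := by
  rw [hom, Finset.sum_range_succ']
  simp only [pow_zero, mul_one, Nat.sub_zero, add_sub_cancel_right]
  exact Finset.dvd_sum fun i _ => Dvd.intro_left (P.coeff (i + 1) * v ^ i * u ^ (n - (i + 1)))
    (by ring)

lemma hom_top_dvd {q : ℤ} (hq : Prime q) {P : ℤ[X]} {n : ℕ} {u v : ℤ} (hu : q ∣ u) (hv : ¬q ∣ v)
    (h : q ∣ hom P n u v) : q ∣ P.coeff n := by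
  rw [hom, Finset.sum_range_succ, Nat.sub_self, pow_zero, mul_one] at h
  have h1 : q ∣ ∑ i ∈ Finset.range n, P.coeff i * v ^ i * u ^ (n - i) :=
    Finset.dvd_sum fun i hi => Dvd.dvd.mul_left (dvd_pow hu (by simp at hi; omega)) _
  exact (hq.dvd_or_dvd ((dvd_add_right h1).1 h)).resolve_right fun h' => hv (hq.dvd_of_dvd_pow h')

lemma eval_mod {q : ℕ} [Fact q.Prime] {P : ℤ[X]} {n : ℕ} (hn : P.natDegree ≤ n) {u v : ℤ}
    (hu : (u : ZMod q) ≠ 0) (h : (q : ℤ) ∣ hom P n u v) :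
    (P.map (Int.castRingHom (ZMod q))).eval ((v : ZMod q) / u) = 0 := by
  have h0 : ((hom P n u v : ℤ) : ZMod q) = 0 := (ZMod.intCast_zmod_eq_zero_iff_dvd _ _).2 h
  rw [Polynomial.eval_eq_sum_range' (show (P.map (Int.castRingHom (ZMod q))).natDegree < n + 1 by
    have := natDegree_map_le (f := Int.castRingHom (ZMod q)) (p := P); omega)]
  refine mul_left_cancel₀ (pow_ne_zero n hu) ?_
  rw [mul_zero, ← h0, hom, Finset.mul_sum]
  push_cast
  refine Finset.sum_congr rfl fun i hi => ?_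
  have hi' : i ≤ n := by simp at hi; omega
  rw [coeff_map, eq_intCast, div_pow, show (u : ZMod q) ^ n = (u : ZMod q) ^ (n - i) * (u : ZMod q) ^ i by
    rw [← pow_add, Nat.sub_add_cancel hi']]
  field_simp

/-- Semistable models of members of the family, for all `k`. -/
theorem exists_models (W : WeierstrassCurve ℤ) (hΔ : W.Δ ≠ 0) (hW : W.IsSemistableModel) :
    ∃ v : ℕ, 0 < v ∧ ∀ k : ℕ, ∃ W' : WeierstrassCurve ℤ, W'.Δ ≠ 0 ∧ W'.IsSemistableModel ∧
      (W'.c₄ : ℚ) = (1 + (v : ℚ) * k) ^ 20 *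
        (F4 (W.c₄ : ℚ) (W.c₆ : ℚ)).eval ((v : ℚ) / (1 + (v : ℚ) * k)) ∧
      (W'.c₆ : ℚ) = (1 + (v : ℚ) * k) ^ 30 *
        (F6 (W.c₄ : ℚ) (W.c₆ : ℚ)).eval ((v : ℚ) / (1 + (v : ℚ) * k)) := by
  set c4 : ℚ := (W.c₄ : ℚ) with hc4
  set c6 : ℚ := (W.c₆ : ℚ) with hc6
  have hrel : c4 ^ 3 - c6 ^ 2 = 1728 * (W.Δ : ℚ) := by
    rw [hc4, hc6]; exact_mod_cast W.c_relation.symm
  have hne : c4 ^ 3 ≠ c6 ^ 2 := by
    rw [← sub_ne_zero, hrel]; exact mul_ne_zero (by norm_num) (by exact_mod_cast hΔ)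
  obtain ⟨d4, P4, hd4, hP4⟩ := exists_int_poly (F4 c4 c6)
  obtain ⟨d6, P6, hd6, hP6⟩ := exists_int_poly (F6 c4 c6)
  obtain ⟨dD, PD, hdD, hPD⟩ := exists_int_poly (FD c4 c6)
  obtain ⟨ra, rb, hbez⟩ := F4_FD_coprime hne
  obtain ⟨da, Pa, hda, hPa⟩ := exists_int_poly ra
  obtain ⟨db, Pb, hdb, hPb⟩ := exists_int_poly rb
  set N : ℤ := da * db * d4 * dD with hN
  have hN0 : N ≠ 0 := by positivity
  have hbezZ : C (db * dD) * Pa * P4 + C (da * d4) * Pb * PD = C N := by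
    apply Polynomial.map_injective (Int.castRingHom ℚ) Int.cast_injective
    simp only [Polynomial.map_add, Polynomial.map_mul, Polynomial.map_C, hPa, hPb, hP4, hPD, hN]
    simp only [eq_intCast (Int.castRingHom ℚ), Int.cast_mul, map_mul]
    linear_combination (C (db : ℚ) * C (dD : ℚ) * C (da : ℚ) * C (d4 : ℚ)) * hbez
  obtain ⟨L, hL0, hL⟩ : ∃ L : ℤ, L ≠ 0 ∧ ∀ q : ℤ, q ∣ P4.coeff 20 → q ∣ PD.coeff 12 → q ∣ L := by
    rcases leading_not_both_zero hne with h | h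
    · refine ⟨P4.coeff 20, ?_, fun q h _ => h⟩
      intro e
      have := congrArg (fun q => Polynomial.coeff q 20) hP4
      simp [coeff_map, e, hd4.ne', h] at this
    · refine ⟨PD.coeff 12, ?_, fun q _ h => h⟩
      intro e
      have := congrArg (fun q => Polynomial.coeff q 12) hPD
      simp [coeff_map, e, hdD.ne', h] at this
  set dd : ℤ := d4 * d6 * dD with hdd
  set M0 : ℤ := 41472 * |W.Δ| * |N| * |L| * dd with hM0
  have hM0pos : 0 < M0 := by positivity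
  have hdd0 : 0 < dd := by positivity
  refine ⟨(dd * M0).toNat, by have := mul_pos hdd0 hM0pos; omega, fun k => ?_⟩
  set v : ℤ := dd * M0 with hv
  have hvpos : 0 < v := mul_pos hdd0 hM0pos
  set u : ℤ := 1 + v * k with hu
  have hu0 : u ≠ 0 := by
    have : (0 : ℤ) ≤ v * k := mul_nonneg hvpos.le (Int.natCast_nonneg k)
    omega
  have hcast : ((v.toNat : ℕ) : ℚ) = (v : ℚ) := by
    rw [← Int.cast_natCast, Int.toNat_of_nonneg hvpos.le]
  have huQ : (1 + ((v.toNat : ℕ) : ℚ) * k) = (u : ℚ) := by rw [hcast, hu]; push_cast; ring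
  -- integrality and congruence
  have key : ∀ (p : ℚ[X]) (P : ℤ[X]) (d c : ℤ) (n : ℕ), 0 < d → d ∣ dd →
      P.map (Int.castRingHom ℚ) = C (d : ℚ) * p → p.natDegree ≤ n → p.eval 0 = (c : ℚ) →
      ∃ G : ℤ, hom P n u v = d * G ∧ (G : ℚ) = (u : ℚ) ^ n * p.eval ((v : ℚ) / u) ∧
        M0 ∣ G - c := by
    intro p P d c n hd hddv hP hn hc
    have h0 : P.coeff 0 = d * c := by
      have := congrArg (fun q => Polynomial.coeff q 0) hP
      simp only [coeff_map, coeff_C_mul, eq_intCast, coeff_zero_eq_eval_zero p, hc] at this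
      exact_mod_cast this
    obtain ⟨z, hz⟩ := hom_sub_dvd P n u v
    obtain ⟨e, he⟩ := hddv
    refine ⟨c * u ^ n + e * M0 * z, ?_, ?_, ?_⟩
    · rw [sub_eq_iff_eq_add] at hz
      rw [hz, h0, hv, he]; ring
    · have := cast_hom hP hn (v := v) hu0
      rw [sub_eq_iff_eq_add] at hz
      rw [hz, h0, hv, he] at this
      rw [hv, he]
      push_cast at this ⊢
      refine mul_left_cancel₀ (show (d : ℚ) ≠ 0 by exact_mod_cast hd.ne') ?_
      linear_combination this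
    · have h1 : M0 ∣ u ^ n - 1 := by
        have : u - 1 ∣ u ^ n - 1 ^ n := sub_dvd_pow_sub_pow u 1 n
        rw [one_pow] at this
        exact (Dvd.intro (dd * k) (by rw [hu, hv]; ring)).trans this
      obtain ⟨w, hw⟩ := h1
      exact ⟨c * w + e * z, by linear_combination c * hw⟩
  obtain ⟨G4, hG4, eG4, kG4⟩ := key (F4 c4 c6) P4 d4 W.c₄ 20 hd4 ⟨d6 * dD, by rw [hdd]; ring⟩ hP4
    (natDegree_F4_le _ _) (F4_eval_zero hne)
  obtain ⟨G6, hG6, eG6, kG6⟩ := key (F6 c4 c6) P6 d6 W.c₆ 30 hd6 ⟨d4 * dD, by rw [hdd]; ring⟩ hP6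
    (natDegree_F6_le _ _) (F6_eval_zero hne)
  obtain ⟨GD, hGD, eGD, kGD⟩ := key (FD c4 c6) PD dD 1 12 hdD ⟨d4 * d6, by rw [hdd]; ring⟩ hPD
    (natDegree_FD_le _ _) (by simpa using FD_eval_zero hne)
  have hdisc : G4 ^ 3 - G6 ^ 2 = 1728 * W.Δ * GD ^ 5 := by
    have e := congrArg (Polynomial.eval ((v : ℚ) / u)) (F_disc hne)
    simp only [eval_sub, eval_pow, eval_mul, eval_C, hrel] at e
    have : ((G4 ^ 3 - G6 ^ 2 : ℤ) : ℚ) = ((1728 * W.Δ * GD ^ 5 : ℤ) : ℚ) := by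
      push_cast
      rw [eG4, eG6, eGD]
      linear_combination ((u : ℚ) ^ 60) * e
    exact_mod_cast this
  -- the model
  obtain ⟨x, hx⟩ : (48 * 864 : ℤ) ∣ G4 - W.c₄ :=
    (Dvd.intro (|W.Δ| * |N| * |L| * dd) (by rw [hM0]; ring)).trans kG4
  obtain ⟨y, hy⟩ : (864 : ℤ) ∣ G6 - W.c₆ :=
    (Dvd.intro (48 * |W.Δ| * |N| * |L| * dd) (by rw [hM0]; ring)).trans kG6
  set W' : WeierstrassCurve ℤ :=
    ⟨W.a₁, W.a₂, W.a₃, W.a₄ - 864 * x, W.a₆ + (-72 * W.b₂ * x - y)⟩ with hW'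
  have e4 : W'.c₄ = G4 := by
    simp only [hW', WeierstrassCurve.c₄, WeierstrassCurve.b₂, WeierstrassCurve.b₄] at hx ⊢
    linear_combination -hx
  have e6 : W'.c₆ = G6 := by
    simp only [hW', WeierstrassCurve.c₆, WeierstrassCurve.b₂, WeierstrassCurve.b₄,
      WeierstrassCurve.b₆] at hy ⊢
    linear_combination -hy
  have eΔ : W'.Δ = W.Δ * GD ^ 5 := by
    have := W'.c_relation
    rw [e4, e6, hdisc] at this
    linarith
  have hGDne : ∀ q : ℤ, Prime q → q ∣ M0 → ¬q ∣ GD := fun q hq hqM hqG =>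
    hq.not_dvd_one (by
      have := dvd_sub hqG (hqM.trans kGD)
      simpa using this)
  have hGD0 : GD ≠ 0 := by
    intro e
    exact hGDne 2 Int.prime_two (Dvd.intro (20736 * |W.Δ| * |N| * |L| * dd) (by rw [hM0]; ring))
      (by rw [e]; exact dvd_zero 2)
  refine ⟨W', ?_, ?_, ?_, ?_⟩
  · rw [eΔ]; exact mul_ne_zero hΔ (pow_ne_zero 5 hGD0)
  · intro q hq hqΔ hqc
    rw [eΔ] at hqΔ
    rw [e4] at hqc
    have hqp : Prime (q : ℤ) := Nat.prime_iff_prime_int.1 hq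
    by_cases hqM : (q : ℤ) ∣ M0
    · have hqW : (q : ℤ) ∣ W.Δ :=
        (hqp.dvd_or_dvd hqΔ).resolve_right fun h => hGDne q hqp hqM (hqp.dvd_of_dvd_pow h)
      refine hW q hq hqW ?_
      have := dvd_sub hqc (hqM.trans kG4)
      simpa using this
    · have hqW : ¬(q : ℤ) ∣ W.Δ := fun h =>
        hqM (((dvd_abs _ _).2 h).trans (Dvd.intro (41472 * |N| * |L| * dd) (by rw [hM0]; ring)))
      have hqd : ¬(q : ℤ) ∣ dd := fun h =>
        hqM (h.trans (Dvd.intro_left (41472 * |W.Δ| * |N| * |L|) (by rw [hM0])))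
      have hqN : ¬(q : ℤ) ∣ N := fun h =>
        hqM (((dvd_abs _ _).2 h).trans (Dvd.intro (41472 * |W.Δ| * |L| * dd) (by rw [hM0]; ring)))
      have hqL : ¬(q : ℤ) ∣ L := fun h =>
        hqM (((dvd_abs _ _).2 h).trans (Dvd.intro (41472 * |W.Δ| * |N| * dd) (by rw [hM0]; ring)))
      have hqv : ¬(q : ℤ) ∣ v := fun h => (hqp.dvd_or_dvd h).elim hqd hqM
      have hqD : (q : ℤ) ∣ GD := hqp.dvd_of_dvd_pow ((hqp.dvd_or_dvd hqΔ).resolve_left hqW)
      have hh4 : (q : ℤ) ∣ hom P4 20 u v := hG4 ▸ hqc.mul_left d4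
      have hhD : (q : ℤ) ∣ hom PD 12 u v := hGD ▸ hqD.mul_left dD
      by_cases hqu : (q : ℤ) ∣ u
      · exact hqL (hL _ (hom_top_dvd hqp hqu hqv hh4) (hom_top_dvd hqp hqu hqv hhD))
      · have := Fact.mk hq
        have hu' : (u : ZMod q) ≠ 0 := fun h => hqu ((ZMod.intCast_zmod_eq_zero_iff_dvd _ _).1 h)
        have deg : ∀ {P : ℤ[X]} {p : ℚ[X]} {d : ℤ} {n : ℕ},
            P.map (Int.castRingHom ℚ) = C (d : ℚ) * p → p.natDegree ≤ n → P.natDegree ≤ n := by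
          intro P p d n hP hn
          rw [← natDegree_map_eq_of_injective (f := Int.castRingHom ℚ) Int.cast_injective P, hP]
          exact (natDegree_C_mul_le _ _).trans hn
        have z4 := eval_mod (deg hP4 (natDegree_F4_le _ _)) hu' hh4
        have zD := eval_mod (deg hPD (natDegree_FD_le _ _)) hu' hhD
        have := congrArg
          (fun r => (Polynomial.map (Int.castRingHom (ZMod q)) r).eval ((v : ZMod q) / u)) hbezZ
        simp only [Polynomial.map_add, Polynomial.map_mul, Polynomial.map_C, eval_add, eval_mul,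
          eval_C, z4, zD, mul_zero, add_zero] at this
        exact hqN ((ZMod.intCast_zmod_eq_zero_iff_dvd _ _).1 (by simpa using this.symm))
  · rw [huQ, hcast, e4]; exact eG4
  · rw [huQ, hcast, e6]; exact eG6

end Fermat.Agent.ThreeFive
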