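import Fermat.Prelude.Def_FLTPrelim_ModularRep
import Fermat.Prelude.Def_EllipticCurve_FrobeniusTrace
import Fermat.Agent.ThreeFive.Galois
import Fermat.Agent.ThreeFive.Hilbert
import Fermat.Agent.ThreeFive.Model
import Fermat.Agent.Frobenius.Exists

/-!
# The 3–5 switch
-/

namespace Fermat.Agent.ThreeFive

open WeierstrassCurve

local notation "Qb" => AlgebraicClosure ℚ

/-- The rational root gives an integral multiple. -/
lemma root_scaled_integral {A B u x : ℚ} {G4 G6 : ℤ} (h4 : u ^ 20 * A = G4) (h6 : u ^ 30 * B = G6)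
    (hx : psi3 (-27 * A) (-54 * B) x = 0) : ∃ z : ℤ, 3 * u ^ 10 * x = z := by
  have hint : _root_.IsIntegral ℤ (3 * u ^ 10 * x) := by
    refine ⟨Polynomial.X ^ 4 + (Polynomial.C (18 * (-27 * G4)) * Polynomial.X ^ 2
      + Polynomial.C (108 * (-54 * G6)) * Polynomial.X + Polynomial.C (-(27 * (-27 * G4) ^ 2))),
      Polynomial.monic_X_pow_add ?_, ?_⟩
    · calc _ ≤ ((2 : ℕ) : WithBot ℕ) := by compute_degree!
        _ < _ := by norm_num
    · simp only [psi3] at hx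
      rw [← Polynomial.aeval_def]
      simp [map_ofNat]
      rw [← h4, ← h6]
      linear_combination (27 * u ^ 40) * hx
  obtain ⟨z, hz⟩ := IsIntegrallyClosed.isIntegral_iff.1 hint
  exact ⟨z, by rw [← hz]; simp⟩

/-- A parameter `v / (1 + v k)` at which the 3-division polynomial has no root with bounded denominator. -/
lemma exists_irreducible_parameter {c4 c6 : ℚ} (h : c4 ^ 3 ≠ c6 ^ 2) (v : ℕ) (hv : 0 < v) :
    ∃ k : ℕ, ∀ x : ℚ,
      psi3 (-27 * (F4 c4 c6).eval ((v : ℚ) / (1 + (v : ℚ) * k)))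
        (-54 * (F6 c4 c6).eval ((v : ℚ) / (1 + (v : ℚ) * k))) x = 0 →
      ∀ z : ℤ, 3 * (1 + (v : ℚ) * k) ^ 10 * x ≠ z := by
  set ι := algebraMap ℚ ℝ with hι
  set A : Polynomial ℝ := -27 * (F4 c4 c6).map ι with hA
  set B : Polynomial ℝ := -54 * (F6 c4 c6).map ι with hB
  obtain ⟨k, hk⟩ := Hilbert.exists_no_root A B (by
      intro α hα hc
      apply h
      have hA0 : A.eval 0 = -27 * ι c4 := by
        rw [hA, Polynomial.eval_mul, Polynomial.eval_map, Polynomial.eval₂_at_zero,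
          Polynomial.coeff_zero_eq_eval_zero, F4_eval_zero h]
        simp
      have hB0 : B.eval 0 = -54 * ι c6 := by
        rw [hB, Polynomial.eval_mul, Polynomial.eval_map, Polynomial.eval₂_at_zero,
          Polynomial.coeff_zero_eq_eval_zero, F6_eval_zero h]
        simp
      have e1 : (3 * α ^ 2 + A.eval 0) ^ 2 = 0 := by
        simp only [Hilbert.quartic] at hα
        linear_combination (-1 : ℝ) * hα + 12 * α * hc
      have e2 : 3 * α ^ 2 + A.eval 0 = 0 := pow_eq_zero_iff (by norm_num) |>.1 e1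
      have e3 : B.eval 0 = 2 * α ^ 3 := by linear_combination hc - α * e2
      rw [hA0] at e2; rw [hB0] at e3
      apply ι.injective
      rw [map_pow, map_pow]
      have e4 : ι c4 = α ^ 2 / 9 := by linarith
      have e6 : ι c6 = -α ^ 3 / 27 := by linarith
      rw [e4, e6]; ring) (by
      intro p hp e
      refine no_branch h (p.map (algebraMap ℝ ℂ)) (Polynomial.natDegree_map_le.trans hp) ?_
      have e' := congrArg (Polynomial.map (algebraMap ℝ ℂ)) e
      simp only [hA, hB, Polynomial.map_mul, Polynomial.map_add, Polynomial.map_sub,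
        Polynomial.map_pow, Polynomial.map_neg, Polynomial.map_ofNat, Polynomial.map_map,
        Polynomial.map_zero] at e'
      rw [show (algebraMap ℝ ℂ).comp ι = algebraMap ℚ ℂ from Subsingleton.elim _ _] at e'
      exact e')
    (v : ℝ) (v : ℝ) (by exact_mod_cast hv) (by exact_mod_cast hv)
  refine ⟨k, fun x hx z hz => hk (ι x) ?_ z ?_⟩
  · have hev : ∀ p : Polynomial ℚ, (p.map ι).eval ((v : ℝ) / (1 + (v : ℝ) * k)) =
        ι (p.eval ((v : ℚ) / (1 + (v : ℚ) * k))) := fun p => by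
      rw [← Polynomial.eval_map_apply]
      congr 1
      simp [hι]
    have := congrArg ι hx
    rw [map_psi3, map_zero] at this
    simp only [Hilbert.quartic, hA, hB, Polynomial.eval_mul, Polynomial.eval_neg,
      Polynomial.eval_ofNat, hev]
    simp only [psi3, map_mul, map_neg, map_ofNat] at this
    exact this
  · have := congrArg ι hz
    simpa [hι, map_ofNat] using this

/-- The 3–5 switch, given the trace formula for Frobenius on five-torsion. -/
theorem switch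
    (htrace : ∀ (W : WeierstrassCurve ℤ) (ℓ : ℕ), ℓ.Prime → ℓ ≠ 5 → W.IsGoodPrimeFor ℓ →
      ∀ (A : ValuationSubring Qb) (σ : Qb ≃ₐ[ℚ] Qb), A.LiesOverPrime ℓ → A.IsFrobeniusAt σ ℓ →
        Affine.Point.galoisTrace ℚ (W.map (Int.castRingHom ℚ)) 5 σ = (W.apOfModel ℓ : ZMod 5))
    (W : WeierstrassCurve ℤ) (hΔ : W.Δ ≠ 0) (hW : W.IsSemistableModel) :
    ∃ W' : WeierstrassCurve ℤ, W'.Δ ≠ 0 ∧ W'.IsSemistableModel ∧ W'.ModRepIsIrreducible 3 ∧
      ∀ ℓ : ℕ, ℓ.Prime → W.IsGoodPrimeFor ℓ → W'.IsGoodPrimeFor ℓ → ℓ ≠ 5 →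
        (5 : ℤ) ∣ (W'.apOfModel ℓ - W.apOfModel ℓ) := by
  set E := W.map (Int.castRingHom ℚ) with hE
  have hEΔ : E.Δ ≠ 0 := by simp [hE, hΔ]
  have hc4 : E.c₄ = (W.c₄ : ℚ) := by simp [hE]
  have hc6 : E.c₆ = (W.c₆ : ℚ) := by simp [hE]
  have hne : (W.c₄ : ℚ) ^ 3 ≠ (W.c₆ : ℚ) ^ 2 := by
    rw [← hc4, ← hc6, ← sub_ne_zero, ← E.c_relation]
    exact mul_ne_zero (by norm_num) hEΔ
  obtain ⟨v, hv, hmod⟩ := exists_models W hΔ hW
  obtain ⟨k, hk⟩ := exists_irreducible_parameter hne v hv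
  obtain ⟨W', hΔ', hW', e4, e6⟩ := hmod k
  set u : ℚ := 1 + (v : ℚ) * k with hu
  have hu0 : u ≠ 0 := by positivity
  set t : ℚ := (v : ℚ) / u with ht
  set E' := W'.map (Int.castRingHom ℚ) with hE'
  have hE'Δ : E'.Δ ≠ 0 := by simp [hE', hΔ']
  have hs : ((u ^ 5)⁻¹ : ℚ) ≠ 0 := inv_ne_zero (pow_ne_zero 5 hu0)
  have s4 : (u ^ 5)⁻¹ ^ 4 * E'.c₄ = (F4 (W.c₄ : ℚ) (W.c₆ : ℚ)).eval t := by
    rw [hE', WeierstrassCurve.map_c₄, eq_intCast, e4]; field_simp
  have s6 : (u ^ 5)⁻¹ ^ 6 * E'.c₆ = (F6 (W.c₄ : ℚ) (W.c₆ : ℚ)).eval t := by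
    rw [hE', WeierstrassCurve.map_c₆, eq_intCast, e6]; field_simp
  refine ⟨W', hΔ', hW', ?_, ?_⟩
  · refine irreducible_three E' hE'Δ _ hs s4 s6 fun x hx => ?_
    obtain ⟨z, hz⟩ := root_scaled_integral (u := u) e4.symm e6.symm hx
    exact hk x hx z hz
  · intro ℓ hℓ hg hg' h5
    have : Fact (Nat.Prime 5) := ⟨Nat.prime_five⟩
    obtain ⟨e, he⟩ := exists_equivariant_iso E E' hEΔ hE'Δ t _ hs (by rw [hc4, hc6]; exact s4)
      (by rw [hc4, hc6]; exact s6)
    obtain ⟨A, hA⟩ := Frobenius.exists_liesOverPrime Qb hℓ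
    obtain ⟨σ, hσ⟩ := Frobenius.exists_isFrobeniusAt_qbar hℓ hA
    have h1 := htrace W ℓ hℓ h5 hg A σ hA hσ
    have h2 := htrace W' ℓ hℓ h5 hg' A σ hA hσ
    rw [← hE] at h1
    rw [← hE', ← galoisTrace_eq E E' 5 e he σ, h1] at h2
    have := (ZMod.intCast_eq_intCast_iff_dvd_sub _ _ _).1 h2
    exact_mod_cast this

end Fermat.Agent.ThreeFive
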