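import Fermat.Agent.ThreeFive.Family
import Mathlib.Tactic.IntervalCases
import Mathlib.Tactic.LinearCombination

/-!
# Explicit integral coefficients of the pencil forms
-/

namespace Fermat.Agent.ThreeFive

section Coefficients

variable {R : Type*} [CommRing R]

/-- Coefficients of the pencil form `k4` in `H`, `T`, `E = (H³ - T²)/1728`. -/
def k4 (H T E : R) : ℕ → R
  | 0 => H
  | 1 => -20 * T
  | 2 => 190 * H ^ 2
  | 3 => -1140 * H * T
  | 4 => 4845 * H ^ 3 - 9849600 * E
  | 5 => -15504 * H ^ 2 * T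
  | 6 => 38760 * H ^ 4 + 110315520 * H * E
  | 7 => -77520 * H ^ 3 * T - 315187200 * T * E
  | 8 => 125970 * H ^ 5 - 1946280960 * H ^ 2 * E
  | 9 => -167960 * H ^ 4 * T + 13658112000 * H * T * E
  | 10 => 184756 * H ^ 6 - 44921530368 * H ^ 3 * E + 47202435072000 * E ^ 2
  | 11 => -167960 * H ^ 5 * T + 94787297280 * H ^ 2 * T * E
  | 12 => 125970 * H ^ 7 - 143563829760 * H ^ 4 * E + 113285844172800 * H * E ^ 2
  | 13 => -77520 * H ^ 6 * T + 161627996160 * H ^ 3 * T * E - 174285914112000 * T * E ^ 2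
  | 14 => 38760 * H ^ 8 - 137784084480 * H ^ 5 * E + 858358127001600 * H ^ 2 * E ^ 2
  | 15 => -15504 * H ^ 7 * T + 88870182912 * H ^ 4 * T * E - 1394287312896000 * H * T * E ^ 2
  | 16 => 4845 * H ^ 9 - 42857579520 * H ^ 6 * E + 1584258959278080 * H ^ 3 * E ^ 2 - 3011660595855360000 * E ^ 3
  | 17 => -1140 * H ^ 8 * T + 15002910720 * H ^ 5 * T * E - 1080572667494400 * H ^ 2 * T * E ^ 2
  | 18 => 190 * H ^ 10 - 3608893440 * H ^ 7 * E + 473621971599360 * H ^ 4 * E ^ 2 + 3212437968912384000 * H * E ^ 3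
  | 19 => -20 * H ^ 9 * T + 534159360 * H ^ 6 * T * E - 117413668454400 * H ^ 3 * T * E ^ 2 - 3381513651486720000 * T * E ^ 3
  | 20 => H ^ 11 - 36723456 * H ^ 8 * E + 12915503529984 * H ^ 5 * E ^ 2 + 929916254158848000 * H ^ 2 * E ^ 3
  | _ => 0

/-- Coefficients of the pencil form `k6` in `H`, `T`, `E = (H³ - T²)/1728`. -/
def k6 (H T E : R) : ℕ → R
  | 0 => T
  | 1 => -30 * H ^ 2
  | 2 => 435 * H * T
  | 3 => -4060 * H ^ 3 + 5011200 * E
  | 4 => 27405 * H ^ 2 * T
  | 5 => -142506 * H ^ 4 + 81181440 * H * E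
  | 6 => 593775 * H ^ 3 * T - 270604800 * T * E
  | 7 => -2035800 * H ^ 5 + 6765120000 * H ^ 2 * E
  | 8 => 5852925 * H ^ 4 * T - 24895641600 * H * T * E
  | 9 => -14307150 * H ^ 6 + 38035008000 * H ^ 3 * E - 95599263744000 * E ^ 2
  | 10 => 30045015 * H ^ 5 * T + 374264478720 * H ^ 2 * T * E
  | 11 => -54627300 * H ^ 7 - 2708438342400 * H ^ 4 * E + 4359326426726400 * H * E ^ 2
  | 12 => 86493225 * H ^ 6 * T + 11194740172800 * H ^ 3 * T * E - 7265544044544000 * T * E ^ 2
  | 13 => -119759850 * H ^ 8 - 32579058988800 * H ^ 5 * E + 35964443020492800 * H ^ 2 * E ^ 2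
  | 14 => 145422675 * H ^ 7 * T + 74381953190400 * H ^ 4 * T * E
  | 15 => -155117520 * H ^ 9 - 136970011100160 * H ^ 6 * E + 237147357613916160 * H ^ 3 * E ^ 2
  | 16 => 145422675 * H ^ 8 * T + 209073598156800 * H ^ 5 * T * E - 889302591052185600 * H ^ 2 * T * E ^ 2
  | 17 => -119759850 * H ^ 10 - 267018203980800 * H ^ 7 * E + 3485281478167756800 * H ^ 4 * E ^ 2 - 3615799711383945216000 * H * E ^ 3
  | 18 => 86493225 * H ^ 9 * T + 288067468953600 * H ^ 6 * T * E - 7881662179521331200 * H ^ 3 * T * E ^ 2 + 4017555234871050240000 * T * E ^ 3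
  | 19 => -54627300 * H ^ 11 - 263137595846400 * H ^ 8 * E + 14246737639007846400 * H ^ 5 * E ^ 2 - 22138843846894682112000 * H ^ 2 * E ^ 3
  | 20 => 30045015 * H ^ 10 * T + 203855471677440 * H ^ 7 * T * E - 19214717810198446080 * H ^ 4 * T * E ^ 2 + 17761823143640432640000 * H * T * E ^ 3
  | 21 => -14307150 * H ^ 12 - 133590358598400 * H ^ 9 * E + 20908591452861235200 * H ^ 6 * E ^ 2 - 41215887704266584883200 * H ^ 3 * E ^ 3 + 29230886087819683430400000 * E ^ 4
  | 22 => 5852925 * H ^ 11 * T + 73734666508800 * H ^ 8 * T * E - 17973273419159961600 * H ^ 5 * T * E ^ 2 + 23597850747979431936000 * H ^ 2 * T * E ^ 3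
  | 23 => -2035800 * H ^ 13 - 33996351628800 * H ^ 10 * E + 12476571793647206400 * H ^ 7 * E ^ 2 - 29446013759435204198400 * H ^ 4 * E ^ 3 - 54903229521470014095360000 * H * E ^ 4
  | 24 => 593775 * H ^ 12 * T + 12942486374400 * H ^ 9 * T * E - 6877999592688844800 * H ^ 6 * T * E ^ 2 + 11627926455526096896000 * H ^ 3 * T * E ^ 3 + 45752691267891678412800000 * T * E ^ 4
  | 25 => -142506 * H ^ 14 - 3998272513536 * H ^ 11 * E + 3001181670175408128 * H ^ 8 * E ^ 2 - 8215692682431874203648 * H ^ 5 * E ^ 3 + 162422054001015458365440000 * H ^ 2 * E ^ 4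
  | 26 => 27405 * H ^ 13 * T + 977532779520 * H ^ 10 * T * E - 1009272850407751680 * H ^ 7 * T * E ^ 2 + 2081773929940962508800 * H ^ 4 * T * E ^ 3 - 366021530143133427302400000 * H * T * E ^ 4
  | 27 => -4060 * H ^ 15 - 182045871360 * H ^ 12 * E + 253675112528609280 * H ^ 9 * E ^ 2 - 788715656681336340480 * H ^ 6 * E ^ 3 + 357616591302809622675456000 * H ^ 3 * E ^ 4 - 468507558583210786947072000000 * E ^ 5
  | 28 => 435 * H ^ 14 * T + 24270243840 * H ^ 11 * T * E - 44768387043164160 * H ^ 8 * T * E ^ 2 + 108850924441357516800 * H ^ 5 * T * E ^ 3 - 191144576852525234257920000 * H ^ 2 * T * E ^ 4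
  | 29 => -30 * H ^ 16 - 2063335680 * H ^ 13 * E + 4963496574320640 * H ^ 10 * E ^ 2 - 17260936434013962240 * H ^ 7 * E ^ 3 + 55089045049224669954048000 * H ^ 4 * E ^ 4 + 77546078662048681977446400000 * H * E ^ 5
  | 30 => H ^ 15 * T + 84063744 * H ^ 12 * T * E - 259826663817216 * H ^ 9 * T * E ^ 2 + 727025435069644800 * H ^ 6 * T * E ^ 3 - 6731430439413948088320000 * H ^ 3 * T * E ^ 4 - 51697385774699121318297600000 * T * E ^ 5
  | _ => 0

/-- Coefficients of the pencil form `kD` in `H`, `T`, `E = (H³ - T²)/1728`. -/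
def kD (H T E : R) : ℕ → R
  | 0 => 1
  | 1 => 0
  | 2 => -66 * H
  | 3 => 440 * T
  | 4 => -1485 * H ^ 2
  | 5 => 3168 * H * T
  | 6 => -4620 * H ^ 3 + 18247680 * E
  | 7 => 4752 * H ^ 2 * T
  | 8 => -3465 * H ^ 4 - 109486080 * H * E
  | 9 => 1760 * H ^ 3 * T + 243302400 * T * E
  | 10 => -594 * H ^ 5 - 229920768 * H ^ 2 * E
  | 11 => 120 * H ^ 4 * T + 106168320 * H * T * E
  | 12 => -11 * H ^ 6 - 19464192 * H ^ 3 * E + 305764761600 * E ^ 2
  | _ => 0

end Coefficients

namespace Universal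

open MvPolynomial

local notation "Hu" => Hf (X (0 : Fin 2) : P2) (X (1 : Fin 2) : P2)
local notation "Tu" => Tf (X (0 : Fin 2) : P2) (X (1 : Fin 2) : P2)
local notation "Eu" => (ff (X (0 : Fin 2) : P2) (X (1 : Fin 2) : P2)) ^ 5

lemma rel : Tu ^ 2 - Hu ^ 3 + 1728 * Eu = 0 := by
  linear_combination -(Hf_cube_sub_Tf_sq (X (0 : Fin 2) : P2) (X (1 : Fin 2) : P2))

lemma wD_lit (n : ℕ) [n.AtLeastTwo] : wD (OfNat.ofNat n : P2) = 0 := deriv_ofNat _ n

lemma coeff_toLine_zero (G : P2) : (toLine G).coeff 0 = G := by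
  rw [Polynomial.coeff_zero_eq_eval_zero]
  have h : ((Polynomial.aeval (0 : P2)).restrictScalars ℚ).comp toLine = AlgHom.id ℚ _ := by
    ext i : 1
    fin_cases i <;> simp [toLine, lineA, lineB]
  simpa using AlgHom.congr_fun h G

/-- A solution of the recursion gives the coefficients along the moving line. -/
lemma coeff_eq_of_rec (d : ℕ) (g g₀ : P2) (L : ℕ → P2) (hg₀ : wD g₀ = 0)
    (hdeg : euler g = d * g) (h0 : (toLine g).coeff 0 = g₀ * L 0)
    (hn : (toLine g).natDegree ≤ d) (htail : ∀ m, d < m → L m = 0)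
    (hrec : ∀ n, n < d → wD (L n) - 11 * Hu * ((d : ℤ) - n + 1 : ℤ) *
      (if n = 0 then 0 else L (n - 1)) = (n + 1) * L (n + 1)) (n : ℕ) :
    (toLine g).coeff n = g₀ * L n := by
  induction n using Nat.strong_induction_on with
  | _ n ih =>
    rcases n with _ | m
    · exact h0
    by_cases hm : m < d
    · have key := congrArg (fun p => Polynomial.coeff p m) (toLine_ode g)
      simp only [hdeg, map_mul, map_natCast] at key
      have hrhs : wD ((toLine g).coeff m) = g₀ * wD (L m) := by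
        rw [ih m (by omega), Derivation.leibniz, hg₀, smul_zero, add_zero, smul_eq_mul]
      simp only [coeff_wDc, hrhs, Polynomial.coeff_add, sub_mul, one_mul, Polynomial.coeff_sub,
        Polynomial.coeff_derivative] at key
      have hne : ((m : P2) + 1) ≠ 0 := by exact_mod_cast Nat.succ_ne_zero m
      have hr := hrec m hm
      rcases m with _ | _ | k
      · simp [mul_assoc] at key hr
        refine mul_left_cancel₀ hne ?_
        push_cast
        linear_combination key + g₀ * hr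
      · have e0 := ih 0 (by omega)
        simp [mul_assoc, Polynomial.coeff_X_pow_mul', e0] at key hr
        refine mul_left_cancel₀ hne ?_
        push_cast
        linear_combination key + g₀ * hr
      · have e1 := ih (k + 1) (by omega)
        simp [mul_assoc, Polynomial.coeff_X_pow_mul', Polynomial.coeff_derivative, e1] at key hr
        refine mul_left_cancel₀ hne ?_
        push_cast
        linear_combination key + g₀ * hr
    · rw [Polynomial.coeff_eq_zero_of_natDegree_lt (by omega), htail _ (by omega), mul_zero]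

lemma k4_rec (n : ℕ) (hn : n < 20) :
    wD (k4 Hu Tu Eu n) - 11 * Hu * (20 - (n : ℤ) + 1 : ℤ) * (if n = 0 then 0 else k4 Hu Tu Eu (n - 1)) = (n + 1) * k4 Hu Tu Eu (n + 1) := by
  interval_cases n <;>
    simp [k4, Derivation.leibniz, Derivation.leibniz_pow, wD_Hf, wD_Tf, wD_ff] <;>
    (repeat rw [wD_lit]) <;> (try ring1)
  · linear_combination (22800) * rel
  · linear_combination (620160 * Hu) * rel
  · linear_combination (4651200 * Hu ^ 2) * rel
  · linear_combination (13436800 * Hu ^ 3 - 273162240000 * Eu) * rel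
  · linear_combination (16796000 * Hu ^ 4 - 3791491891200 * Hu * Eu) * rel
  · linear_combination (9302400 * Hu ^ 5 - 9697679769600 * Hu ^ 2 * Eu) * rel
  · linear_combination (2170560 * Hu ^ 6 - 7109614632960 * Hu ^ 3 * Eu + 27885746257920000 * Eu ^ 2) * rel
  · linear_combination (182400 * Hu ^ 7 - 1500291072000 * Hu ^ 4 * Eu + 43222906699776000 * Hu * Eu ^ 2) * rel
  · linear_combination (3600 * Hu ^ 8 - 64099123200 * Hu ^ 5 * Eu + 7044820107264000 * Hu ^ 2 * Eu ^ 2) * rel

lemma coeff_toLine_k4 (n : ℕ) :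
    (toLine Hu).coeff n = 1 * k4 Hu Tu Eu n := by
  refine coeff_eq_of_rec 20 Hu 1 (k4 Hu Tu Eu) (by simp)
    (by exact_mod_cast euler_Hf) (by simp [coeff_toLine_zero, k4]) natDegree_toLine_forms.1 ?_ k4_rec n
  intro m hm
  match m, hm with
  | m + 21, _ => rfl

lemma k6_rec (n : ℕ) (hn : n < 30) :
    wD (k6 Hu Tu Eu n) - 11 * Hu * (30 - (n : ℤ) + 1 : ℤ) * (if n = 0 then 0 else k6 Hu Tu Eu (n - 1)) = (n + 1) * k6 Hu Tu Eu (n + 1) := by
  interval_cases n <;>
    simp [k6, Derivation.leibniz, Derivation.leibniz_pow, wD_Hf, wD_Tf, wD_ff] <;>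
    (repeat rw [wD_lit]) <;> (try ring1)
  · linear_combination (-8700) * rel
  · linear_combination (-1096200 * Hu) * rel
  · linear_combination (-35626500 * Hu ^ 2) * rel
  · linear_combination (-468234000 * Hu ^ 3 + 497912832000 * Eu) * rel
  · linear_combination (-3004501500 * Hu ^ 4 - 14970579148800 * Hu * Eu) * rel
  · linear_combination (-10379187000 * Hu ^ 5 - 671684410368000 * Hu ^ 2 * Eu) * rel
  · linear_combination (-20359174500 * Hu ^ 6 - 5950556255232000 * Hu ^ 3 * Eu) * rel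
  · linear_combination (-23267628000 * Hu ^ 7 - 20907359815680000 * Hu ^ 4 * Eu + 35572103642087424000 * Hu * Eu ^ 2) * rel
  · linear_combination (-15568780500 * Hu ^ 8 - 34568096274432000 * Hu ^ 5 * Eu + 472899730771279872000 * Hu ^ 2 * Eu ^ 2) * rel
  · linear_combination (-6009003000 * Hu ^ 9 - 28539766034841600 * Hu ^ 6 * Eu + 1537177424815875686400 * Hu ^ 3 * Eu ^ 2 - 355236462872808652800000 * Eu ^ 3) * rel
  · linear_combination (-1287643500 * Hu ^ 10 - 11797546641408000 * Hu ^ 7 * Eu + 1797327341915996160000 * Hu ^ 4 * Eu ^ 2 - 943914029919177277440000 * Hu * Eu ^ 3) * rel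
  · linear_combination (-142506000 * Hu ^ 11 - 2329647547392000 * Hu ^ 8 * Eu + 825359951122661376000 * Hu ^ 5 * Eu ^ 2 - 697675587331565813760000 * Hu ^ 2 * Eu ^ 3) * rel
  · linear_combination (-7125300 * Hu ^ 12 - 195506555904000 * Hu ^ 9 * Eu + 141298199057085235200 * Hu ^ 6 * Eu ^ 2 - 166541914395277000704000 * Hu ^ 3 * Eu ^ 3 + 7320430602862668546048000000 * Eu ^ 4) * rel
  · linear_combination (-121800 * Hu ^ 13 - 5339453644800 * Hu ^ 10 * Eu + 7162941926906265600 * Hu ^ 7 * Eu ^ 2 - 10885092444135751680000 * Hu ^ 4 * Eu ^ 3 + 7645783074101009370316800000 * Hu * Eu ^ 4) * rel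

lemma coeff_toLine_k6 (n : ℕ) :
    (toLine Tu).coeff n = 1 * k6 Hu Tu Eu n := by
  refine coeff_eq_of_rec 30 Tu 1 (k6 Hu Tu Eu) (by simp)
    (by exact_mod_cast euler_Tf) (by simp [coeff_toLine_zero, k6]) natDegree_toLine_forms.2.1 ?_ k6_rec n
  intro m hm
  match m, hm with
  | m + 31, _ => rfl

lemma kD_rec (n : ℕ) (hn : n < 12) :
    wD (kD Hu Tu Eu n) - 11 * Hu * (12 - (n : ℤ) + 1 : ℤ) * (if n = 0 then 0 else kD Hu Tu Eu (n - 1)) = (n + 1) * kD Hu Tu Eu (n + 1) := by
  interval_cases n <;>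
    simp [kD, Derivation.leibniz, Derivation.leibniz_pow, wD_Hf, wD_Tf, wD_ff] <;>
    (repeat rw [wD_lit]) <;> (try ring1)
  · linear_combination (-63360) * rel
  · linear_combination (-190080 * Hu) * rel
  · linear_combination (-105600 * Hu ^ 2) * rel
  · linear_combination (-9600 * Hu ^ 3 - 2123366400 * Eu) * rel

lemma coeff_toLine_kD (n : ℕ) :
    (toLine (ff (X (0 : Fin 2) : P2) (X (1 : Fin 2) : P2))).coeff n = (ff (X (0 : Fin 2) : P2) (X (1 : Fin 2) : P2)) * kD Hu Tu Eu n := by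
  refine coeff_eq_of_rec 12 (ff (X (0 : Fin 2) : P2) (X (1 : Fin 2) : P2)) (ff (X (0 : Fin 2) : P2) (X (1 : Fin 2) : P2)) (kD Hu Tu Eu) wD_ff
    (by exact_mod_cast euler_ff) (by simp [coeff_toLine_zero, kD]) natDegree_toLine_forms.2.2 ?_ kD_rec n
  intro m hm
  match m, hm with
  | m + 13, _ => rfl

end Universal

section Values

open Polynomial

lemma map_k4 {R S : Type*} [CommRing R] [CommRing S] (φ : R →+* S) (H T E : R) (n : ℕ) :
    φ (k4 H T E n) = k4 (φ H) (φ T) (φ E) n := by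
  unfold k4
  split <;> simp [map_ofNat]

lemma map_k6 {R S : Type*} [CommRing R] [CommRing S] (φ : R →+* S) (H T E : R) (n : ℕ) :
    φ (k6 H T E n) = k6 (φ H) (φ T) (φ E) n := by
  unfold k6
  split <;> simp [map_ofNat]

lemma map_kD {R S : Type*} [CommRing R] [CommRing S] (φ : R →+* S) (H T E : R) (n : ℕ) :
    φ (kD H T E n) = kD (φ H) (φ T) (φ E) n := by
  unfold kD
  split <;> simp [map_ofNat]

variable {c4 c6 E : ℚ}

/-- The coefficients of the family are explicit integral polynomials in `c₄, c₆, Δ`. -/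
theorem coeff_family (h : c4 ^ 3 ≠ c6 ^ 2) (hE : c4 ^ 3 - c6 ^ 2 = 1728 * E) (n : ℕ) :
    (F4 c4 c6).coeff n = k4 c4 c6 E n ∧ (F6 c4 c6).coeff n = k6 c4 c6 E n ∧
      (FD c4 c6).coeff n = kD c4 c6 E n := by
  obtain ⟨a, b, hH, hT, hf⟩ := exists_complex_point h
  obtain ⟨e4, e6, eD⟩ := pencil_spec hH hT
  have hEC : ff a b ^ 5 = algebraMap ℚ ℂ E := by
    have e := congrArg (algebraMap ℚ ℂ) hE
    rw [map_sub, map_pow, map_pow, map_mul, map_ofNat, ← hH, ← hT, Hf_cube_sub_Tf_sq] at e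
    linear_combination (1 / 1728 : ℂ) * e
  set π : Universal.P2 →+* ℂ := (MvPolynomial.aeval (R := ℚ) ![a, b]).toRingHom with hπ
  have a0 : π (MvPolynomial.X 0) = a := by simp [hπ]
  have a1 : π (MvPolynomial.X 1) = b := by simp [hπ]
  have tl : ∀ G : Universal.P2, (Universal.toLine G).map π =
      MvPolynomial.aeval (R := ℚ) ![lineA a b, lineB a b] G := by
    intro G
    have h2 : (Polynomial.mapRingHom π).comp Universal.toLine.toRingHom =
        (MvPolynomial.aeval (R := ℚ) ![lineA a b, lineB a b]).toRingHom := by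
      refine MvPolynomial.ringHom_ext (fun r => ?_) (fun i => ?_)
      · simp [Universal.toLine, hπ]
      · fin_cases i <;> simp [Universal.toLine, a0, a1]
    exact RingHom.congr_fun h2 G
  refine ⟨?_, ?_, ?_⟩ <;> apply (algebraMap ℚ ℂ).injective
  · rw [map_k4, ← hH, ← hT, ← hEC, ← coeff_map, ← e4]
    have := congrArg (Polynomial.coeff · n) (tl (Hf (MvPolynomial.X 0) (MvPolynomial.X 1)))
    simp only [coeff_map, Universal.coeff_toLine_k4] at this
    simp only [map_Hf, MvPolynomial.aeval_X, Matrix.cons_val_zero, Matrix.cons_val_one] at this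
    rw [← this]
    simp [map_k4, map_Hf, map_Tf, map_ff, a0, a1]
  · rw [map_k6, ← hH, ← hT, ← hEC, ← coeff_map, ← e6]
    have := congrArg (Polynomial.coeff · n) (tl (Tf (MvPolynomial.X 0) (MvPolynomial.X 1)))
    simp only [coeff_map, Universal.coeff_toLine_k6] at this
    simp only [map_Tf, MvPolynomial.aeval_X, Matrix.cons_val_zero, Matrix.cons_val_one] at this
    rw [← this]
    simp [map_k6, map_Hf, map_Tf, map_ff, a0, a1]
  · refine mul_left_cancel₀ hf ?_
    rw [map_kD, ← hH, ← hT, ← hEC, ← coeff_map, ← coeff_C_mul, ← eD]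
    have := congrArg (Polynomial.coeff · n) (tl (ff (MvPolynomial.X 0) (MvPolynomial.X 1)))
    simp only [coeff_map, Universal.coeff_toLine_kD] at this
    simp only [map_ff, MvPolynomial.aeval_X, Matrix.cons_val_zero, Matrix.cons_val_one] at this
    rw [← this]
    simp [map_kD, map_Hf, map_Tf, map_ff, a0, a1]

end Values

end Fermat.Agent.ThreeFive
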