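import Mathlib.Algebra.MvPolynomial.Derivation
import Mathlib.Algebra.MvPolynomial.PDeriv
import Mathlib.Algebra.Polynomial.Derivative
import Mathlib.Algebra.Polynomial.AlgebraMap
import Mathlib.Algebra.Polynomial.BigOperators
import Mathlib.RingTheory.Adjoin.Basic
import Mathlib.Tactic.Ring
import Mathlib.Tactic.ComputeDegree
import Mathlib.Tactic.LinearCombination

/-!
# Klein's icosahedral forms along the covariant pencil `r + t • w(r)`

`Hf`, `Tf`, `ff` are the invariant forms of degree 20, 30, 12, and `w = (∂f/∂b, -∂f/∂a)`.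
The restriction of each of them to the line `r + t • w(r)` has coefficients which are universal
polynomials in `Hf r` and `Tf r` (times `ff r` for `ff`).
-/

namespace Fermat.Agent.ThreeFive

section Forms

variable {R : Type*} [CommRing R]

/-- Klein's form of degree 12. -/
def ff (a b : R) : R := a * b * (a ^ 10 - 11 * a ^ 5 * b ^ 5 - b ^ 10)

/-- Klein's form of degree 20 (the `c₄` of the level five curve). -/
def Hf (a b : R) : R :=
  a ^ 20 + 228 * a ^ 15 * b ^ 5 + 494 * a ^ 10 * b ^ 10 - 228 * a ^ 5 * b ^ 15 + b ^ 20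

/-- Klein's form of degree 30 (the `c₆` of the level five curve). -/
def Tf (a b : R) : R :=
  -a ^ 30 + 522 * a ^ 25 * b ^ 5 + 10005 * a ^ 20 * b ^ 10 + 10005 * a ^ 10 * b ^ 20
    - 522 * a ^ 5 * b ^ 25 - b ^ 30

/-- First component of the covariant of degree 11. -/
def w0 (a b : R) : R := a ^ 11 - 66 * a ^ 6 * b ^ 5 - 11 * a * b ^ 10

/-- Second component of the covariant of degree 11. -/
def w1 (a b : R) : R := -11 * a ^ 10 * b + 66 * a ^ 5 * b ^ 6 + b ^ 11

lemma Hf_cube_sub_Tf_sq (a b : R) : Hf a b ^ 3 - Tf a b ^ 2 = 1728 * ff a b ^ 5 := by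
  simp only [Hf, Tf, ff]; ring

lemma det_w (a b : R) : a * w1 a b - b * w0 a b = -12 * ff a b := by
  simp only [w0, w1, ff]; ring

variable {S : Type*} [CommRing S] {F : Type*} [FunLike F R S] [RingHomClass F R S] (φ : F)

lemma map_ff (a b : R) : φ (ff a b) = ff (φ a) (φ b) := by simp [ff, map_ofNat]

lemma map_Hf (a b : R) : φ (Hf a b) = Hf (φ a) (φ b) := by simp [Hf, map_ofNat]

lemma map_Tf (a b : R) : φ (Tf a b) = Tf (φ a) (φ b) := by simp [Tf, map_ofNat]

lemma map_w0 (a b : R) : φ (w0 a b) = w0 (φ a) (φ b) := by simp [w0, map_ofNat]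

lemma map_w1 (a b : R) : φ (w1 a b) = w1 (φ a) (φ b) := by simp [w1, map_ofNat]

end Forms

section Line

open Polynomial

variable {R : Type*} [CommRing R]

/-- The first coordinate of the moving point `r + t • w(r)`. -/
noncomputable def lineA (a b : R) : R[X] := C a + X * C (w0 a b)

/-- The second coordinate of the moving point `r + t • w(r)`. -/
noncomputable def lineB (a b : R) : R[X] := C b + X * C (w1 a b)

variable {S : Type*} [CommRing S] (φ : R →+* S)

@[simp] lemma map_lineA (a b : R) : (lineA a b).map φ = lineA (φ a) (φ b) := by simp [lineA, w0, _root_.map_ofNat]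

@[simp] lemma map_lineB (a b : R) : (lineB a b).map φ = lineB (φ a) (φ b) := by simp [lineB, w1, _root_.map_ofNat]

@[simp] lemma eval_lineA (a b t : R) : (lineA a b).eval t = a + t * w0 a b := by simp [lineA]; ring

@[simp] lemma eval_lineB (a b t : R) : (lineB a b).eval t = b + t * w1 a b := by simp [lineB]; ring

end Line

namespace Universal

open MvPolynomial

/-- The ring of binary forms. -/
abbrev P2 := MvPolynomial (Fin 2) ℚ

local notation "u" => (X (0 : Fin 2) : P2)
local notation "v" => (X (1 : Fin 2) : P2)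

/-- The derivation `w · ∇`. -/
noncomputable def wD : Derivation ℚ P2 P2 :=
  mkDerivation ℚ ![w0 u v, w1 u v]

/-- The Euler derivation. -/
noncomputable def euler : Derivation ℚ P2 P2 := mkDerivation ℚ ![u, v]

/-- Restriction to the moving line. -/
noncomputable def toLine : P2 →ₐ[ℚ] Polynomial P2 := aeval ![lineA u v, lineB u v]

/-- `wD` applied to the coefficients. -/
noncomputable def wDc : Polynomial P2 →+ Polynomial P2 where
  toFun p := p.sum fun n a => Polynomial.monomial n (wD a)
  map_zero' := Polynomial.sum_zero_index _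
  map_add' p q := Polynomial.sum_add_index p q _ (fun _ => by simp) (fun _ _ _ => by simp)

lemma coeff_wDc (p : Polynomial P2) (n : ℕ) : (wDc p).coeff n = wD (p.coeff n) := by
  induction p using Polynomial.induction_on' with
  | add p q hp hq => simp [map_add, hp, hq]
  | monomial m a =>
    simp only [wDc, AddMonoidHom.coe_mk, ZeroHom.coe_mk]
    rw [Polynomial.sum_monomial_index _ _ (by simp)]
    simp only [Polynomial.coeff_monomial]
    split_ifs <;> simp

lemma wDc_mul (p q : Polynomial P2) : wDc (p * q) = wDc p * q + p * wDc q := by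
  ext1 n
  simp only [coeff_wDc, Polynomial.coeff_add, Polynomial.coeff_mul, map_sum, Derivation.leibniz,
    ← Finset.sum_add_distrib, smul_eq_mul]
  exact Finset.sum_congr rfl fun x _ => by ring

lemma wDc_C (a : P2) : wDc (Polynomial.C a) = Polynomial.C (wD a) := by
  ext1 n
  simp only [coeff_wDc, Polynomial.coeff_C]
  split_ifs <;> simp

lemma wDc_X : wDc Polynomial.X = 0 := by
  ext1 n
  simp only [coeff_wDc, Polynomial.coeff_X, Polynomial.coeff_zero]
  split_ifs <;> simp

lemma deriv_ofNat (c : Fin 2 → P2) (n : ℕ) [n.AtLeastTwo] :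
    mkDerivation ℚ c (OfNat.ofNat n : P2) = 0 :=
  Derivation.map_natCast _ n

lemma wD_w0 : wD (w0 u v) = 11 * Hf u v * u := by
  simp [wD, w0, w1, Hf, Derivation.leibniz, Derivation.leibniz_pow]
  repeat rw [deriv_ofNat]
  ring

lemma wD_w1 : wD (w1 u v) = 11 * Hf u v * v := by
  simp [wD, w0, w1, Hf, Derivation.leibniz, Derivation.leibniz_pow]
  repeat rw [deriv_ofNat]
  ring

lemma wD_Hf : wD (Hf u v) = -20 * Tf u v := by
  simp [wD, w0, w1, Hf, Tf, Derivation.leibniz, Derivation.leibniz_pow]
  repeat rw [deriv_ofNat]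
  ring

lemma wD_Tf : wD (Tf u v) = -30 * Hf u v ^ 2 := by
  simp [wD, w0, w1, Hf, Tf, Derivation.leibniz, Derivation.leibniz_pow]
  repeat rw [deriv_ofNat]
  ring

lemma wD_ff : wD (ff u v) = 0 := by
  simp [wD, w0, w1, ff, Derivation.leibniz, Derivation.leibniz_pow]
  repeat rw [deriv_ofNat]
  ring

lemma euler_Hf : euler (Hf u v) = 20 * Hf u v := by
  simp [euler, Hf, Derivation.leibniz, Derivation.leibniz_pow]
  repeat rw [deriv_ofNat]
  ring

lemma euler_Tf : euler (Tf u v) = 30 * Tf u v := by
  simp [euler, Tf, Derivation.leibniz, Derivation.leibniz_pow]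
  repeat rw [deriv_ofNat]
  ring

lemma euler_ff : euler (ff u v) = 12 * ff u v := by
  simp [euler, ff, Derivation.leibniz, Derivation.leibniz_pow]
  repeat rw [deriv_ofNat]
  ring

/-- The differential equation of the restriction to the moving line. -/
lemma toLine_ode (φ : P2) :
    (1 - Polynomial.C (11 * Hf u v) * Polynomial.X ^ 2) * Polynomial.derivative (toLine φ)
      + Polynomial.C (11 * Hf u v) * Polynomial.X * toLine (euler φ) = wDc (toLine φ) := by
  induction φ using MvPolynomial.induction_on with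
  | C c =>
    have h : toLine (C c) = Polynomial.C (C c : P2) := by
      simp [toLine, Polynomial.algebraMap_apply, MvPolynomial.algebraMap_eq]
    simp [h, wDc_C]
  | add p q hp hq =>
    simp only [map_add]
    linear_combination hp + hq
  | mul_X p i hp =>
    have hX : toLine (X i) = ![lineA u v, lineB u v] i := by simp [toLine]
    have hd : Polynomial.derivative (toLine (X i)) = Polynomial.C (![w0 u v, w1 u v] i) := by
      rw [hX]; fin_cases i <;> simp [lineA, lineB]
    have hl : toLine (X i) = Polynomial.C (X i : P2) + Polynomial.X * Polynomial.C (![w0 u v, w1 u v] i) := by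
      rw [hX]; fin_cases i <;> simp [lineA, lineB]
    have hw : wDc (toLine (X i)) = Polynomial.C (![w0 u v, w1 u v] i)
        + Polynomial.X * Polynomial.C (11 * Hf u v * X i) := by
      have h1 : wD (X i) = ![w0 u v, w1 u v] i := by simp [wD]
      have h2 : wD (![w0 u v, w1 u v] i) = 11 * Hf u v * X i := by
        fin_cases i
        · exact wD_w0
        · exact wD_w1
      rw [hl, map_add, wDc_mul, wDc_X, wDc_C, wDc_C, h1, h2]
      simp
    have he : euler (p * X i) = euler p * X i + p * X i := by
      have : euler (X i) = X i := by fin_cases i <;> simp [euler]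
      rw [Derivation.leibniz, this, smul_eq_mul, smul_eq_mul]; ring
    rw [he]
    simp only [map_mul, map_add] at hw hp ⊢
    rw [wDc_mul, Polynomial.derivative_mul, hd, hw, ← hp, hl]
    ring

/-- The invariant subalgebra generated by `Hf` and `Tf`. -/
noncomputable def inv : Subalgebra ℚ P2 := Algebra.adjoin ℚ {Hf u v, Tf u v}

lemma Hf_mem_inv : Hf u v ∈ inv := Algebra.subset_adjoin (by simp)

lemma Tf_mem_inv : Tf u v ∈ inv := Algebra.subset_adjoin (by simp)

lemma wD_mem_inv {x : P2} (hx : x ∈ inv) : wD x ∈ inv := by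
  induction hx using Algebra.adjoin_induction with
  | mem x hx =>
    rcases hx with rfl | rfl
    · rw [wD_Hf]
      exact mul_mem (neg_mem (natCast_mem inv 20)) Tf_mem_inv
    · rw [wD_Tf]
      exact mul_mem (neg_mem (natCast_mem inv 30)) (pow_mem Hf_mem_inv 2)
  | algebraMap r => simp [zero_mem]
  | add x y _ _ hx hy => rw [map_add]; exact add_mem hx hy
  | mul x y hx hy ihx ihy =>
    rw [Derivation.leibniz, smul_eq_mul, smul_eq_mul]
    exact add_mem (mul_mem hx ihy) (mul_mem hy ihx)

/-- The coefficients of the restriction of a form `g` lie in `g₀ · inv`, where `g₀` is `1` or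
a `wD`-constant. -/
lemma coeff_toLine_mem (d : ℕ) (g g₀ : P2) (hg₀ : wD g₀ = 0) (hdeg : euler g = d * g)
    (h0 : ∃ s ∈ inv, (toLine g).coeff 0 = g₀ * s) (n : ℕ) :
    ∃ s ∈ inv, (toLine g).coeff n = g₀ * s := by
  induction n using Nat.strong_induction_on with
  | _ n ih =>
    rcases n with _ | m
    · exact h0
    have key := congrArg (fun p => Polynomial.coeff p m) (toLine_ode g)
    simp only [hdeg, map_mul, map_natCast] at key
    obtain ⟨s, hs, hs'⟩ := ih m (by omega)
    have hrhs : wD ((toLine g).coeff m) = g₀ * wD s := by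
      rw [hs', Derivation.leibniz, hg₀, smul_zero, add_zero, smul_eq_mul]
    simp only [coeff_wDc, hrhs, Polynomial.coeff_add, sub_mul, one_mul, Polynomial.coeff_sub,
      Polynomial.coeff_derivative] at key
    have hinvert : ∀ y : P2, (∃ z ∈ inv, ((m : P2) + 1) * y = g₀ * z) →
        ∃ z ∈ inv, y = g₀ * z := by
      rintro y ⟨z, hz, h⟩
      refine ⟨algebraMap ℚ P2 ((m : ℚ) + 1)⁻¹ * z, mul_mem (inv.algebraMap_mem _) hz, ?_⟩
      have h1 : algebraMap ℚ P2 ((m : ℚ) + 1)⁻¹ * ((m : P2) + 1) = 1 := by
        rw [show ((m : P2) + 1) = algebraMap ℚ P2 ((m : ℚ) + 1) by simp, ← map_mul,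
          inv_mul_cancel₀ (by positivity), map_one]
      linear_combination (-y) * h1 + algebraMap ℚ P2 ((m : ℚ) + 1)⁻¹ * h
    apply hinvert
    have hH : 11 * Hf u v ∈ inv := mul_mem (natCast_mem inv 11) Hf_mem_inv
    rcases m with _ | _ | k
    · refine ⟨wD s, wD_mem_inv hs, ?_⟩
      simp [mul_assoc] at key
      simp
      linear_combination key
    · obtain ⟨s0, hs0, hs0'⟩ := ih 0 (by omega)
      refine ⟨wD s - 11 * Hf u v * d * s0,
        sub_mem (wD_mem_inv hs) (mul_mem (mul_mem hH (natCast_mem inv d)) hs0), ?_⟩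
      simp [mul_assoc, Polynomial.coeff_X_pow_mul', hs0'] at key
      simp
      linear_combination key
    · obtain ⟨s1, hs1, hs1'⟩ := ih (k + 1) (by omega)
      refine ⟨wD s + 11 * Hf u v * ((k : P2) + 1 - d) * s1,
        add_mem (wD_mem_inv hs) (mul_mem (mul_mem hH (sub_mem (add_mem (natCast_mem inv k)
          (one_mem inv)) (natCast_mem inv d))) hs1), ?_⟩
      simp [mul_assoc, Polynomial.coeff_X_pow_mul', Polynomial.coeff_derivative, hs1'] at key
      push_cast at key ⊢
      linear_combination key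

lemma toLine_eq (G : P2) : toLine G = aeval ![lineA u v, lineB u v] G := rfl

lemma exists_line_poly (d : ℕ) (g g₀ : P2) (hg₀ : wD g₀ = 0) (hdeg : euler g = d * g)
    (h0 : ∃ s ∈ inv, (toLine g).coeff 0 = g₀ * s) (hn : (toLine g).natDegree ≤ d) :
    ∃ P : Polynomial P2, P.natDegree ≤ d ∧
      toLine g = Polynomial.C g₀ * P.map (aeval ![Hf u v, Tf u v]).toRingHom := by
  classical
  have hrange : inv = (aeval (R := ℚ) ![Hf u v, Tf u v]).range := by
    rw [inv, ← Algebra.adjoin_range_eq_range_aeval]
    congr 1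
    ext x; simp [or_comm]
  have H : ∀ n, ∃ q : P2, (toLine g).coeff n = g₀ * aeval ![Hf u v, Tf u v] q := fun n => by
    obtain ⟨s, hs, h⟩ := coeff_toLine_mem d g g₀ hg₀ hdeg h0 n
    rw [hrange] at hs
    obtain ⟨q, rfl⟩ := hs
    exact ⟨q, h⟩
  choose q hq using H
  refine ⟨∑ n ∈ Finset.range (d + 1), Polynomial.monomial n (q n), ?_, ?_⟩
  · exact Polynomial.natDegree_sum_le_of_forall_le _ _ fun n hn' =>
      (Polynomial.natDegree_monomial_le _).trans (by simp at hn'; omega)
  · ext1 n
    rw [Polynomial.coeff_C_mul, Polynomial.coeff_map, Polynomial.finsetSum_coeff]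
    simp only [Polynomial.coeff_monomial, Finset.sum_ite_eq', Finset.mem_range]
    split_ifs with h
    · exact hq n
    · simp [Polynomial.coeff_eq_zero_of_natDegree_lt (show (toLine g).natDegree < n by omega)]

lemma natDegree_toLine_forms : (toLine (Hf u v)).natDegree ≤ 20 ∧
    (toLine (Tf u v)).natDegree ≤ 30 ∧ (toLine (ff u v)).natDegree ≤ 12 := by
  refine ⟨?_, ?_, ?_⟩
  · simp only [toLine, map_Hf, aeval_X]; simp [Hf, lineA, lineB]; compute_degree!
  · simp only [toLine, map_Tf, aeval_X]; simp [Tf, lineA, lineB]; compute_degree!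
  · simp only [toLine, map_ff, aeval_X]; simp [ff, lineA, lineB]; compute_degree!

end Universal

section Pencil

open Polynomial

/-- Universal polynomials giving the forms along the pencil in terms of `Hf r` and `Tf r`. -/
theorem exists_pencil : ∃ P4 P6 P12 : Polynomial (MvPolynomial (Fin 2) ℚ),
    P4.natDegree ≤ 20 ∧ P6.natDegree ≤ 30 ∧ P12.natDegree ≤ 12 ∧
    ∀ (K : Type) [CommRing K] [Algebra ℚ K] (a b : K),
      Hf (lineA a b) (lineB a b)
          = P4.map (MvPolynomial.aeval (R := ℚ) ![Hf a b, Tf a b]).toRingHom ∧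
      Tf (lineA a b) (lineB a b)
          = P6.map (MvPolynomial.aeval (R := ℚ) ![Hf a b, Tf a b]).toRingHom ∧
      ff (lineA a b) (lineB a b)
          = C (ff a b) * P12.map (MvPolynomial.aeval (R := ℚ) ![Hf a b, Tf a b]).toRingHom := by
  obtain ⟨h4, h6, h12⟩ := Universal.natDegree_toLine_forms
  have ev : ∀ G : Universal.P2,
      (Universal.toLine G).coeff 0 = G := fun G => by
    rw [Polynomial.coeff_zero_eq_eval_zero]
    have h : ((Polynomial.aeval (0 : Universal.P2)).restrictScalars ℚ).comp Universal.toLine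
        = AlgHom.id ℚ _ := by
      ext i : 1
      fin_cases i <;> simp [Universal.toLine, lineA, lineB]
    simpa using AlgHom.congr_fun h G
  obtain ⟨P4, d4, e4⟩ := Universal.exists_line_poly 20 _ 1 (by simp)
    (by exact_mod_cast Universal.euler_Hf) ⟨_, Universal.Hf_mem_inv, by rw [ev]; simp⟩ h4
  obtain ⟨P6, d6, e6⟩ := Universal.exists_line_poly 30 _ 1 (by simp)
    (by exact_mod_cast Universal.euler_Tf) ⟨_, Universal.Tf_mem_inv, by rw [ev]; simp⟩ h6
  obtain ⟨P12, d12, e12⟩ := Universal.exists_line_poly 12 _ _ Universal.wD_ff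
    (by exact_mod_cast Universal.euler_ff) ⟨1, one_mem _, by rw [ev]; simp⟩ h12
  refine ⟨P4, P6, P12, d4, d6, d12, fun K _ _ a b => ?_⟩
  set π : Universal.P2 →+* K := (MvPolynomial.aeval (R := ℚ) ![a, b]).toRingHom with hπ
  have hc : π.comp (MvPolynomial.aeval (R := ℚ)
        ![Hf (MvPolynomial.X 0) (MvPolynomial.X 1 : Universal.P2),
          Tf (MvPolynomial.X 0) (MvPolynomial.X 1 : Universal.P2)]).toRingHom
      = (MvPolynomial.aeval (R := ℚ) ![Hf a b, Tf a b]).toRingHom := by
    refine MvPolynomial.ringHom_ext (fun r => by simp [hπ]) (fun i => ?_)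
    fin_cases i <;> simp [hπ, map_Hf, map_Tf]
  have a0 : π (MvPolynomial.X 0) = a := by simp [hπ]
  have a1 : π (MvPolynomial.X 1) = b := by simp [hπ]
  refine ⟨?_, ?_, ?_⟩
  · have := congrArg (Polynomial.mapRingHom π) e4
    rw [C_1, one_mul] at this
    simp only [Universal.toLine, map_Hf, MvPolynomial.aeval_X, coe_mapRingHom, Matrix.cons_val_zero,
      Matrix.cons_val_one, map_lineA, map_lineB, a0, a1, Polynomial.map_map, hc] at this
    exact this
  · have := congrArg (Polynomial.mapRingHom π) e6
    rw [C_1, one_mul] at this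
    simp only [Universal.toLine, map_Tf, MvPolynomial.aeval_X, coe_mapRingHom, Matrix.cons_val_zero,
      Matrix.cons_val_one, map_lineA, map_lineB, a0, a1, Polynomial.map_map, hc] at this
    exact this
  · have := congrArg (Polynomial.mapRingHom π) e12
    rw [map_mul, coe_mapRingHom, map_C, Universal.toLine_eq, map_ff, map_ff] at this
    simp only [MvPolynomial.aeval_X,
      Matrix.cons_val_zero, Matrix.cons_val_one, a0, a1, Polynomial.map_map, hc] at this
    rw [← this, ← coe_mapRingHom, map_ff, coe_mapRingHom, map_lineA, map_lineB, a0, a1]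

end Pencil

end Fermat.Agent.ThreeFive
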