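import Fermat.Agent.ThreeFive.NoBranch

/-!
# The family has no two-division branch

There is no polynomial `p` of degree at most ten with `p³ + A(t)p + B(t) = 0` along the family.
-/

namespace Fermat.Agent.ThreeFive

open Polynomial

variable {c4 c6 : ℚ}

/-- There is no polynomial branch of two-division points along the family, even after twisting
by a constant. -/
theorem no_branch_two (h : c4 ^ 3 ≠ c6 ^ 2) (p : ℂ[X]) (hp : p.natDegree ≤ 10) :
    p ^ 3 + (-27 * (F4 c4 c6).map (algebraMap ℚ ℂ)) * p +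
      (-54 * (F6 c4 c6).map (algebraMap ℚ ℂ)) ≠ 0 := by
  intro hψ
  set A : ℂ[X] := -27 * (F4 c4 c6).map (algebraMap ℚ ℂ) with hA
  set B : ℂ[X] := -54 * (F6 c4 c6).map (algebraMap ℚ ℂ) with hB
  set D : ℂ[X] := (FD c4 c6).map (algebraMap ℚ ℂ) with hD
  set c : ℂ := algebraMap ℚ ℂ (c4 ^ 3 - c6 ^ 2) with hc
  have hc0 : c ≠ 0 := by
    rw [hc, _root_.map_ne_zero]; exact sub_ne_zero.2 h
  have hdisc : 4 * A ^ 3 + 27 * B ^ 2 = -78732 * C c * D ^ 5 := by
    have e := congrArg (Polynomial.map (algebraMap ℚ ℂ)) (F_disc h)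
    simp only [Polynomial.map_sub, Polynomial.map_pow, Polynomial.map_mul, Polynomial.map_C,
      ← hc, ← hD] at e
    rw [hA, hB]; linear_combination (-78732 : ℂ[X]) * e
  set u := 3 * p ^ 2 + A with hu
  set v := 3 * p ^ 2 + 4 * A with hv
  have key : u ^ 2 * v = -78732 * C c * D ^ 5 := by
    rw [← hdisc, hu, hv]
    linear_combination (-27 * (B - p ^ 3 - A * p)) * hψ
  obtain ⟨S, hS, hroots⟩ := exists_simple_roots h
  have hdvd : ∀ t ∈ S, (X - C t) ^ 5 ∣ v := by
    intro t ht
    obtain ⟨hD0, hD1, hF⟩ := hroots t ht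
    have hA0 : A.eval t ≠ 0 := by
      rw [hA, eval_mul]; simpa using hF
    obtain ⟨G, hG⟩ := dvd_iff_isRoot.2 hD0
    rw [← hD] at hG hD1
    have hG0 : G.eval t ≠ 0 := by
      intro e; apply hD1; rw [hG, derivative_mul]; simp [e]
    have hu0 : u.eval t ≠ 0 := by
      intro e
      have hv0 : v.eval t ≠ 0 := by
        intro e'; apply hA0
        have h1 : 3 * p.eval t ^ 2 + A.eval t = 0 := by simpa [hu] using e
        have h2 : 3 * p.eval t ^ 2 + 4 * A.eval t = 0 := by simpa [hv] using e'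
        linear_combination (1 / 3 : ℂ) * h2 - (1 / 3 : ℂ) * h1
      obtain ⟨u1, hu1⟩ := dvd_iff_isRoot.2 e
      have hXne : (X - C t : ℂ[X]) ≠ 0 := X_sub_C_ne_zero t
      have k1 : u1 ^ 2 * v = (X - C t) ^ 3 * (-78732 * C c * G ^ 5) := by
        refine mul_left_cancel₀ (pow_ne_zero 2 hXne) ?_
        rw [hu1, hG] at key; linear_combination key
      have e1 : u1.eval t = 0 := by
        have := congrArg (Polynomial.eval t) k1
        simpa [hv0] using this
      obtain ⟨u2, hu2⟩ := dvd_iff_isRoot.2 e1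
      have k2 : u2 ^ 2 * v = (X - C t) * (-78732 * C c * G ^ 5) := by
        refine mul_left_cancel₀ (pow_ne_zero 2 hXne) ?_
        rw [hu2] at k1; linear_combination k1
      have e2 : u2.eval t = 0 := by
        have := congrArg (Polynomial.eval t) k2
        simpa [hv0] using this
      obtain ⟨u3, hu3⟩ := dvd_iff_isRoot.2 e2
      have k3 : (X - C t) * (u3 ^ 2 * v) = -78732 * C c * G ^ 5 := by
        refine mul_left_cancel₀ hXne ?_
        rw [hu3] at k2; linear_combination k2
      have := congrArg (Polynomial.eval t) k3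
      simp [hc0, hG0] at this
    have hcop : IsCoprime ((X - C t) ^ 5) (u ^ 2) :=
      (((irreducible_X_sub_C t).coprime_iff_not_dvd).2
        (fun hd => hu0 (dvd_iff_isRoot.1 hd))).pow
    refine hcop.dvd_of_dvd_mul_left ⟨-78732 * C c * G ^ 5, ?_⟩
    rw [key, hG]; ring
  have hprod : (∏ t ∈ S, (X - C t) ^ 5) ∣ v := by
    refine Finset.prod_dvd_of_coprime ?_ hdvd
    intro x _ y _ hxy
    exact (pairwise_coprime_X_sub_C Function.injective_id hxy).pow
  have hdeg : v.natDegree ≤ 20 := by
    rw [hv, hA]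
    refine (natDegree_add_le _ _).trans (max_le ?_ ?_)
    · exact (natDegree_C_mul_le (3 : ℂ) _).trans' (le_of_eq (by rw [map_ofNat])) |>.trans
        (natDegree_pow_le.trans (by omega))
    · rw [← mul_assoc, show (4 * -27 : ℂ[X]) = C (-108) by rw [map_neg, map_ofNat]; norm_num]
      exact (natDegree_C_mul_le _ _).trans (natDegree_map_le.trans (natDegree_F4_le c4 c6))
  have hv0 : v = 0 := by
    by_contra hv0
    have h25 := (natDegree_le_of_dvd hprod hv0).trans hdeg
    rw [natDegree_prod _ _ fun t _ => pow_ne_zero _ (X_sub_C_ne_zero t)] at h25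
    simp [natDegree_pow] at h25
    omega
  rw [hv0, mul_zero] at key
  have hD0 : D ≠ 0 := by
    intro e
    have := congrArg (Polynomial.eval 0) e
    simp [hD, eval_map, eval₂_at_zero, coeff_zero_eq_eval_zero, FD_eval_zero h] at this
  simp [hc0, hD0] at key

end Fermat.Agent.ThreeFive
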